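import Fermat.Agent.DeligneSerre.Rep.Main
import Fermat.Agent.DeligneSerre.Eigen.Assemble
import Fermat.Agent.Galois.Places

/-!
# The torsion representation in the shape used by `Eigen/Assemble`
-/

set_option autoImplicit false

noncomputable section

open CongruenceSubgroup
open scoped MatrixGroups

namespace FLTA.DeligneSerre

theorem hasTorsionRep {M l : ℕ} [NeZero M] (hM : 5 ≤ M) (hl : l.Prime) : HasTorsionRep M l := by
  haveI : NeZero l := ⟨hl.ne_zero⟩
  obtain ⟨π, hπ, hπT, hπD, hπp⟩ := exists_par_galois_rep M l hM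
  have hp' : ∀ (p : ℕ) (hp : p.Prime ∧ ¬ p ∣ M), p ≠ l → ¬ p ∣ l := fun p hp hne h =>
    hne ((Nat.prime_dvd_prime_iff_eq hp.1 hl).mp h)
  refine ⟨fun p q => ?_, π, hπ, hπT, hπD, fun p hp hne => hπp p hp (hp' p hp hne)⟩
  set T : ℕ → Module.End (ZMod l) (parHom1 M (ZMod l) (ZMod l)) := heckePar1 (ZMod l)
  suffices key : ∀ p, p ≠ l → ∀ q, Commute (T p) (T q) by
    by_cases hpl : p = l
    · by_cases hql : q = l
      · rw [hpl, hql]
      · exact (key q hql p).symm
    · exact key p hpl q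
  intro p hpl q
  by_cases hp : p.Prime ∧ ¬ p ∣ M
  · obtain ⟨B, hB⟩ := Galois.exists_liesOverPrime hp.1
    obtain ⟨φ, hφ⟩ := Galois.exists_isFrobeniusAt hp.1 hB
    have hrel := (hπp p hp (hp' p hp hpl) B hB).2 φ hφ
    set D : Module.End (ZMod l) (parHom1 M (ZMod l) (ZMod l)) :=
      (p : ZMod l) • diamondPar1 (ZMod l)
        (ZMod.unitOfCoprime p (hp.1.coprime_iff_not_dvd.mpr hp.2))
    have h : T p * π φ = π φ * π φ + D := by
      rw [eq_comm, ← sub_eq_zero, ← hrel]
      abel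
    have hT : T p = (π φ * π φ + D) * π φ⁻¹ := by
      rw [← h, mul_assoc, ← map_mul, mul_inv_cancel, map_one, mul_one]
    rw [hT]
    refine Commute.mul_left (Commute.add_left ((hπT φ q).mul_left (hπT φ q)) ?_) (hπT φ⁻¹ q)
    exact Commute.smul_left (commute_heckePar1_diamondPar1 (ZMod l) q _).symm _
  · have h0 : T p = 0 := LinearMap.ext fun χ => Subtype.ext (by
      rw [coe_heckePar1, heckeHom1_of_not (ZMod l) hp]; rfl)
    rw [h0]
    exact Commute.zero_left _

end FLTA.DeligneSerre
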