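import Fermat.Agent.DeligneSerre.Rep.Bound
import Fermat.Agent.DeligneSerre.Quad.LatticeMod
import Fermat.Agent.Kummer.AutOrbit

/-!
# Representatives with algebraic expansions

Among functions with character `χ` and poles of order at most `B`, the normalised one of maximal
order at infinity is unique, so its coefficients have finite orbit under `Aut(ℂ/ℚ̄)`.
-/

set_option autoImplicit false

noncomputable section

open scoped MatrixGroups
open UpperHalfPlane CongruenceSubgroup ModularCurve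

namespace FLTA.DeligneSerre

local notation "Qb" => AlgebraicClosure ℚ

theorem order_single_mul_coeffMap (σ : ℂ ≃+* ℂ) {ζ : ℂ} (hζ : ζ ≠ 0) (x : LaurentSeries ℂ) :
    (HahnSeries.single 0 ζ * coeffMap (σ : ℂ →+* ℂ) x).order = x.order := by
  rcases eq_or_ne x 0 with rfl | hx
  · simp
  have hc : ∀ m, (HahnSeries.single 0 ζ * coeffMap (σ : ℂ →+* ℂ) x).coeff m ≠ 0 ↔
      x.coeff m ≠ 0 := fun m => by
    simp [HahnSeries.coeff_single_zero_mul, hζ]
  have hne : HahnSeries.single 0 ζ * coeffMap (σ : ℂ →+* ℂ) x ≠ 0 := fun h =>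
    ((hc x.order).mpr fun h' => hx (HahnSeries.coeff_order_eq_zero.mp h'))
      (by rw [h]; rfl)
  refine le_antisymm (HahnSeries.order_le_of_coeff_ne_zero ((hc _).mpr ?_))
    (HahnSeries.order_le_of_coeff_ne_zero ((hc _).mp ?_))
  · exact fun h => hx (HahnSeries.coeff_order_eq_zero.mp h)
  · exact fun h => hne (HahnSeries.coeff_order_eq_zero.mp h)

theorem order_single_mul {c : ℂ} (hc : c ≠ 0) (x : LaurentSeries ℂ) :
    (HahnSeries.single 0 c * x).order = x.order := by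
  have h := order_single_mul_coeffMap (RingEquiv.refl ℂ) hc x
  rwa [show coeffMap ((RingEquiv.refl ℂ : ℂ ≃+* ℂ) : ℂ →+* ℂ) x = x from coeffMap_id x] at h

theorem exists_iota_eq_zetaC (N : ℕ) [NeZero N] : ∃ a : Qb, iota a = zetaC N := by
  haveI : NeZero (N : Qb) := ⟨Nat.cast_ne_zero.mpr (NeZero.ne N)⟩
  obtain ⟨z, hz⟩ := HasEnoughRootsOfUnity.exists_primitiveRoot Qb N
  obtain ⟨i, -, hi⟩ := (hz.map_of_injective iota.injective).eq_pow_of_pow_eq_one
    (isPrimitiveRoot_zetaC N).pow_eq_one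
  exact ⟨z ^ i, by rw [map_pow, hi]⟩

theorem galConj_self {N u : ℕ} (hu : (u : ZMod N) = 1) (g : SL(2, ℤ)) : GalConj N u g g := by
  refine ⟨rfl, ?_, ?_, rfl⟩ <;> rw [hu, one_mul]

variable {N n : ℕ} [NeZero N] [NeZero n]

/-- Nonzero functions with character `χ` and poles of order at most `B`. -/
def InSpace (χ : ParV N n) (B : ℕ) (F : ℍ → ℂ) : Prop :=
  IsCharFn χ.1 F ∧ F ≠ 0 ∧ ∀ g, -(B : ℤ) ≤ (cexp N F g).order

/-- The normalised element of maximal order at infinity. -/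
def IsCanon (χ : ParV N n) (B : ℕ) (F : ℍ → ℂ) : Prop :=
  InSpace χ B F ∧ (cexp N F 1).coeff (cexp N F 1).order = 1 ∧
    ∀ G, InSpace χ B G → (cexp N G 1).order ≤ (cexp N F 1).order

theorem InSpace.smul {χ : ParV N n} {B : ℕ} {F : ℍ → ℂ} (h : InSpace χ B F) {c : ℂ} (hc : c ≠ 0) :
    InSpace χ B (c • F) := by
  have hm := h.1.mem_perFn (isPar1_coe χ)
  refine ⟨h.1.smul c, smul_ne_zero hc h.2.1, fun g => ?_⟩
  rw [cexp_smul_single hm, order_single_mul hc]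
  exact h.2.2 g

theorem IsCanon.unique {χ : ParV N n} {B : ℕ} {F F' : ℍ → ℂ} (h : IsCanon χ B F)
    (h' : IsCanon χ B F') : F = F' := by
  have hord : (cexp N F 1).order = (cexp N F' 1).order :=
    le_antisymm (h'.2.2 F h.1) (h.2.2 F' h'.1)
  have hm := h.1.1.mem_perFn (isPar1_coe χ)
  have hm' := h'.1.1.mem_perFn (isPar1_coe χ)
  by_contra hne
  have hD0 : F - F' ≠ 0 := sub_ne_zero.mpr hne
  have hne' : ∀ g, cexp N (F - F') g ≠ 0 := cexp_one_one_of_ne_zero (sub_mem hm hm') hD0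
  have hsp : InSpace χ B (F - F') := by
    refine ⟨h.1.1.sub h'.1.1, hD0, fun g => ?_⟩
    by_contra hlt
    rw [not_le] at hlt
    refine hne' g (HahnSeries.coeff_order_eq_zero.mp ?_)
    rw [cexp_sub hm hm', HahnSeries.coeff_sub, HahnSeries.coeff_eq_zero_of_lt_order
      (lt_of_lt_of_le (by rwa [cexp_sub hm hm'] at hlt) (h.1.2.2 g)),
      HahnSeries.coeff_eq_zero_of_lt_order
      (lt_of_lt_of_le (by rwa [cexp_sub hm hm'] at hlt) (h'.1.2.2 g)), sub_zero]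
  have hle := h.2.2 _ hsp
  refine hne' 1 (HahnSeries.coeff_order_eq_zero.mp ?_)
  rcases hle.lt_or_eq with hlt | heq
  · rw [cexp_sub hm hm'] at hlt ⊢
    rw [HahnSeries.coeff_sub, HahnSeries.coeff_eq_zero_of_lt_order hlt,
      HahnSeries.coeff_eq_zero_of_lt_order (hord ▸ hlt), sub_zero]
  · rw [heq, cexp_sub hm hm', HahnSeries.coeff_sub, h.2.1, hord, h'.2.1, sub_self]

variable (hN : 5 ≤ N)
include hN

theorem exists_isCanon (χ : ParV N n) : ∃ B F, IsCanon χ B F := by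
  obtain ⟨F₀, hF₀, h0⟩ := exists_isCharFn (isPar1_coe χ) hN
  obtain ⟨B, hB⟩ := hF₀.exists_order_bound (isPar1_coe χ) h0
  obtain ⟨C, hC⟩ := exists_order_le N (n := n) B
  obtain ⟨m, ⟨F, hF, rfl⟩, hmax⟩ := Int.exists_greatest_of_bdd
    (P := fun m => ∃ F, InSpace χ B F ∧ (cexp N F 1).order = m)
    ⟨C, fun m ⟨F, hF, hm⟩ => hm ▸ hC χ.1 F (isPar1_coe χ) hF.1 hF.2.1 hF.2.2⟩
    ⟨_, F₀, ⟨hF₀, h0, hB⟩, rfl⟩
  have hm := hF.1.mem_perFn (isPar1_coe χ)
  set c := (cexp N F 1).coeff (cexp N F 1).order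
  have hc : c ≠ 0 := fun h =>
    cexp_one_one_of_ne_zero hm hF.2.1 1 (HahnSeries.coeff_order_eq_zero.mp h)
  have hord : (cexp N (c⁻¹ • F) 1).order = (cexp N F 1).order := by
    rw [cexp_smul_single hm, order_single_mul (inv_ne_zero hc)]
  refine ⟨B, c⁻¹ • F, hF.smul (inv_ne_zero hc), ?_, fun G hG => ?_⟩
  · rw [hord, cexp_smul_single hm, HahnSeries.coeff_single_zero_mul, inv_mul_cancel₀ hc]
  · rw [hord]
    exact hmax _ ⟨G, hG, rfl⟩

theorem InSpace.exists_conj {χ : ParV N n} {B : ℕ} {F : ℍ → ℂ} (h : InSpace χ B F)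
    (σ : ℂ ≃+* ℂ) : ∃ (u : ℕ) (G : ℍ → ℂ), σ (zetaC N) = zetaC N ^ u ∧
      InSpace (conjRep hN σ χ) B G ∧ cexp N G 1 = coeffMap (σ : ℂ →+* ℂ) (cexp N F 1) ∧
      ∀ g g', GalConj N u g g' → ∃ ζ : ℂ, ζ ^ n = 1 ∧
        cexp N G g' = HahnSeries.single 0 ζ * coeffMap (σ : ℂ →+* ℂ) (cexp N F g) := by
  obtain ⟨u, hu, hu', hc⟩ := DeligneSerre.exists_conj (n := n) hN σ
  obtain ⟨χ', G, hG, hG0, he, hall⟩ := hc χ F h.1 h.2.1
  have hχ' : conjRep hN σ χ = χ' := conjRep_eq hN h.1 h.2.1 hG he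
  refine ⟨u, G, hu', ?_, he, hall⟩
  rw [hχ']
  refine ⟨hG, hG0, fun g' => ?_⟩
  obtain ⟨g, hg⟩ := GalConj.exists_left hu g'
  obtain ⟨ζ, hζ, hζe⟩ := hall g g' hg
  have hζ0 : ζ ≠ 0 := by rintro rfl; rw [zero_pow (NeZero.ne n)] at hζ; exact zero_ne_one hζ
  rw [hζe, order_single_mul_coeffMap _ hζ0]
  exact h.2.2 g

theorem order_coeffMap_one {σ : ℂ ≃+* ℂ} {F G : ℍ → ℂ}
    (he : cexp N G 1 = coeffMap (σ : ℂ →+* ℂ) (cexp N F 1)) :
    (cexp N G 1).order = (cexp N F 1).order := by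
  have := order_single_mul_coeffMap σ one_ne_zero (cexp N F 1)
  rwa [HahnSeries.single_zero_one, one_mul, ← he] at this

theorem IsCanon.exists_conj {χ : ParV N n} {B : ℕ} {F : ℍ → ℂ} (h : IsCanon χ B F)
    (σ : ℂ ≃+* ℂ) : ∃ (u : ℕ) (G : ℍ → ℂ), σ (zetaC N) = zetaC N ^ u ∧
      IsCanon (conjRep hN σ χ) B G ∧ cexp N G 1 = coeffMap (σ : ℂ →+* ℂ) (cexp N F 1) ∧
      ∀ g g', GalConj N u g g' → ∃ ζ : ℂ, ζ ^ n = 1 ∧
        cexp N G g' = HahnSeries.single 0 ζ * coeffMap (σ : ℂ →+* ℂ) (cexp N F g) := by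
  obtain ⟨u, G, hu, hG, he, hall⟩ := h.1.exists_conj hN σ
  refine ⟨u, G, hu, ⟨hG, ?_, fun G' hG' => ?_⟩, he, hall⟩
  · rw [order_coeffMap_one hN he, he, coeffMap_coeff, h.2.1, map_one]
  · obtain ⟨-, F', -, hF', he', -⟩ := hG'.exists_conj hN σ⁻¹
    rw [← Module.End.mul_apply, ← map_mul, inv_mul_cancel, map_one, Module.End.one_apply] at hF'
    rw [order_coeffMap_one hN he, ← order_coeffMap_one hN he']
    exact h.2.2 F' hF'

/-- The canonical functions with bound `B` form a finite set. -/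
theorem finite_isCanon (B : ℕ) : {F : ℍ → ℂ | ∃ χ : ParV N n, IsCanon χ B F}.Finite := by
  haveI : Finite (ParV N n) := finite_parHom1 N (ZMod n)
  rw [show {F : ℍ → ℂ | ∃ χ : ParV N n, IsCanon χ B F} = ⋃ χ : ParV N n, {F | IsCanon χ B F} by
    ext F; simp]
  exact Set.finite_iUnion fun χ => Set.Subsingleton.finite fun F hF F' hF' => hF.unique hF'

/-- The canonical function has algebraic expansions. -/
theorem IsCanon.isAlgFn {χ : ParV N n} {B : ℕ} {F : ℍ → ℂ} (h : IsCanon χ B F) :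
    IsAlgFn N F := by
  intro g k
  letI : Algebra Qb ℂ := iota.toAlgebra
  refine FLTA.Kummer.mem_range_of_finite_orbit ?_
  have hfin : (Set.image2 (fun (ζ : ℂ) (G : ℍ → ℂ) => ζ * (cexp N G g).coeff k)
      {ζ : ℂ | ζ ^ n = 1} {G : ℍ → ℂ | ∃ χ : ParV N n, IsCanon χ B G}).Finite := by
    refine Set.Finite.image2 _ ?_ (finite_isCanon hN B)
    refine (Polynomial.nthRootsFinset n (1 : ℂ)).finite_toSet.subset fun ζ hζ => ?_
    exact (Polynomial.mem_nthRootsFinset (NeZero.pos n) 1).mpr hζ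
  refine hfin.subset ?_
  rintro _ ⟨σ, rfl⟩
  obtain ⟨u, G, hu, hG, -, hall⟩ := h.exists_conj hN σ.toRingEquiv
  obtain ⟨a, ha⟩ := exists_iota_eq_zetaC N
  have hfix : σ.toRingEquiv (zetaC N) = zetaC N := by
    rw [← ha]
    exact σ.commutes a
  have hu1 : (u : ZMod N) = 1 := by
    rw [hu] at hfix
    have h0 := (isPrimitiveRoot_zetaC N).ne_zero (NeZero.ne N)
    have h1 : zetaC N ^ ((u : ℤ) - 1) = 1 := by
      rw [zpow_sub₀ h0, zpow_natCast, zpow_one, hfix, div_self h0]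
    rw [(isPrimitiveRoot_zetaC N).zpow_eq_one_iff_dvd, ← ZMod.intCast_zmod_eq_zero_iff_dvd] at h1
    push_cast at h1
    exact sub_eq_zero.mp h1
  obtain ⟨ζ, hζ, hζe⟩ := hall g g (galConj_self hu1 g)
  have hζ0 : ζ ≠ 0 := by rintro rfl; rw [zero_pow (NeZero.ne n)] at hζ; exact zero_ne_one hζ
  refine ⟨ζ⁻¹, ?_, G, ⟨_, hG⟩, ?_⟩
  · show ζ⁻¹ ^ n = 1
    rw [inv_pow, hζ, inv_one]
  · show ζ⁻¹ * (cexp N G g).coeff k = σ ((cexp N F g).coeff k)
    rw [hζe, HahnSeries.coeff_single_zero_mul, coeffMap_coeff, inv_mul_cancel_left₀ hζ0]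
    rfl

/-- Every parabolic character is the character of a function with algebraic expansions. -/
theorem exists_alg_charFn (χ : ParV N n) :
    ∃ F, IsCharFn χ.1 F ∧ F ≠ 0 ∧ IsAlgFn N F := by
  obtain ⟨B, F, h⟩ := exists_isCanon hN χ
  exact ⟨F, h.1.1, h.1.2.1, h.isAlgFn hN⟩

end FLTA.DeligneSerre
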