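import Fermat.Agent.DeligneSerre.Rep.Rel
import Fermat.Agent.Igusa.LevelOne

/-!
# Bounded poles bound the vanishing order at infinity
-/

set_option autoImplicit false

noncomputable section

open scoped MatrixGroups
open UpperHalfPlane CongruenceSubgroup ModularCurve

namespace FLTA.DeligneSerre

theorem order_pow_laurent {x : LaurentSeries ℂ} (hx : x ≠ 0) (m : ℕ) :
    (x ^ m).order = m * x.order := by
  induction m with
  | zero => simp
  | succ m ih =>
    rw [pow_succ, HahnSeries.order_mul (pow_ne_zero m hx) hx, ih]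
    push_cast; ring

theorem order_prod_laurent {ι : Type*} (s : Finset ι) {f : ι → LaurentSeries ℂ}
    (h : ∀ i ∈ s, f i ≠ 0) : (∏ i ∈ s, f i).order = ∑ i ∈ s, (f i).order := by
  classical
  induction s using Finset.induction_on with
  | empty => simp
  | insert a s ha ih =>
    have hs : ∀ i ∈ s, f i ≠ 0 := fun i hi => h i (Finset.mem_insert_of_mem hi)
    rw [Finset.prod_insert ha, Finset.sum_insert ha,
      HahnSeries.order_mul (h a (Finset.mem_insert_self a s)) (Finset.prod_ne_zero_iff.mpr hs),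
      ih hs]

variable {N : ℕ} [NeZero N]

local notation "Q" => SL(2, ℤ) ⧸ Gamma N

local instance : (Gamma N).Normal := Gamma_normal N

local instance : Fintype Q := Subgroup.fintypeQuotientOfFiniteIndex

/-- Level `N` invariant functions only depend on the class modulo `Γ(N)`. -/
theorem fn_smul_out {P : ℍ → ℂ} (hP : P ∈ Fn N) (g : SL(2, ℤ)) (τ : ℍ) :
    P (g • τ) = P ((QuotientGroup.mk g : Q).out • τ) := by
  have hmem : g * (QuotientGroup.mk g : Q).out⁻¹ ∈ Gamma N := by
    refine (QuotientGroup.eq_one_iff _).mp ?_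
    rw [QuotientGroup.mk_mul, QuotientGroup.mk_inv, QuotientGroup.out_eq', mul_inv_cancel]
  have h := hP.2.1 _ hmem ((QuotientGroup.mk g : Q).out • τ)
  rwa [← mul_smul, inv_mul_cancel_right] at h

theorem cexp_out {P : ℍ → ℂ} (hP : P ∈ Fn N) (g : SL(2, ℤ)) :
    cexp N P g = cexp N P (QuotientGroup.mk g : Q).out :=
  cexp_congr (funext fun τ => fn_smul_out hP g τ)

/-- The orders of an invariant function are bounded below. -/
theorem exists_order_bound {P : ℍ → ℂ} (hP : P ∈ Fn N) :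
    ∃ B : ℕ, ∀ g, -(B : ℤ) ≤ (cexp N P g).order := by
  classical
  refine ⟨∑ q : Q, (cexp N P q.out).order.natAbs, fun g => ?_⟩
  rw [cexp_out hP g]
  have h := Finset.single_le_sum (f := fun q : Q => (cexp N P q.out).order.natAbs)
    (fun _ _ => Nat.zero_le _) (Finset.mem_univ (QuotientGroup.mk g : Q))
  omega

/-- The product over all translates is invariant under `SL(2, ℤ)`, so has nonpositive order. -/
theorem sum_order_le_zero {P : ℍ → ℂ} (hP : P ∈ Fn N) (h0 : P ≠ 0) :
    ∑ q : Q, (cexp N P q.out).order ≤ 0 := by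
  classical
  have hPN := fn_le_perFn hP
  set R : ℍ → ℂ := ∏ q : Q, fun τ : ℍ => P (q.out • τ)
  have hRN : R ∈ PerFn N := prod_mem fun q _ => PerFn.comp hPN _
  have hinv : ∀ (γ : SL(2, ℤ)) (τ : ℍ), R (γ • τ) = R τ := by
    intro γ τ
    simp only [R, Finset.prod_apply]
    refine Fintype.prod_equiv (Equiv.mulRight (QuotientGroup.mk γ : Q)) _ _ fun q => ?_
    rw [← mul_smul, fn_smul_out hP (q.out * γ), QuotientGroup.mk_mul, QuotientGroup.out_eq']
    rfl
  have hne : ∀ q : Q, cexp N P q.out ≠ 0 := fun q => cexp_one_one_of_ne_zero hPN h0 _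
  have hexp : cexp N R 1 = ∏ q : Q, cexp N P q.out := by
    rw [cexp_eq hRN, show (⟨R, hRN⟩ : PerFn N) =
      ∏ q : Q, ⟨_, PerFn.comp hPN q.out⟩ from Subtype.ext (by
        rw [SubmonoidClass.coe_finsetProd]), map_prod]
    exact Finset.prod_congr rfl fun q _ => by rw [← cexp_eq, cexp_comp, mul_one]
  have hsum : (cexp N R 1).order = ∑ q : Q, (cexp N P q.out).order := by
    rw [hexp, order_prod_laurent _ fun q _ => hne q]
  rw [← hsum]
  by_contra hlt
  rw [not_le] at hlt
  have hb : IsBoundedAtImInfty R := by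
    have := (isBoundedAtImInfty_iff_cexp_order (g := 1) hRN).mpr hlt.le
    simpa using this
  obtain ⟨a, ha⟩ := FLTA.Igusa.exists_const_of_invariant
    (FLTA.Bridge.mem_hol_iff.mp (PerFn.mem_hol hRN)) hinv hb
  have hc : R = algebraMap ℂ (ℍ → ℂ) a := funext ha
  have hc' : cexp N R 1 = HahnSeries.single 0 a := by
    rw [hc, cexp_eq (Subalgebra.algebraMap_mem _ _),
      show (⟨algebraMap ℂ (ℍ → ℂ) a, Subalgebra.algebraMap_mem _ _⟩ : PerFn N) =
        algebraMap ℂ (PerFn N) a from rfl, AlgHom.commutes, algebraMap_laurentSeries_eq_single]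
  rw [hc'] at hlt
  by_cases ha0 : a = 0
  · simp [ha0] at hlt
  · rw [HahnSeries.order_single ha0] at hlt
    exact lt_irrefl _ hlt

variable {n : ℕ} [NeZero n]

theorem IsCharFn.order_pow {χ : Additive (Gamma1 N) →+ ZMod n} {F : ℍ → ℂ} (hF : IsCharFn χ F)
    (hχ : IsPar1 χ) (h0 : F ≠ 0) (g : SL(2, ℤ)) :
    (cexp N (F ^ n) g).order = n * (cexp N F g).order := by
  rw [cexp_pow (hF.mem_perFn hχ), order_pow_laurent (cexp_one_one_of_ne_zero (hF.mem_perFn hχ) h0 g)]

theorem IsCharFn.pow_ne_zero' {χ : Additive (Gamma1 N) →+ ZMod n} {F : ℍ → ℂ}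
    (hF : IsCharFn χ F) (hχ : IsPar1 χ) (h0 : F ≠ 0) : F ^ n ≠ 0 := fun h =>
  pow_ne_zero n (cexp_one_one_of_ne_zero (hF.mem_perFn hχ) h0 1)
    (by rw [← cexp_pow (hF.mem_perFn hχ), h, cexp_zero])

/-- Functions with character have poles of bounded order. -/
theorem IsCharFn.exists_order_bound {χ : Additive (Gamma1 N) →+ ZMod n} {F : ℍ → ℂ}
    (hF : IsCharFn χ F) (hχ : IsPar1 χ) (h0 : F ≠ 0) :
    ∃ B : ℕ, ∀ g, -(B : ℤ) ≤ (cexp N F g).order := by
  obtain ⟨B, hB⟩ := DeligneSerre.exists_order_bound hF.pow_mem_fn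
  refine ⟨B, fun g => ?_⟩
  have h := hB g
  rw [hF.order_pow hχ h0] at h
  have h1 : (1 : ℤ) ≤ n := by exact_mod_cast Nat.one_le_iff_ne_zero.mpr (NeZero.ne n)
  by_contra hc
  rw [not_le] at hc
  nlinarith

variable (N) in
/-- A bound for the vanishing order at infinity. -/
theorem exists_order_le (B : ℕ) : ∃ C : ℤ, ∀ (χ : Additive (Gamma1 N) →+ ZMod n) (F : ℍ → ℂ),
    IsPar1 χ → IsCharFn χ F → F ≠ 0 → (∀ g, -(B : ℤ) ≤ (cexp N F g).order) →
      (cexp N F 1).order ≤ C := by
  classical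
  refine ⟨(Fintype.card Q - 1) * B, fun χ F hχ hF h0 hB => ?_⟩
  have h := sum_order_le_zero hF.pow_mem_fn (hF.pow_ne_zero' hχ h0)
  simp only [hF.order_pow hχ h0] at h
  rw [← Finset.mul_sum] at h
  have hn : (0 : ℤ) < n := by exact_mod_cast NeZero.pos n
  have hS : ∑ q : Q, (cexp N F q.out).order ≤ 0 := nonpos_of_mul_nonpos_right h hn
  rw [← Finset.add_sum_erase _ _ (Finset.mem_univ ((QuotientGroup.mk 1 : Q)))] at hS
  have h1 : (cexp N F 1).order = (cexp N F (QuotientGroup.mk 1 : Q).out).order := by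
    have h2 := congrArg HahnSeries.order (cexp_out hF.pow_mem_fn (1 : SL(2, ℤ)))
    rw [hF.order_pow hχ h0, hF.order_pow hχ h0] at h2
    exact mul_left_cancel₀ hn.ne' h2
  have h3 : ((Finset.univ.erase (QuotientGroup.mk 1 : Q)).card : ℤ) * (-(B : ℤ)) ≤
      ∑ q ∈ Finset.univ.erase (QuotientGroup.mk 1 : Q), (cexp N F q.out).order := by
    have := Finset.card_nsmul_le_sum (Finset.univ.erase (QuotientGroup.mk 1 : Q))
      (fun q => (cexp N F q.out).order) (-(B : ℤ)) (fun q _ => hB _)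
    simpa [nsmul_eq_mul] using this
  rw [Finset.card_erase_of_mem (Finset.mem_univ _), Finset.card_univ,
    Nat.cast_sub (Fintype.card_pos_iff.mpr ⟨QuotientGroup.mk 1⟩)] at h3
  push_cast at h3
  rw [h1]
  linarith

end FLTA.DeligneSerre
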