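import Fermat.Agent.DeligneSerre.Rep.Series
import Fermat.Agent.Kummer.CharFun
import Mathlib.Analysis.SpecialFunctions.Complex.CircleAddChar

/-!
# Functions with a parabolic character on `Γ₁(N)`

For `N ≥ 5` every `χ : Γ₁(N) → ZMod n` killing the elements of trace `± 2` is the character of a
nonzero holomorphic function on `ℍ` which is meromorphic at every cusp.
-/

set_option autoImplicit false

noncomputable section

open scoped MatrixGroups Real Manifold ModularForm
open UpperHalfPlane CongruenceSubgroup Filter Topology EisensteinSeries Matrix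

namespace FLTA.DeligneSerre

open FLTA.Bridge (Hol GrowthInfty HolInfty)
open FLTA.Kummer (weightedEis vecEquiv)

variable {N n : ℕ} [NeZero n]

/-- `χ` kills the elements of trace `± 2`. -/
def IsPar1 (χ : Additive (Gamma1 N) →+ ZMod n) : Prop :=
  ∀ γ : Gamma1 N, ((γ : SL(2, ℤ)) : Matrix (Fin 2) (Fin 2) ℤ).trace ^ 2 = 4 →
    χ (Additive.ofMul γ) = 0

/-- The complex value of a character. -/
def psi (χ : Additive (Gamma1 N) →+ ZMod n) : Gamma1 N →* ℂ where
  toFun γ := ZMod.stdAddChar (χ (Additive.ofMul γ))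
  map_one' := by simp
  map_mul' γ δ := by rw [ofMul_mul, map_add, AddChar.map_add_eq_mul]

theorem psi_apply (χ : Additive (Gamma1 N) →+ ZMod n) (γ : Gamma1 N) :
    psi χ γ = ZMod.stdAddChar (χ (Additive.ofMul γ)) := rfl

theorem psi_pow (χ : Additive (Gamma1 N) →+ ZMod n) (γ : Gamma1 N) : psi χ γ ^ n = 1 := by
  rw [psi_apply, ← AddChar.map_nsmul_eq_pow, nsmul_eq_mul, ZMod.natCast_self, zero_mul,
    AddChar.map_zero_eq_one]

theorem psi_ne_zero (χ : Additive (Gamma1 N) →+ ZMod n) (γ : Gamma1 N) : psi χ γ ≠ 0 := fun h => by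
  have := psi_pow χ γ
  rw [h, zero_pow (NeZero.ne n)] at this
  exact zero_ne_one this

theorem psi_add (χ χ' : Additive (Gamma1 N) →+ ZMod n) (γ : Gamma1 N) :
    psi (χ + χ') γ = psi χ γ * psi χ' γ := by
  simp only [psi_apply, AddMonoidHom.add_apply, AddChar.map_add_eq_mul]

theorem psi_eq_one_iff (χ : Additive (Gamma1 N) →+ ZMod n) (γ : Gamma1 N) :
    psi χ γ = 1 ↔ χ (Additive.ofMul γ) = 0 := by
  refine ⟨fun h => ZMod.injective_stdAddChar (N := n) ?_, fun h => by rw [psi_apply, h]; simp⟩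
  rw [AddChar.map_zero_eq_one]
  exact h

/-- `F` is holomorphic, meromorphic at the cusps, with character `χ` on `Γ₁(N)`. -/
structure IsCharFn (χ : Additive (Gamma1 N) →+ ZMod n) (F : ℍ → ℂ) : Prop where
  hol : F ∈ Hol
  transform : ∀ (γ : Gamma1 N) (τ : ℍ), F ((γ : SL(2, ℤ)) • τ) = psi χ γ * F τ
  growth : ∀ g : SL(2, ℤ), GrowthInfty (fun τ : ℍ => F (g • τ))

theorem gamma_le_gamma1 {γ : SL(2, ℤ)} (h : γ ∈ Gamma N) : γ ∈ Gamma1 N := by
  obtain ⟨ha, hb, hc, hd⟩ := Gamma_mem.mp h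
  exact (Gamma1_mem _ _).mpr ⟨ha, hd, hc⟩

theorem trace_conj_T_zpow (g : SL(2, ℤ)) (m : ℤ) :
    ((g * ModularGroup.T ^ m * g⁻¹ : SL(2, ℤ)) : Matrix (Fin 2) (Fin 2) ℤ).trace = 2 := by
  rw [Matrix.SpecialLinearGroup.coe_mul, Matrix.SpecialLinearGroup.coe_mul, Matrix.trace_mul_cycle,
    ← Matrix.SpecialLinearGroup.coe_mul, inv_mul_cancel, Matrix.SpecialLinearGroup.coe_one, one_mul,
    ModularGroup.coe_T_zpow, Matrix.trace_fin_two_of]
  norm_num

namespace IsCharFn

variable {χ χ' : Additive (Gamma1 N) →+ ZMod n} {F G : ℍ → ℂ}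

theorem mem_perFn [NeZero N] (h : IsCharFn χ F) (hχ : IsPar1 χ) : F ∈ PerFn N := by
  refine mem_perFn_of_invariant h.hol h.growth fun g τ => ?_
  have hmem : g * ModularGroup.T ^ (N : ℤ) * g⁻¹ ∈ Gamma1 N :=
    gamma_le_gamma1 (by simpa using gamma_le_conj_T (N := N) g 1)
  have h1 := h.transform ⟨_, hmem⟩ τ
  rw [psi_apply, hχ ⟨_, hmem⟩ (by rw [trace_conj_T_zpow]; norm_num)] at h1
  simpa using h1

theorem mul (hF : IsCharFn χ F) (hG : IsCharFn χ' G) : IsCharFn (χ + χ') (F * G) where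
  hol := mul_mem hF.hol hG.hol
  transform γ τ := by
    simp only [Pi.mul_apply, hF.transform, hG.transform, psi_add]
    ring
  growth g := (hF.growth g).mul (hG.growth g)

theorem one : IsCharFn (0 : Additive (Gamma1 N) →+ ZMod n) 1 where
  hol := one_mem _
  transform γ τ := by simp [psi_apply]
  growth _ := GrowthInfty.const 1

theorem pow (hF : IsCharFn χ F) (m : ℕ) : IsCharFn (m • χ) (F ^ m) := by
  induction m with
  | zero => simpa using IsCharFn.one
  | succ m ih => rw [succ_nsmul, pow_succ]; exact ih.mul hF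

theorem smul (hF : IsCharFn χ F) (c : ℂ) : IsCharFn χ (c • F) where
  hol := Subalgebra.smul_mem _ hF.hol c
  transform γ τ := by
    simp only [Pi.smul_apply, smul_eq_mul, hF.transform]
    ring
  growth g := (GrowthInfty.const c).mul (hF.growth g)

theorem sub (hF : IsCharFn χ F) (hG : IsCharFn χ G) : IsCharFn χ (F - G) where
  hol := sub_mem hF.hol hG.hol
  transform γ τ := by simp only [Pi.sub_apply, hF.transform, hG.transform]; ring
  growth g := by
    have := (hF.growth g).add ((GrowthInfty.const (-1)).mul (hG.growth g))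
    convert this using 1
    funext τ
    simp [sub_eq_add_neg]

/-- A function with trivial character is invariant. -/
theorem mem_fn_of_zero (hF : IsCharFn (0 : Additive (Gamma1 N) →+ ZMod n) F) : F ∈ Fn N :=
  ⟨hF.hol, fun γ hγ τ => by simpa [psi_apply] using hF.transform ⟨γ, gamma_le_gamma1 hγ⟩ τ,
    hF.growth⟩

theorem pow_mem_fn (hF : IsCharFn χ F) : F ^ n ∈ Fn N := by
  have h := hF.pow n
  have hz : n • χ = 0 := AddMonoidHom.ext fun γ => by
    rw [AddMonoidHom.nsmul_apply, nsmul_eq_mul, ZMod.natCast_self, zero_mul]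
    rfl
  rw [hz] at h
  exact h.mem_fn_of_zero

/-- The character of a nonzero function is unique. -/
theorem char_unique (hF : IsCharFn χ F) (hF' : IsCharFn χ' F) (h0 : F ≠ 0) : χ = χ' := by
  obtain ⟨τ, hτ⟩ := Function.ne_iff.mp h0
  refine AddMonoidHom.ext fun γ => ?_
  obtain ⟨γ, rfl⟩ := Additive.ofMul.surjective γ
  apply ZMod.injective_stdAddChar (N := n)
  exact mul_right_cancel₀ hτ ((hF.transform γ τ).symm.trans (hF'.transform γ τ))

end IsCharFn

/-! ### The Eisenstein series of a character -/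

section Eis

variable {χ : Additive (Gamma1 N) →+ ZMod n}

/-- `v` is the bottom row of an element of `Γ₁(N)`. -/
def IsRow1 (N : ℕ) (v : Fin 2 → ℤ) : Prop :=
  ∃ γ : Gamma1 N, ((γ : SL(2, ℤ)) : Matrix (Fin 2) (Fin 2) ℤ) 1 = v

open scoped Classical in
/-- The coefficient of the Eisenstein series of `χ`. -/
def rowWt (χ : Additive (Gamma1 N) →+ ZMod n) (v : Fin 2 → ℤ) : ℂ :=
  if h : IsRow1 N v then (psi χ h.choose)⁻¹ else 0

theorem rowWt_eq (h : IsPar1 χ) (γ : Gamma1 N) :
    rowWt χ (((γ : SL(2, ℤ)) : Matrix (Fin 2) (Fin 2) ℤ) 1) = (psi χ γ)⁻¹ := by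
  have hr : IsRow1 N (((γ : SL(2, ℤ)) : Matrix (Fin 2) (Fin 2) ℤ) 1) := ⟨γ, rfl⟩
  rw [rowWt, dif_pos hr]
  congr 1
  set δ := hr.choose
  have hrow := hr.choose_spec
  change ((δ : SL(2, ℤ)) : Matrix (Fin 2) (Fin 2) ℤ) 1 = _ at hrow
  have h1 : psi χ (δ * γ⁻¹) = 1 := by
    rw [psi_eq_one_iff]
    refine h _ ?_
    have hd := (δ : SL(2, ℤ)).det_coe
    have hg := (γ : SL(2, ℤ)).det_coe
    rw [det_fin_two] at hd hg
    have e0 := congrFun hrow 0
    have e1 := congrFun hrow 1
    rw [e0, e1] at hd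
    have key : ((δ * γ⁻¹ : Gamma1 N) : SL(2, ℤ)).1.trace = 2 := by
      rw [Subgroup.coe_mul, Subgroup.coe_inv, Matrix.SpecialLinearGroup.coe_mul,
        Matrix.SpecialLinearGroup.coe_inv, adjugate_fin_two, trace_fin_two]
      simp only [mul_apply, Fin.sum_univ_two, of_apply, cons_val', cons_val_zero, cons_val_one,
        cons_val_fin_one]
      rw [e0, e1]
      linear_combination hd + hg
    rw [key]
    norm_num
  calc psi χ δ = psi χ (δ * γ⁻¹ * γ) := by rw [inv_mul_cancel_right]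
    _ = psi χ γ := by rw [map_mul, h1, one_mul]

theorem norm_rowWt_le (v : Fin 2 → ℤ) : ‖rowWt χ v‖ ≤ 1 := by
  rw [rowWt]
  split_ifs with h
  · rw [norm_inv, Complex.norm_eq_one_of_pow_eq_one (psi_pow χ _) (NeZero.ne n), inv_one]
  · simp

theorem rowWt_vecEquiv (h : IsPar1 χ) (γ : Gamma1 N) (v : Fin 2 → ℤ) :
    rowWt χ ((vecEquiv (γ : SL(2, ℤ))).symm v) = psi χ γ * rowWt χ v := by
  by_cases hv : IsRow1 N v
  · obtain ⟨δ, rfl⟩ := hv
    have hrow : (vecEquiv (γ : SL(2, ℤ))).symm (((δ : SL(2, ℤ)) : Matrix (Fin 2) (Fin 2) ℤ) 1) =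
        (((δ * γ⁻¹ : Gamma1 N) : SL(2, ℤ)) : Matrix (Fin 2) (Fin 2) ℤ) 1 :=
      (Matrix.mul_apply_eq_vecMul (((δ : SL(2, ℤ)) : Matrix (Fin 2) (Fin 2) ℤ))
        (((γ⁻¹ : Gamma1 N) : SL(2, ℤ)) : Matrix (Fin 2) (Fin 2) ℤ) 1).symm
    rw [hrow, rowWt_eq h, rowWt_eq h]
    have h2 : psi χ (δ * γ⁻¹) * psi χ γ = psi χ δ := by rw [← map_mul, inv_mul_cancel_right]
    rw [← h2]
    have := psi_ne_zero χ γ
    have := psi_ne_zero χ (δ * γ⁻¹)
    field_simp
  · have hv' : ¬ IsRow1 N ((vecEquiv (γ : SL(2, ℤ))).symm v) := by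
      rintro ⟨δ, hδ⟩
      refine hv ⟨δ * γ, ?_⟩
      have := congrArg (vecEquiv (γ : SL(2, ℤ))) hδ
      rw [Equiv.apply_symm_apply] at this
      exact (Matrix.mul_apply_eq_vecMul (((δ : SL(2, ℤ)) : Matrix (Fin 2) (Fin 2) ℤ))
        (((γ : SL(2, ℤ)) : Matrix (Fin 2) (Fin 2) ℤ)) 1).trans this
    rw [rowWt, dif_neg hv', rowWt, dif_neg hv, mul_zero]

/-- The weight four Eisenstein series of `χ`. -/
def eisChar (χ : Additive (Gamma1 N) →+ ZMod n) (z : ℍ) : ℂ := weightedEis (rowWt χ) 4 z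

theorem eisChar_smul (h : IsPar1 χ) (γ : Gamma1 N) (z : ℍ) :
    eisChar χ ((γ : SL(2, ℤ)) • z) = psi χ γ * denom (γ : SL(2, ℤ)) z ^ (4 : ℤ) * eisChar χ z := by
  rw [eisChar, eisChar, FLTA.Kummer.weightedEis_smul]
  simp_rw [rowWt_vecEquiv h γ]
  simp only [weightedEis, mul_assoc, tsum_mul_left]
  ring

theorem isPar1_zero : IsPar1 (0 : Additive (Gamma1 N) →+ ZMod n) := fun _ _ => rfl

theorem isRow1_zero_left {v : Fin 2 → ℤ} (hv : IsRow1 N v) (h0 : v 0 = 0) :
    (v 1 = 1 ∨ v 1 = -1) ∧ ((v 1 : ℤ) : ZMod N) = 1 := by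
  obtain ⟨γ, rfl⟩ := hv
  refine ⟨?_, ((Gamma1_mem _ _).mp γ.2).2.1⟩
  have hd := (γ : SL(2, ℤ)).det_coe
  rw [det_fin_two, h0, mul_zero, sub_zero] at hd
  exact Int.eq_one_or_neg_one_of_mul_eq_one (by rw [mul_comm] at hd; exact hd)

theorem tendsto_eisChar (h : IsPar1 χ) (hN : 5 ≤ N) :
    Tendsto (eisChar χ) atImInfty (𝓝 1) := by
  have hval : (∑' v : Fin 2 → ℤ,
      if v 0 = 0 then rowWt χ v * (v 1 : ℂ) ^ (-(4 : ℤ)) else 0) = 1 := by
    rw [tsum_eq_single ![0, 1]]
    · have h1 : rowWt χ ![0, 1] = 1 := by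
        have := rowWt_eq h 1
        rw [map_one, inv_one] at this
        convert this using 2
        funext i
        fin_cases i <;> simp
      simp [h1]
    · intro v hv
      split_ifs with h0
      · by_cases hr : IsRow1 N v
        · exfalso
          obtain ⟨h1 | h1, hN1⟩ := isRow1_zero_left hr h0
          · refine hv (funext fun i => ?_)
            fin_cases i <;> simp [h0, h1]
          · rw [h1] at hN1
            have h2 : ((-2 : ℤ) : ZMod N) = 0 := by
              push_cast at hN1 ⊢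
              linear_combination hN1
            rw [ZMod.intCast_zmod_eq_zero_iff_dvd] at h2
            have := Int.natAbs_dvd_natAbs.mpr h2
            have := Nat.le_of_dvd (by norm_num) this
            simp at this
            omega
        · rw [rowWt, dif_neg hr, zero_mul]
      · rfl
  have := FLTA.Kummer.tendsto_weightedEis (wt := rowWt χ) (k := 4) norm_rowWt_le (by norm_num)
  rw [hval] at this
  exact this

/-- `E_χ E₀² / Δ`. -/
def eisFn (χ : Additive (Gamma1 N) →+ ZMod n) (τ : ℍ) : ℂ :=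
  eisChar χ τ * eisChar (0 : Additive (Gamma1 N) →+ ZMod n) τ ^ 2 / ModularForm.discriminant τ

theorem eisFn_comp_smul (χ : Additive (Gamma1 N) →+ ZMod n) (g : SL(2, ℤ)) (τ : ℍ) :
    eisFn χ (g • τ) = (eisChar χ ∣[(4 : ℤ)] g) τ *
      (eisChar (0 : Additive (Gamma1 N) →+ ZMod n) ∣[(4 : ℤ)] g) τ ^ 2 /
        ModularForm.discriminant τ := by
  rw [eisFn, ModularForm.SL_slash_apply, ModularForm.SL_slash_apply,
    FLTA.Kummer.discriminant_smul]
  have h0 := denom_ne_zero g τ
  have h1 := ModularForm.discriminant_ne_zero τ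
  simp only [_root_.zpow_neg]
  field_simp

theorem eisFn_isCharFn (h : IsPar1 χ) : IsCharFn χ (eisFn χ) where
  hol := by
    rw [FLTA.Bridge.mem_hol_iff, UpperHalfPlane.mdifferentiable_iff]
    refine DifferentiableOn.congr
      (((FLTA.Kummer.differentiableOn_weightedEis (wt := rowWt χ) (k := 4) norm_rowWt_le
        (by norm_num)).mul
        ((FLTA.Kummer.differentiableOn_weightedEis
          (wt := rowWt (0 : Additive (Gamma1 N) →+ ZMod n)) (k := 4) norm_rowWt_le
            (by norm_num)).pow 2)).div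
          (UpperHalfPlane.mdifferentiable_iff.1 CuspForm.discriminant.holo') fun z hz => ?_)
      fun z hz => rfl
    exact ModularForm.discriminant_ne_zero _
  transform γ τ := by
    rw [eisFn, eisFn, eisChar_smul h, eisChar_smul isPar1_zero, FLTA.Kummer.discriminant_smul]
    have h0 := denom_ne_zero (γ : SL(2, ℤ)) τ
    have h1 := ModularForm.discriminant_ne_zero τ
    simp only [psi_apply, AddMonoidHom.zero_apply, AddChar.map_zero_eq_one]
    field_simp
  growth g := by
    refine ⟨1, ?_⟩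
    have h1 : IsBoundedAtImInfty fun τ : ℍ =>
        Function.Periodic.qParam 1 τ / ModularForm.discriminant τ :=
      FLTA.Kummer.tendsto_qParam_div_discriminant.isBigO_one ℝ
    have h2 := FLTA.Kummer.isBoundedAtImInfty_weightedEis_slash (wt := rowWt χ) (k := 4)
      norm_rowWt_le (by norm_num) g
    have h3 := FLTA.Kummer.isBoundedAtImInfty_weightedEis_slash
      (wt := rowWt (0 : Additive (Gamma1 N) →+ ZMod n)) (k := 4) norm_rowWt_le (by norm_num) g
    refine (h1.mul (h2.mul (h3.mul h3))).congr_left fun τ => ?_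
    simp only [eisFn_comp_smul, Pi.mul_apply, pow_one]
    change _ = Function.Periodic.qParam 1 τ * _
    show _ / _ * ((weightedEis (rowWt χ) 4 ∣[(4 : ℤ)] g) τ * _) = _
    unfold eisChar
    ring

theorem eisFn_ne_zero (h : IsPar1 χ) (hN : 5 ≤ N) : eisFn χ ≠ 0 := fun h0 => by
  have h1 := FLTA.Kummer.tendsto_qParam_div_discriminant.mul
    ((tendsto_eisChar h hN).mul ((tendsto_eisChar (n := n) isPar1_zero hN).pow 2))
  rw [one_pow, mul_one, mul_one] at h1
  have h2 : (fun τ : ℍ => Function.Periodic.qParam 1 τ / ModularForm.discriminant τ *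
      (eisChar χ τ * eisChar (0 : Additive (Gamma1 N) →+ ZMod n) τ ^ 2)) = fun _ => 0 := by
    funext τ
    have h3 : eisFn χ τ = 0 := congrFun h0 τ
    rw [eisFn] at h3
    rw [div_mul_eq_mul_div, mul_div_assoc, h3, mul_zero]
  rw [h2] at h1
  exact zero_ne_one (tendsto_nhds_unique tendsto_const_nhds h1)

/-- Every parabolic character is the character of a nonzero function. -/
theorem exists_isCharFn (h : IsPar1 χ) (hN : 5 ≤ N) : ∃ F, IsCharFn χ F ∧ F ≠ 0 :=
  ⟨eisFn χ, eisFn_isCharFn h, eisFn_ne_zero h hN⟩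

end Eis

end FLTA.DeligneSerre
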