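import Fermat.Agent.DeligneSerre.Level.Defs
import Mathlib.Data.ZMod.Units

/-!
# Lifting to `SL(2, ℤ)` and the relation `GalConj`
-/

set_option autoImplicit false

noncomputable section

open scoped MatrixGroups
open CongruenceSubgroup Matrix

namespace FLTA.DeligneSerre

/-- `SL(2, ℤ) → SL(2, ZMod N)` is surjective. -/
theorem exists_sl_lift {N : ℕ} [NeZero N] (a b c d : ZMod N) (h : a * d - b * c = 1) :
    ∃ g : SL(2, ℤ), (g.1 0 0 : ZMod N) = a ∧ (g.1 0 1 : ZMod N) = b ∧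
      (g.1 1 0 : ZMod N) = c ∧ (g.1 1 1 : ZMod N) = d := by
  classical
  -- a nonzero lift of `c`
  obtain ⟨c₀, hc₀, hc⟩ : ∃ c₀ : ℕ, 0 < c₀ ∧ (c₀ : ZMod N) = c :=
    ⟨c.val + N, by have := NeZero.pos N; omega, by simp⟩
  set g := Nat.gcd c₀ N
  have hgc : g ∣ c₀ := Nat.gcd_dvd_left _ _
  have hgN : g ∣ N := Nat.gcd_dvd_right _ _
  haveI : NeZero c₀ := ⟨hc₀.ne'⟩
  -- `d` is a unit modulo `g`
  let π := ZMod.castHom hgN (ZMod g)
  have hcg : π c = 0 := by
    rw [← hc, map_natCast, ZMod.natCast_eq_zero_iff]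
    exact hgc
  have hdu : IsUnit (π d) := by
    refine IsUnit.of_mul_eq_one_right (π a) ?_
    have := congrArg π h
    rwa [map_sub, map_mul, map_mul, hcg, mul_zero, sub_zero, map_one] at this
  obtain ⟨e, he⟩ := ZMod.unitsMap_surjective hgc hdu.unit
  obtain ⟨d₁, hd₁, hd₁g⟩ : ∃ d₁ : ℤ, IsCoprime (c₀ : ℤ) d₁ ∧ (d₁ : ZMod g) = π d := by
    refine ⟨((e : ZMod c₀).val : ℤ), ?_, ?_⟩
    · rw [Int.isCoprime_iff_nat_coprime, Int.natAbs_natCast, Int.natAbs_natCast]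
      exact (ZMod.val_coe_unit_coprime e).symm
    · have := congrArg Units.val he
      rw [ZMod.unitsMap_val] at this
      rw [Int.cast_natCast, ZMod.natCast_val, this]
      rfl
  -- move `d₁` to `d` modulo `N` keeping it prime to `c₀`
  obtain ⟨d₂, hd₂, hd₂N⟩ : ∃ d₂ : ℤ, IsCoprime (c₀ : ℤ) d₂ ∧ (d₂ : ZMod N) = d := by
    obtain ⟨D, hD⟩ : ∃ D : ℤ, (D : ZMod N) = d := ⟨d.val, by simp⟩
    have hdiv : (g : ℤ) ∣ D - d₁ := by
      rw [← ZMod.intCast_zmod_eq_zero_iff_dvd, Int.cast_sub, hd₁g, ← hD, map_intCast, sub_self]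
    obtain ⟨t, ht⟩ := hdiv
    have hbez : (g : ℤ) = (c₀ : ℤ) * Nat.gcdA c₀ N + (N : ℤ) * Nat.gcdB c₀ N :=
      Nat.gcd_eq_gcd_ab c₀ N
    refine ⟨d₁ + c₀ * (Nat.gcdA c₀ N * t), (IsCoprime.add_mul_left_right_iff).mpr hd₁, ?_⟩
    have h1 : (g : ZMod N) = (c₀ : ZMod N) * (Nat.gcdA c₀ N : ZMod N) := by
      have := congrArg (fun z : ℤ => (z : ZMod N)) hbez
      simpa using this
    have h2 := congrArg (fun z : ℤ => (z : ZMod N)) ht
    push_cast at h2 ⊢
    rw [← hD]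
    linear_combination (-1 : ZMod N) * h2 + (-(t : ZMod N)) * h1
  obtain ⟨x, y, hxy⟩ := hd₂
  -- bottom row `(c₀, d₂)`, then adjust the top row
  have hxy' : (x : ZMod N) * c + (y : ZMod N) * d = 1 := by
    rw [← hc, ← hd₂N]
    exact_mod_cast congrArg (fun z : ℤ => (z : ZMod N)) hxy
  obtain ⟨k, hk⟩ : ∃ k : ℤ, (k : ZMod N) = b * (y : ZMod N) + a * (x : ZMod N) :=
    ⟨(b * (y : ZMod N) + a * (x : ZMod N)).val, by simp⟩
  refine ⟨⟨!![y + k * c₀, -x + k * d₂; (c₀ : ℤ), d₂], ?_⟩, ?_, ?_, ?_, ?_⟩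
  · rw [det_fin_two_of]
    linear_combination hxy
  · show ((y + k * c₀ : ℤ) : ZMod N) = a
    push_cast
    rw [hk, hc]
    linear_combination a * hxy' - (y : ZMod N) * h
  · show ((-x + k * d₂ : ℤ) : ZMod N) = b
    push_cast
    rw [hk, hd₂N]
    linear_combination b * hxy' + (x : ZMod N) * h
  · show ((c₀ : ℤ) : ZMod N) = c
    exact_mod_cast hc
  · exact hd₂N

namespace GalConj

variable {N u v : ℕ} {g g' h h' : SL(2, ℤ)}

theorem of_dvd {M : ℕ} (hMN : M ∣ N) (hg : GalConj N u g g') : GalConj M u g g' := by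
  let π := ZMod.castHom hMN (ZMod M)
  obtain ⟨h00, h01, h10, h11⟩ := hg
  exact ⟨by simpa only [map_intCast] using congrArg π h00,
    by simpa only [map_mul, map_intCast, map_natCast] using congrArg π h01,
    by simpa only [map_mul, map_intCast, map_natCast] using congrArg π h10,
    by simpa only [map_intCast] using congrArg π h11⟩

theorem one (N u : ℕ) : GalConj N u 1 1 := ⟨rfl, by simp, by simp, rfl⟩

theorem mul (hg : GalConj N u g g') (hh : GalConj N u h h') : GalConj N u (g * h) (g' * h') := by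
  obtain ⟨a00, a01, a10, a11⟩ := hg
  obtain ⟨b00, b01, b10, b11⟩ := hh
  refine ⟨?_, ?_, ?_, ?_⟩ <;>
    simp only [Matrix.SpecialLinearGroup.coe_mul, Matrix.mul_apply, Fin.sum_univ_two, Int.cast_add,
      Int.cast_mul]
  · rw [a00, b00, a01, ← b10]; ring
  · rw [a00, b01, a01, b11]; ring
  · rw [a11, b00, ← a10, ← b10]; ring
  · rw [b01, a11, b11, ← a10]; ring

theorem inv (hg : GalConj N u g g') : GalConj N u g⁻¹ g'⁻¹ := by
  obtain ⟨a00, a01, a10, a11⟩ := hg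
  refine ⟨?_, ?_, ?_, ?_⟩ <;>
    simp [Matrix.SpecialLinearGroup.coe_inv, Matrix.adjugate_fin_two, a00, a01, a11, ← a10]

theorem T_zpow {m m' : ℤ} (h : (m' : ZMod N) = u * (m : ZMod N)) :
    GalConj N u (ModularGroup.T ^ m) (ModularGroup.T ^ m') := by
  refine ⟨?_, ?_, ?_, ?_⟩ <;> simp [ModularGroup.coe_T_zpow, h]

/-- The partner of an element of `Γ₁(N)` is in `Γ₁(N)`. -/
theorem mem_gamma1 (hg : GalConj N u g g') (h : g' ∈ Gamma1 N) : g ∈ Gamma1 N := by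
  obtain ⟨a00, a01, a10, a11⟩ := hg
  obtain ⟨h0, h1, h2⟩ := (Gamma1_mem _ _).mp h
  exact (Gamma1_mem _ _).mpr ⟨by rw [← a00]; exact h0, by rw [← a11]; exact h1,
    by rw [← a10, h2, mul_zero]⟩

/-- Every element is a partner. -/
theorem exists_left [NeZero N] (hu : Nat.Coprime u N) (g' : SL(2, ℤ)) :
    ∃ g, GalConj N u g g' := by
  set w : ZMod N := (((ZMod.unitOfCoprime u hu)⁻¹ : (ZMod N)ˣ) : ZMod N)
  have hw : (u : ZMod N) * w = 1 := by
    rw [← ZMod.coe_unitOfCoprime u hu]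
    exact Units.mul_inv _
  have hdet := congrArg (fun z : ℤ => (z : ZMod N)) g'.det_coe
  rw [det_fin_two] at hdet
  push_cast at hdet
  obtain ⟨g, h00, h01, h10, h11⟩ := exists_sl_lift (g'.1 0 0 : ZMod N) (w * g'.1 0 1)
    ((u : ZMod N) * g'.1 1 0) (g'.1 1 1 : ZMod N) (by linear_combination hdet -
      (g'.1 0 1 : ZMod N) * (g'.1 1 0 : ZMod N) * hw)
  exact ⟨g, h00.symm, by rw [h01, ← mul_assoc, hw, one_mul], h10.symm, h11.symm⟩

/-- Every element has a partner. -/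
theorem exists_right [NeZero N] (hu : Nat.Coprime u N) (g : SL(2, ℤ)) :
    ∃ g', GalConj N u g g' := by
  set w : ZMod N := (((ZMod.unitOfCoprime u hu)⁻¹ : (ZMod N)ˣ) : ZMod N)
  have hw : (u : ZMod N) * w = 1 := by
    rw [← ZMod.coe_unitOfCoprime u hu]
    exact Units.mul_inv _
  have hdet := congrArg (fun z : ℤ => (z : ZMod N)) g.det_coe
  rw [det_fin_two] at hdet
  push_cast at hdet
  obtain ⟨g', h00, h01, h10, h11⟩ := exists_sl_lift (g.1 0 0 : ZMod N) ((u : ZMod N) * g.1 0 1)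
    (w * g.1 1 0) (g.1 1 1 : ZMod N) (by linear_combination hdet -
      (g.1 0 1 : ZMod N) * (g.1 1 0 : ZMod N) * hw)
  exact ⟨g', h00, h01, by rw [h10, ← mul_assoc, hw, one_mul], h11⟩

end GalConj

end FLTA.DeligneSerre
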