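import Fermat.Agent.DeligneSerre.Rep.Series
import Fermat.Agent.Kummer.Root

/-!
# Holomorphic roots
-/

set_option autoImplicit false

noncomputable section

open scoped MatrixGroups Topology
open UpperHalfPlane Filter

namespace FLTA.DeligneSerre

open FLTA.Bridge (Hol GrowthInfty ordAt)

/-- Equal `n`-th powers in a domain over `ℂ` differ by a root of unity. -/
theorem exists_eq_mul_of_pow_eq {R : Type*} [CommRing R] [IsDomain R] [Algebra ℂ R] {n : ℕ}
    (hn : n ≠ 0) {a b : R} (h : a ^ n = b ^ n) :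
    ∃ ζ : ℂ, ζ ^ n = 1 ∧ a = algebraMap ℂ R ζ * b := by
  classical
  haveI : NeZero n := ⟨hn⟩
  obtain ⟨z, hz⟩ : ∃ z : ℂ, IsPrimitiveRoot z n := ⟨_, Complex.isPrimitiveRoot_exp n hn⟩
  have hz' : IsPrimitiveRoot (algebraMap ℂ R z) n :=
    hz.map_of_injective (FaithfulSMul.algebraMap_injective ℂ R)
  by_cases hb : b = 0
  · subst hb
    rw [zero_pow hn] at h
    exact ⟨1, one_pow n, by rw [pow_eq_zero_iff hn |>.mp h]; simp⟩
  have hroot : a ∈ Polynomial.nthRoots n (b ^ n) :=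
    (Polynomial.mem_nthRoots (Nat.pos_of_ne_zero hn)).mpr h
  rw [hz'.nthRoots_eq rfl] at hroot
  obtain ⟨i, -, rfl⟩ := Multiset.mem_map.mp hroot
  exact ⟨z ^ i, by rw [← pow_mul, mul_comm, pow_mul, hz.pow_eq_one, one_pow],
    by rw [map_pow]⟩

theorem ordAt_pow {F : ℍ → ℂ} (hF : F ∈ Hol) (τ : ℍ) (n : ℕ) :
    ordAt τ (F ^ n) = n * ordAt τ F := by
  have h := analyticOrderNatAt_pow (FLTA.Bridge.analyticAt_of_mem_hol hF τ) n
  rw [smul_eq_mul] at h
  exact h

/-- A holomorphic function on `ℍ` with all orders divisible by `n` is an `n`-th power. -/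
theorem exists_hol_root {n : ℕ} (hn : n ≠ 0) {H : ℍ → ℂ} (hH : H ∈ Hol) (h0 : H ≠ 0)
    (hdiv : ∀ τ, n ∣ ordAt τ H) : ∃ G ∈ Hol, G ^ n = H := by
  have hana : ∀ z ∈ upperHalfPlaneSet, AnalyticAt ℂ (H ∘ ofComplex) z := fun z hz => by
    exact FLTA.Bridge.analyticAt_of_mem_hol hH ⟨z, hz⟩
  have hord : ∀ z (hz : z ∈ upperHalfPlaneSet),
      meromorphicOrderAt (H ∘ ofComplex) z = ((ordAt ⟨z, hz⟩ H : ℤ) : WithTop ℤ) := by
    intro z hz
    rw [(hana z hz).meromorphicOrderAt_eq]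
    have h1 := Nat.cast_analyticOrderNatAt (FLTA.Bridge.analyticOrderAt_ne_top hH h0 ⟨z, hz⟩)
    change _ = analyticOrderAt (H ∘ ofComplex) z at h1
    rw [← h1]
    rfl
  obtain ⟨F, hF⟩ := FLTA.Kummer.exists_root hn (f := H ∘ ofComplex)
    (fun z hz => (hana z hz).meromorphicAt) (fun z hz => by rw [hord z hz]; exact WithTop.coe_ne_top)
    (fun z hz => by
      rw [hord z hz, WithTop.untop₀_coe]
      exact Int.natCast_dvd_natCast.mpr (hdiv _))
  have hFa : ∀ z ∈ upperHalfPlaneSet, AnalyticAt ℂ F z := by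
    intro z hz
    refine (hF.nf hz).meromorphicOrderAt_nonneg_iff_analyticAt.1 ?_
    have h1 := hF.order_eq hz
    rw [hord z hz] at h1
    cases ho : meromorphicOrderAt F z with
    | top => simp
    | coe m =>
      rw [ho] at h1
      have h2 : (ordAt ⟨z, hz⟩ H : ℤ) = (n : ℤ) * m := by exact_mod_cast h1
      have h3 : 0 ≤ m := by
        by_contra hm
        have : (n : ℤ) * m < 0 := mul_neg_of_pos_of_neg (by omega) (by omega)
        omega
      exact_mod_cast h3
  refine ⟨fun τ => F τ, ?_, funext fun τ => ?_⟩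
  · rw [FLTA.Bridge.mem_hol_iff_differentiableOn]
    refine DifferentiableOn.congr (f := F)
      (fun z hz => (hFa z hz).differentiableAt.differentiableWithinAt) fun z hz => ?_
    simp [ofComplex_apply_of_im_pos hz]
  · have hz : (τ : ℂ) ∈ upperHalfPlaneSet := τ.im_pos
    have h1 : Tendsto (fun w => F w ^ n) (𝓝[≠] (τ : ℂ)) (𝓝 (F τ ^ n)) :=
      ((hFa _ hz).continuousAt.pow n).tendsto.mono_left nhdsWithin_le_nhds
    have h2 : Tendsto (H ∘ ofComplex) (𝓝[≠] (τ : ℂ)) (𝓝 (H τ)) := by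
      have := (hana _ hz).continuousAt.tendsto
      simp only [Function.comp_apply, ofComplex_apply] at this
      exact this.mono_left nhdsWithin_le_nhds
    exact tendsto_nhds_unique (h1.congr' (hF.pow_eq _ hz)) h2

/-- Growth of a root. -/
theorem growthInfty_of_pow {n : ℕ} (hn : n ≠ 0) {G : ℍ → ℂ} (h : GrowthInfty (G ^ n)) :
    GrowthInfty G := by
  refine ⟨FLTA.Bridge.poleBound (G ^ n), ?_⟩
  have hb := FLTA.Bridge.isBounded_poleBound h
  set k := FLTA.Bridge.poleBound (G ^ n)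
  rw [UpperHalfPlane.isBoundedAtImInfty_iff] at hb ⊢
  obtain ⟨B, Y, hB⟩ := hb
  refine ⟨max B 1, max Y 0, fun z hz => ?_⟩
  have hzY : Y ≤ z.im := le_trans (le_max_left _ _) hz
  have hq : ‖Function.Periodic.qParam 1 (z : ℂ)‖ ≤ 1 := by
    rw [Function.Periodic.norm_qParam, Real.exp_le_one_iff]
    have := z.im_pos
    have h2 : 0 < Real.pi * z.im := mul_pos Real.pi_pos this
    simp only [div_one]
    change -2 * Real.pi * (z : ℂ).im ≤ 0
    rw [UpperHalfPlane.coe_im]
    nlinarith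
  set q := ‖Function.Periodic.qParam 1 (z : ℂ)‖
  have hle : (q ^ k * ‖G z‖) ^ n ≤ max B 1 := by
    have h1 := hB z hzY
    simp only [Pi.pow_apply, norm_mul, norm_pow] at h1
    refine le_trans ?_ (le_trans h1 (le_max_left _ _))
    rw [mul_pow]
    refine mul_le_mul_of_nonneg_right ?_ (by positivity)
    rw [← pow_mul]
    exact pow_le_pow_of_le_one (norm_nonneg _) hq (Nat.le_mul_of_pos_right k (Nat.pos_of_ne_zero hn))
  show ‖Function.Periodic.qParam 1 (z : ℂ) ^ k * G z‖ ≤ _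
  rw [norm_mul, norm_pow]
  by_contra hc
  push Not at hc
  have h1 : 1 ≤ q ^ k * ‖G z‖ := le_trans (le_max_right _ _) hc.le
  exact absurd ((le_self_pow₀ h1 hn).trans hle) (not_le.mpr hc)

end FLTA.DeligneSerre
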