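import Fermat.Agent.DeligneSerre.Rep.CharFn
import Fermat.Agent.DeligneSerre.Rep.Lift
import Fermat.Agent.DeligneSerre.Rep.Root
import Fermat.Agent.DeligneSerre.Level.Base
import Fermat.Agent.Kummer.RootChar
import Fermat.Agent.Kummer.SLAct
import Fermat.Prelude.Thm_ModularCurve_coeffMap_qExpand

/-!
# Conjugation of functions with character by automorphisms of `ℂ`

If `F` has the parabolic character `χ` on `Γ₁(N)` and `σ` is an automorphism of `ℂ`, there is a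
function with a parabolic character whose expansion at infinity is the conjugate of that of `F`.
-/

set_option autoImplicit false

noncomputable section

open scoped MatrixGroups Real
open UpperHalfPlane CongruenceSubgroup ModularCurve

namespace FLTA.DeligneSerre

open FLTA.Bridge (Hol GrowthInfty ordAt)

theorem isPrimitiveRoot_zetaC (N : ℕ) [NeZero N] : IsPrimitiveRoot (zetaC N) N :=
  Complex.isPrimitiveRoot_exp N (NeZero.ne N)

theorem zetaC_mul_pow (N k : ℕ) [NeZero N] [NeZero k] : zetaC (N * k) ^ k = zetaC N := by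
  rw [zetaC, zetaC, ← Complex.exp_nat_mul, Nat.cast_mul]
  congr 1
  field_simp [NeZero.ne k, NeZero.ne N]

theorem exp_eq_zetaC_zpow (N : ℕ) [NeZero N] (a : ℤ) :
    Complex.exp (2 * π * Complex.I * a / N) = zetaC N ^ a := by
  rw [zetaC, ← Complex.exp_int_mul]
  congr 1
  ring

/-- An automorphism of `ℂ` raises the roots of unity of order `N` to a power prime to `N`. -/
theorem exists_cyclo (σ : ℂ ≃+* ℂ) (N : ℕ) [NeZero N] :
    ∃ u : ℕ, u.Coprime N ∧ σ (zetaC N) = zetaC N ^ u := by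
  have h : IsPrimitiveRoot (σ (zetaC N)) N :=
    (isPrimitiveRoot_zetaC N).map_of_injective σ.injective
  obtain ⟨i, -, hi, h'⟩ := (isPrimitiveRoot_zetaC N).isPrimitiveRoot_iff.mp h
  exact ⟨i, hi, h'.symm⟩

theorem cyclo_of_dvd {σ : ℂ ≃+* ℂ} {N k u : ℕ} [NeZero N] [NeZero k]
    (h : σ (zetaC (N * k)) = zetaC (N * k) ^ u) : σ (zetaC N) = zetaC N ^ u := by
  rw [← zetaC_mul_pow N k, map_pow, h, ← pow_mul, ← pow_mul, Nat.mul_comm u k]

theorem coprime_of_cyclo {σ : ℂ ≃+* ℂ} {N u : ℕ} [NeZero N]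
    (h : σ (zetaC N) = zetaC N ^ u) : u.Coprime N := by
  have h1 : IsPrimitiveRoot (zetaC N ^ u) N := h ▸ (isPrimitiveRoot_zetaC N).map_of_injective σ.injective
  exact ((isPrimitiveRoot_zetaC N).pow_iff_coprime (NeZero.pos N) u).mp h1

/-- `GalConj` determines the left element modulo `N`. -/
theorem GalConj.left_mem_gamma {N u : ℕ} {g₁ g₂ g' : SL(2, ℤ)} [NeZero N] (hu : u.Coprime N)
    (h₁ : GalConj N u g₁ g') (h₂ : GalConj N u g₂ g') : g₂ * g₁⁻¹ ∈ Gamma N := by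
  obtain ⟨a, b, c, d⟩ := mul_inv_cancel g' ▸ h₂.mul h₁.inv
  rw [Gamma_mem]
  have hun : IsUnit (u : ZMod N) := (ZMod.isUnit_iff_coprime u N).mpr hu
  refine ⟨by simpa using a.symm, ?_, by simpa using c.symm, by simpa using d.symm⟩
  have h0 : (u : ZMod N) * (((g₂ * g₁⁻¹).1 0 1 : ℤ) : ZMod N) = 0 := by simpa using b.symm
  exact (hun.mul_right_eq_zero).mp h0

variable {N n : ℕ} [NeZero N] [NeZero n]

theorem cexp_comp_eq_of_invariant {F : ℍ → ℂ} {γ : SL(2, ℤ)}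
    (h : ∀ τ : ℍ, F (γ • τ) = F τ) (g : SL(2, ℤ)) : cexp N F (γ * g) = cexp N F g := by
  rw [← cexp_comp]
  exact congrArg (fun G => cexp N G g) (funext h)

/-- Conjugation of a `Γ₁(N)`-invariant function. -/
theorem exists_conj_invariant {M k u : ℕ} [NeZero M] [NeZero k] (hM : M = 2 ∨ M = 3)
    (hMk : M ∣ N * k) (σ : ℂ ≃+* ℂ) (hu : σ (zetaC (N * k)) = zetaC (N * k) ^ u)
    {H₀ : ℍ → ℂ} (hH₀ : IsCharFn (0 : Additive (Gamma1 N) →+ ZMod n) H₀) :
    ∃ H, IsCharFn (0 : Additive (Gamma1 N) →+ ZMod n) H ∧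
      (∀ g g', GalConj N u g g' → cexp N H g' = coeffMap (σ : ℂ →+* ℂ) (cexp N H₀ g)) ∧
      (H₀ ≠ 0 → ∀ m : ℕ, (∀ τ, m ∣ ordAt τ H₀) → ∀ τ, m ∣ ordAt τ H) := by
  have h0N : H₀ ∈ PerFn N := hH₀.mem_perFn isPar1_zero
  have h0L : H₀ ∈ PerFn (N * k) := perFn_mul h0N k
  have hfnN : H₀ ∈ Fn N := hH₀.mem_fn_of_zero
  have hfn : H₀ ∈ Fn (N * k) := ⟨hfnN.1, fun γ hγ τ => hfnN.2.1 γ (by
    obtain ⟨a, b, c, d⟩ := Gamma_mem.mp hγ
    let πN := ZMod.castHom (dvd_mul_right N k) (ZMod N)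
    exact Gamma_mem.mpr ⟨by simpa only [map_intCast, map_one] using congrArg πN a,
      by simpa only [map_intCast, map_zero] using congrArg πN b,
      by simpa only [map_intCast, map_zero] using congrArg πN c,
      by simpa only [map_intCast, map_one] using congrArg πN d⟩) τ, hfnN.2.2⟩
  obtain ⟨H, hH, hexp, hord⟩ := exists_galois_conj hM hMk σ u hu hfn
  have huL : u.Coprime (N * k) := coprime_of_cyclo hu
  have huN : u.Coprime N := huL.coprime_dvd_right (dvd_mul_right N k)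
  have hHL : H ∈ PerFn (N * k) := fn_le_perFn hH
  have hexp' : ∀ g g', GalConj N u g g' →
      cexp (N * k) H g' = coeffMap (σ : ℂ →+* ℂ) (cexp (N * k) H₀ g) := by
    intro g g' hgg
    obtain ⟨g₂, hg₂⟩ := GalConj.exists_left huL g'
    have hγ := GalConj.left_mem_gamma huN hgg (hg₂.of_dvd (dvd_mul_right N k))
    have h1 : cexp (N * k) H₀ g₂ = cexp (N * k) H₀ g := by
      conv_lhs => rw [← inv_mul_cancel_right g₂ g]
      exact cexp_comp_eq_of_invariant (N := N * k) (hfnN.2.1 _ hγ) g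
    refine HahnSeries.ext (funext fun i => ?_)
    rw [coeffMap_coeff, ← h1]
    exact hexp g₂ g' hg₂ i
  have hchar : IsCharFn (0 : Additive (Gamma1 N) →+ ZMod n) H := by
    refine ⟨hH.1, fun γ τ => ?_, hH.2.2⟩
    obtain ⟨g, hg⟩ := GalConj.exists_left huN (γ : SL(2, ℤ))
    have hg1 : g ∈ Gamma1 N := hg.mem_gamma1 γ.2
    have h1 : cexp (N * k) H₀ g = cexp (N * k) H₀ 1 := by
      have := cexp_comp_eq_of_invariant (N := N * k) (γ := g) (fun τ => by
        simpa [psi_apply] using hH₀.transform ⟨g, hg1⟩ τ) 1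
      rwa [mul_one] at this
    have h2 : cexp (N * k) (fun τ : ℍ => H ((γ : SL(2, ℤ)) • τ)) 1 = cexp (N * k) H 1 := by
      rw [cexp_comp, mul_one, hexp' g _ hg, h1, ← hexp' 1 1 (GalConj.one N u)]
    simpa [psi_apply] using congrFun (eq_of_cexp_eq (PerFn.comp hHL _) hHL (g := 1) h2) τ
  have hHN : H ∈ PerFn N := hchar.mem_perFn isPar1_zero
  refine ⟨H, hchar, fun g g' hgg => ?_, hord⟩
  have h1 := hexp' g g' hgg
  rw [cexp_level_mul hHN, cexp_level_mul h0N, coeffMap_qExpand] at h1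
  exact qExpand_injective (R := ℂ) (N := k) h1

/-- A root of an invariant function has a character. -/
theorem exists_char_of_pow {H G : ℍ → ℂ} (hG : G ∈ Hol) (hG0 : G ≠ 0) (hpow : G ^ n = H)
    (hH : IsCharFn (0 : Additive (Gamma1 N) →+ ZMod n) H) :
    ∃ χ : Additive (Gamma1 N) →+ ZMod n, IsCharFn χ G := by
  have hex : ∀ γ : Gamma1 N, ∃ c : ZMod n, ∀ τ : ℍ,
      G ((γ : SL(2, ℤ)) • τ) = ZMod.stdAddChar c * G τ := by
    intro γ
    let a : Hol := ⟨fun τ => G ((γ : SL(2, ℤ)) • τ), FLTA.Bridge.smul_mem_hol hG _⟩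
    let b : Hol := ⟨G, hG⟩
    have hab : a ^ n = b ^ n := by
      refine Subtype.ext (funext fun τ => ?_)
      have h1 := hH.transform γ τ
      rw [← hpow, psi_apply, AddMonoidHom.zero_apply, AddChar.map_zero_eq_one, one_mul] at h1
      simpa [a, b] using h1
    obtain ⟨ζ, hζ, h⟩ := exists_eq_mul_of_pow_eq (NeZero.ne n) hab
    obtain ⟨c, hc⟩ := FLTA.Kummer.exists_stdAddChar_eq n hζ
    refine ⟨c, fun τ => ?_⟩
    rw [hc]
    exact congrFun (congrArg Subtype.val h) τ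
  choose c hc using hex
  obtain ⟨τ₀, hτ₀⟩ := Function.ne_iff.mp hG0
  have hcu : ∀ γ δ, c (γ * δ) = c γ + c δ := by
    intro γ δ
    apply ZMod.injective_stdAddChar (N := n)
    rw [AddChar.map_add_eq_mul]
    refine mul_right_cancel₀ hτ₀ ?_
    rw [← hc, mul_assoc, ← hc, ← hc, Subgroup.coe_mul, mul_smul]
  exact ⟨AddMonoidHom.mk' (fun γ => c (Additive.toMul γ)) fun γ δ => hcu _ _,
    ⟨hG, fun γ τ => hc γ τ, fun g => growthInfty_of_pow (NeZero.ne n) (by
      have h2 := hH.growth g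
      rw [← hpow] at h2
      exact h2)⟩⟩

/-- A nonzero function with a character is a function of period `N * n`. -/
theorem IsCharFn.mem_perFn_mul_order {χ : Additive (Gamma1 N) →+ ZMod n} {F : ℍ → ℂ}
    (h : IsCharFn χ F) : F ∈ PerFn (N * n) := by
  refine mem_perFn_of_invariant h.hol h.growth fun g τ => ?_
  have hmem : g * ModularGroup.T ^ (N : ℤ) * g⁻¹ ∈ Gamma1 N :=
    gamma_le_gamma1 (by simpa using gamma_le_conj_T (N := N) g 1)
  have heq : g * ModularGroup.T ^ ((N * n : ℕ) : ℤ) * g⁻¹ =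
      ((⟨_, hmem⟩ : Gamma1 N) ^ n : Gamma1 N).1 := by
    rw [SubgroupClass.coe_pow, Nat.cast_mul, zpow_mul, zpow_natCast, conj_pow]
  rw [heq, h.transform, map_pow, psi_pow, one_mul]

/-- A parabolic element of `Γ₁(N)`, `N ≥ 5`, is conjugate to a translation. -/
theorem exists_conj_translation1 (hN : 5 ≤ N) (γ : Gamma1 N)
    (h : ((γ : SL(2, ℤ)) : Matrix (Fin 2) (Fin 2) ℤ).trace ^ 2 = 4) :
    ∃ (A : SL(2, ℤ)) (w : ℤ), (γ : SL(2, ℤ)) = A * ModularGroup.T ^ w * A⁻¹ := by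
  obtain ⟨A, w, hA | hA⟩ := FLTA.Kummer.exists_conj_translation h
  · exact ⟨A, w, hA⟩
  exfalso
  have htr : ((γ : SL(2, ℤ)) : Matrix (Fin 2) (Fin 2) ℤ).trace = -2 := by
    rw [hA, Matrix.SpecialLinearGroup.coe_neg, Matrix.trace_neg, trace_conj_T_zpow]
  obtain ⟨h0, h1, -⟩ := (Gamma1_mem _ _).mp γ.2
  rw [Matrix.trace_fin_two] at htr
  have h2 := congrArg (fun z : ℤ => (z : ZMod N)) htr
  push_cast at h2
  rw [h0, h1] at h2
  have h4 : ((4 : ℤ) : ZMod N) = 0 := by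
    push_cast
    linear_combination h2
  rw [ZMod.intCast_zmod_eq_zero_iff_dvd] at h4
  have := Nat.le_of_dvd (by norm_num) (Int.natCast_dvd_natCast.mp (by exact_mod_cast h4) : N ∣ 4)
  omega

/-- Conjugation of a function with a parabolic character. -/
theorem exists_conj_charFn (hN : 5 ≤ N) {M k u : ℕ} [NeZero M] [NeZero k] (hM : M = 2 ∨ M = 3)
    (hMk : M ∣ N * k) (σ : ℂ ≃+* ℂ) (hu : σ (zetaC (N * k)) = zetaC (N * k) ^ u)
    {χ : Additive (Gamma1 N) →+ ZMod n} (hχ : IsPar1 χ) {F : ℍ → ℂ} (hF : IsCharFn χ F)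
    (hF0 : F ≠ 0) :
    ∃ (χ' : Additive (Gamma1 N) →+ ZMod n) (G : ℍ → ℂ), IsPar1 χ' ∧ IsCharFn χ' G ∧ G ≠ 0 ∧
      cexp N G 1 = coeffMap (σ : ℂ →+* ℂ) (cexp N F 1) ∧
      ∀ g g', GalConj N u g g' → ∃ ζ : ℂ, ζ ^ n = 1 ∧
        cexp N G g' = HahnSeries.single 0 ζ * coeffMap (σ : ℂ →+* ℂ) (cexp N F g) := by
  have hpowchar : IsCharFn (0 : Additive (Gamma1 N) →+ ZMod n) (F ^ n) := by
    have h := hF.pow n
    have hz : n • χ = 0 := AddMonoidHom.ext fun γ => by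
      rw [AddMonoidHom.nsmul_apply, nsmul_eq_mul, ZMod.natCast_self, zero_mul]; rfl
    rwa [hz] at h
  obtain ⟨H, hH, hexp, hord⟩ := exists_conj_invariant hM hMk σ hu hpowchar
  have hFN : F ∈ PerFn N := hF.mem_perFn hχ
  have hHN : H ∈ PerFn N := hH.mem_perFn isPar1_zero
  have hσinj : Function.Injective (coeffMap (σ : ℂ →+* ℂ)) := fun x y hxy =>
    HahnSeries.ext (funext fun i => σ.injective (congrArg (fun z => HahnSeries.coeff z i) hxy))
  have hS : ∀ g, cexp N F g ≠ 0 := fun g h => hF0 ((cexp_eq_zero_iff hFN g).mp h)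
  have hH0 : H ≠ 0 := fun h => by
    have h1 := hexp 1 1 (GalConj.one N u)
    rw [h, cexp_zero, cexp_pow hFN, eq_comm, map_pow, pow_eq_zero_iff (NeZero.ne n),
      map_eq_zero_iff _ hσinj] at h1
    exact hS 1 h1
  have hFn0 : F ^ n ≠ 0 := fun h => hF0 (by
    funext τ
    exact pow_eq_zero_iff (NeZero.ne n) |>.mp (congrFun h τ))
  obtain ⟨G₀, hG₀, hG₀n⟩ := exists_hol_root (NeZero.ne n) hH.hol hH0
    (hord hFn0 n fun τ => by rw [ordAt_pow hF.hol]; exact dvd_mul_right _ _)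
  have hG₀0 : G₀ ≠ 0 := fun h => hH0 (by rw [← hG₀n, h, zero_pow (NeZero.ne n)])
  obtain ⟨χ', hχ'⟩ := exists_char_of_pow hG₀ hG₀0 hG₀n hH
  have hGL : G₀ ∈ PerFn (N * n) := hχ'.mem_perFn_mul_order
  -- expansions with period `N * n`
  have hser : ∀ g g', GalConj N u g g' → ∃ ζ : ℂ, ζ ^ n = 1 ∧ cexp (N * n) G₀ g' =
      HahnSeries.single 0 ζ * qExpand ℂ n (coeffMap (σ : ℂ →+* ℂ) (cexp N F g)) := by
    intro g g' hgg
    have h1 : cexp (N * n) G₀ g' ^ n = qExpand ℂ n (coeffMap (σ : ℂ →+* ℂ) (cexp N F g)) ^ n := by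
      rw [← cexp_pow hGL, hG₀n, cexp_level_mul hHN, hexp g g' hgg, cexp_pow hFN, map_pow, map_pow]
    obtain ⟨ζ, hζ, h⟩ := exists_eq_mul_of_pow_eq (NeZero.ne n) h1
    exact ⟨ζ, hζ, by rw [h, algebraMap_laurentSeries_eq_single]⟩
  have huN : u.Coprime N := coprime_of_cyclo (cyclo_of_dvd hu)
  have hpar : IsPar1 χ' := by
    intro γ hγ
    obtain ⟨A, w, hA⟩ := exists_conj_translation1 hN γ hγ
    obtain ⟨g₀, hg₀⟩ := GalConj.exists_left huN A
    obtain ⟨v, hv⟩ : ∃ v : ℤ, (w : ZMod N) = u * (v : ZMod N) := by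
      refine ⟨((((ZMod.unitOfCoprime u huN)⁻¹ : (ZMod N)ˣ) : ZMod N) * w).val, ?_⟩
      rw [Int.cast_natCast, ZMod.natCast_zmod_val, ← mul_assoc, ← ZMod.coe_unitOfCoprime u huN,
        Units.mul_inv, one_mul]
    have hmem : g₀ * ModularGroup.T ^ v * g₀⁻¹ ∈ Gamma1 N :=
      GalConj.mem_gamma1 ((hg₀.mul (GalConj.T_zpow hv)).mul hg₀.inv) (hA ▸ γ.2)
    have hFinv : ∀ τ : ℍ, F ((g₀ * ModularGroup.T ^ v * g₀⁻¹) • τ) = F τ := fun τ => by
      have h1 := hF.transform ⟨_, hmem⟩ τ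
      rw [psi_apply, hχ ⟨_, hmem⟩ (by rw [trace_conj_T_zpow]; norm_num)] at h1
      simpa using h1
    have hsupp : ∀ m : ℤ, (cexp N F g₀).coeff m ≠ 0 → zetaC N ^ (m * v) = 1 := by
      intro m hm
      have h1 := coeff_cexp_mul_T_zpow hFN g₀ v m
      have h2 : cexp N F (g₀ * ModularGroup.T ^ v) = cexp N F g₀ := by
        have := cexp_comp_eq_of_invariant (N := N) hFinv g₀
        rwa [inv_mul_cancel_right] at this
      rw [h2, eq_comm, mul_left_eq_self₀, show (2 * π * Complex.I * m * v / N : ℂ) =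
        2 * π * Complex.I * ((m * v : ℤ) : ℂ) / N by push_cast; ring, exp_eq_zetaC_zpow] at h1
      exact h1.resolve_right hm
    obtain ⟨ζ, -, hζ⟩ := hser g₀ A hg₀
    have hT : cexp (N * n) G₀ (A * ModularGroup.T ^ w) = cexp (N * n) G₀ A := by
      refine HahnSeries.ext (funext fun i => ?_)
      rw [coeff_cexp_mul_T_zpow hGL, hζ, HahnSeries.coeff_single_mul, sub_zero]
      by_cases hni : (n : ℤ) ∣ i
      · obtain ⟨m, rfl⟩ := hni
        rw [qExpand_coeff_mul, coeffMap_coeff]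
        by_cases hm : (cexp N F g₀).coeff m = 0
        · simp [hm]
        have h1 := congrArg σ (hsupp m hm)
        have hu' : σ (zetaC N) = zetaC N ^ u := cyclo_of_dvd hu
        rw [map_zpow₀, hu', map_one, ← zpow_natCast, ← zpow_mul] at h1
        have h2 : Complex.exp (2 * π * Complex.I * ((n : ℤ) * m : ℤ) * w / ((N * n : ℕ) : ℂ)) = 1 := by
          rw [show (2 * π * Complex.I * ((n : ℤ) * m : ℤ) * w / ((N * n : ℕ) : ℂ) : ℂ) =
            2 * π * Complex.I * ((m * w : ℤ) : ℂ) / N by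
              push_cast; field_simp [NeZero.ne n, NeZero.ne N], exp_eq_zetaC_zpow]
          have h3 : ((m * w : ℤ) : ZMod N) = ((u : ℤ) * (m * v) : ℤ) := by
            push_cast; rw [hv]; ring
          obtain ⟨t, ht⟩ := (ZMod.intCast_eq_intCast_iff_dvd_sub _ _ _).mp h3
          rw [show m * w = (u : ℤ) * (m * v) + (N : ℤ) * -t by linarith,
            zpow_add₀ ((isPrimitiveRoot_zetaC N).ne_zero (NeZero.ne N)), h1, one_mul, zpow_mul,
            zpow_natCast, (isPrimitiveRoot_zetaC N).pow_eq_one, one_zpow]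
        rw [h2, one_mul]
      · rw [qExpand_coeff_of_not_dvd n _ hni]
        simp
    have hfun : (fun τ : ℍ => G₀ ((γ : SL(2, ℤ)) • τ)) = G₀ := by
      refine eq_of_cexp_eq (PerFn.comp hGL _) hGL (g := A) ?_
      rw [cexp_comp, hA, inv_mul_cancel_right, hT]
    obtain ⟨τ, hτ⟩ := Function.ne_iff.mp hG₀0
    apply ZMod.injective_stdAddChar (N := n)
    rw [AddChar.map_zero_eq_one]
    refine mul_right_cancel₀ hτ ?_
    rw [one_mul]
    exact ((hχ'.transform γ τ).symm).trans (congrFun hfun τ)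
  have hGN : G₀ ∈ PerFn N := hχ'.mem_perFn hpar
  have hserN : ∀ g g', GalConj N u g g' → ∃ ζ : ℂ, ζ ^ n = 1 ∧
      cexp N G₀ g' = HahnSeries.single 0 ζ * coeffMap (σ : ℂ →+* ℂ) (cexp N F g) := by
    intro g g' hgg
    obtain ⟨ζ, hζ, h⟩ := hser g g' hgg
    refine ⟨ζ, hζ, qExpand_injective (R := ℂ) (N := n) ?_⟩
    rw [← cexp_level_mul hGN, h, map_mul, qExpand_single, mul_zero]
  obtain ⟨ζ₁, hζ₁, h₁⟩ := hserN 1 1 (GalConj.one N u)
  have hζ₁0 : ζ₁ ≠ 0 := by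
    rintro rfl
    rw [zero_pow (NeZero.ne n)] at hζ₁
    exact zero_ne_one hζ₁
  refine ⟨χ', ζ₁⁻¹ • G₀, hpar, hχ'.smul _, ?_, ?_, fun g g' hgg => ?_⟩
  · intro h
    exact hG₀0 (by simpa [smul_eq_zero, hζ₁0] using h)
  · rw [cexp_smul_single hGN, h₁, ← mul_assoc, HahnSeries.single_mul_single, add_zero,
      inv_mul_cancel₀ hζ₁0, HahnSeries.single_zero_one, one_mul]
  · obtain ⟨ζ, hζ, h⟩ := hserN g g' hgg
    refine ⟨ζ₁⁻¹ * ζ, by rw [mul_pow, inv_pow, hζ₁, hζ, inv_one, one_mul], ?_⟩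
    rw [cexp_smul_single hGN, h, ← mul_assoc, HahnSeries.single_mul_single, add_zero]

end FLTA.DeligneSerre
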