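import Fermat.Agent.DeligneSerre.Level.Series
import Fermat.Agent.Bridge.ModHol

/-!
# Criteria for periodicity at every cusp
-/

set_option autoImplicit false

noncomputable section

open scoped MatrixGroups Real
open UpperHalfPlane CongruenceSubgroup Function

namespace FLTA.DeligneSerre

open FLTA.Bridge (Hol GrowthInfty HolInfty expansion expansionFun)

variable {N : ℕ} [NeZero N]

omit [NeZero N] in
theorem gamma_le_conj_T (g : SL(2, ℤ)) (m : ℤ) :
    g * ModularGroup.T ^ ((N : ℤ) * m) * g⁻¹ ∈ Gamma N := by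
  have h : ModularGroup.T ^ ((N : ℤ) * m) ∈ Gamma N := by
    rw [Gamma_mem]
    simp [ModularGroup.coe_T_zpow]
  exact (Gamma_normal N).conj_mem _ h g

/-- Periodicity of the translates of a function invariant under conjugates of `T ^ N`. -/
theorem mem_perFn_of_invariant {F : ℍ → ℂ} (hF : F ∈ Hol)
    (hgrowth : ∀ g : SL(2, ℤ), GrowthInfty (fun τ : ℍ => F (g • τ)))
    (hinv : ∀ (g : SL(2, ℤ)) (τ : ℍ),
      F ((g * ModularGroup.T ^ (N : ℤ) * g⁻¹) • τ) = F τ) : F ∈ PerFn N := by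
  intro g
  refine ⟨comp_smul_mem_hol' hF g, periodic_of_smul fun τ => ?_, hgrowth g⟩
  rw [← zpow_natCast]
  have h := hinv g (g • τ)
  rw [← mul_smul, inv_mul_cancel_right, mul_smul] at h
  exact h

theorem perFn_mul {F : ℍ → ℂ} (hF : F ∈ PerFn N) (k : ℕ) [NeZero k] : F ∈ PerFn (N * k) :=
  PerFn.mul_level k rfl hF

/-- Changing the period. -/
theorem cexp_level_mul {F : ℍ → ℂ} (hF : F ∈ PerFn N) (k : ℕ) [NeZero k] (g : SL(2, ℤ)) :
    cexp (N * k) F g = ModularCurve.qExpand ℂ k (cexp N F g) :=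
  cexp_mul_level k rfl hF g

theorem cexp_smul_single {F : ℍ → ℂ} (hF : F ∈ PerFn N) (c : ℂ) (g : SL(2, ℤ)) :
    cexp N (c • F) g = HahnSeries.single 0 c * cexp N F g := by
  rw [cexp_smul hF]
  ext k
  simp [HahnSeries.coeff_single_mul]

end FLTA.DeligneSerre
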