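import Fermat.Agent.Bridge.ModHol
import Fermat.Agent.DeligneSerre.Rep.Series

/-!
# Expansions of `τ ↦ F ((τ + j) / p)` and `τ ↦ F (p τ)`
-/

set_option autoImplicit false

noncomputable section

open scoped MatrixGroups Topology Real
open UpperHalfPlane hiding I
open Complex Filter Function

namespace FLTA.DeligneSerre

open FLTA.Bridge (Hol GrowthInfty HolInfty expansionFun scaleTau coe_scaleTau)

local notation "𝕢" => Function.Periodic.qParam

/-- `∑ a m q ^ m ↦ ∑ c ^ m a m q ^ m`. -/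
def twistHom {R : Type*} [CommRing R] (c : Rˣ) : LaurentSeries R →+* LaurentSeries R where
  toFun x := ⟨fun m => ((c ^ m : Rˣ) : R) * x.coeff m,
    x.isPWO_support.mono (Function.support_mul_subset_right _ _)⟩
  map_zero' := by ext m; simp
  map_one' := by
    ext m
    rcases eq_or_ne m 0 with rfl | hm <;> simp_all [HahnSeries.coeff_one]
  map_add' x y := by ext m; simp [mul_add]
  map_mul' x y := by
    ext m
    show _ * (x * y).coeff m = _
    rw [HahnSeries.coeff_mul, Finset.mul_sum]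
    rw [HahnSeries.coeff_mul]
    refine Finset.sum_congr ?_ fun ij hij => ?_
    · ext ij
      simp [Finset.mem_antidiagonal, HahnSeries.mem_support]
    · have h : ij.1 + ij.2 = m := by simp [Finset.mem_antidiagonal] at hij; exact hij.2.2
      simp only [← h, zpow_add, Units.val_mul]
      ring

theorem coeff_twistHom {R : Type*} [CommRing R] (c : Rˣ) (x : LaurentSeries R) (m : ℤ) :
    (twistHom c x).coeff m = ((c ^ m : Rˣ) : R) * x.coeff m := rfl

/-- `τ / d`. -/
def divTau (d : ℕ) [NeZero d] (τ : ℍ) : ℍ :=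
  ⟨(τ : ℂ) / d, by
    rw [Complex.div_natCast_im]
    exact div_pos τ.im_pos (Nat.cast_pos.mpr (Nat.pos_of_ne_zero (NeZero.ne d)))⟩

theorem coe_divTau (d : ℕ) [NeZero d] (τ : ℍ) : (divTau d τ : ℂ) = (τ : ℂ) / d := rfl

theorem im_divTau (d : ℕ) [NeZero d] (τ : ℍ) : (divTau d τ).im = τ.im / d := by
  show ((τ : ℂ) / d).im = _
  rw [Complex.div_natCast_im]
  rfl

theorem qParam_divTau (d : ℕ) [NeZero d] (τ : ℍ) :
    𝕢 1 (divTau d τ : ℂ) = 𝕢 (d : ℝ) (τ : ℂ) := by
  simp only [Periodic.qParam, coe_divTau, ofReal_natCast, ofReal_one, div_one]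
  congr 1
  ring

variable {F : ℍ → ℂ}

theorem comp_divTau_spec (d : ℕ) [NeZero d] (hF : F ∈ HolInfty 1) :
    (fun τ : ℍ => F (divTau d τ)) ∈ HolInfty d ∧
      expansionFun d (fun τ : ℍ => F (divTau d τ)) = expansionFun 1 F := by
  have hd : (0 : ℝ) < d := Nat.cast_pos.mpr (Nat.pos_of_ne_zero (NeZero.ne d))
  have hd1 : 1 ≤ d := Nat.one_le_iff_ne_zero.mpr (NeZero.ne d)
  set G : ℍ → ℂ := fun τ => F (divTau d τ)
  have hn := FLTA.Bridge.isBounded_poleBound hF.2.2
  set n := FLTA.Bridge.poleBound F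
  set k := n * (d - 1)
  have hq : ∀ τ : ℍ, 𝕢 1 (τ : ℂ) ^ n * G τ =
      𝕢 (d : ℝ) (τ : ℂ) ^ k * (𝕢 1 (divTau d τ : ℂ) ^ n * F (divTau d τ)) := by
    intro τ
    rw [qParam_divTau, FLTA.Bridge.qParam_one_eq_pow d, ← mul_assoc, ← pow_add, ← pow_mul]
    congr 2
    show d * n = n * (d - 1) + n
    obtain ⟨e, he⟩ := Nat.exists_eq_add_of_le hd1
    rw [he, Nat.add_sub_cancel_left]
    ring
  have hb : IsBoundedAtImInfty (fun τ : ℍ => 𝕢 1 (τ : ℂ) ^ n * G τ) := by
    rw [isBoundedAtImInfty_iff] at hn ⊢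
    obtain ⟨M, A, hMA⟩ := hn
    refine ⟨M, A * d, fun τ hτ => ?_⟩
    have h := hMA (divTau d τ) (by rw [im_divTau, le_div_iff₀ hd]; exact hτ)
    rw [hq, norm_mul]
    refine le_trans (mul_le_of_le_one_left (norm_nonneg _) ?_) h
    rw [norm_pow]
    refine pow_le_one₀ (norm_nonneg _) ?_
    rw [Periodic.norm_qParam]
    refine Real.exp_le_one_iff.mpr (div_nonpos_of_nonpos_of_nonneg ?_ hd.le)
    nlinarith [τ.im_pos, Real.pi_pos, show (τ : ℂ).im = τ.im from rfl]
  have hG : G ∈ HolInfty d := by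
    refine ⟨?_, fun w => ?_, n, hb⟩
    · rw [FLTA.Bridge.mem_hol_iff_differentiableOn]
      refine DifferentiableOn.congr (f := (F ∘ ofComplex) ∘ fun z : ℂ => z / d) ?_ ?_
      · exact (FLTA.Bridge.mem_hol_iff_differentiableOn.mp hF.1).comp (by fun_prop)
          (fun z hz => by simpa [Complex.div_natCast_im] using div_pos hz hd)
      · intro z hz
        simp only [comp_apply, G, ofComplex_apply_of_im_pos hz]
        rw [show z / d = ((divTau d ⟨z, hz⟩ : ℍ) : ℂ) from rfl, ofComplex_apply]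
    · by_cases hw : 0 < w.im
      · have hw' : 0 < (w + (d : ℂ)).im := by simpa using hw
        have hu : 0 < (w / d).im := by simpa [Complex.div_natCast_im] using div_pos hw hd
        have hu' : 0 < (w / d + (1 : ℕ)).im := by simpa using hu
        have hp := hF.2.1 (w / d)
        simp only [comp_apply, G, ofComplex_apply_of_im_pos hw', ofComplex_apply_of_im_pos hw,
          ofComplex_apply_of_im_pos hu, ofComplex_apply_of_im_pos hu'] at hp ⊢
        refine Eq.trans (congrArg F (UpperHalfPlane.ext ?_)) (hp.trans (congrArg F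
          (UpperHalfPlane.ext rfl)))
        simp [coe_divTau, add_div, div_self (show (d : ℂ) ≠ 0 from NeZero.ne _)]
      · have hw' : (w + (d : ℂ)).im ≤ 0 := by simpa using not_lt.mp hw
        simp only [comp_apply, G, ofComplex_apply_of_im_nonpos hw',
          ofComplex_apply_of_im_nonpos (not_lt.mp hw)]
  refine ⟨hG, ?_⟩
  let P := qExpansion ((1 : ℕ) : ℝ) (fun τ : ℍ => 𝕢 1 (τ : ℂ) ^ n * F τ)
  have hQ : qExpansion (d : ℝ) (fun τ : ℍ => 𝕢 1 (τ : ℂ) ^ n * G τ) =
      PowerSeries.X ^ k * P := by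
    refine FLTA.Bridge.qExpansion_eq_of_hasSum d (FLTA.Bridge.qParam_pow_mul_mem d hG n) hb
      fun τ => ?_
    have hs := (FLTA.Bridge.hasSum_qExpansion' 1 (FLTA.Bridge.qParam_pow_mul_mem 1 hF n)
      (FLTA.Bridge.isBounded_poleBound hF.2.2) (divTau d τ)).mul_left (𝕢 (d : ℝ) (τ : ℂ) ^ k)
    rw [← hq τ] at hs
    have hinj : Function.Injective fun m : ℕ => k + m := fun _ _ h => Nat.add_left_cancel h
    rw [← hinj.hasSum_iff (fun m hm => ?_)]
    · refine hs.congr_fun fun m => ?_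
      simp only [comp_apply, PowerSeries.coeff_X_pow_mul', Nat.le_add_right, if_true,
        Nat.add_sub_cancel_left, Nat.cast_one, qParam_divTau, pow_add, P]
      ring
    · rw [PowerSeries.coeff_X_pow_mul', if_neg, zero_mul]
      exact fun h => hm ⟨m - k, Nat.add_sub_cancel' h⟩
  rw [FLTA.Bridge.expansionFun_eq d hG hb, hQ, expansionFun, map_mul,
    HahnSeries.ofPowerSeries_X_pow, ← mul_assoc, HahnSeries.single_mul_single, mul_one]
  rw [show -((n * d : ℕ) : ℤ) + (k : ℤ) = -((n * 1 : ℕ) : ℤ) by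
    simp only [k]
    push_cast [Nat.cast_sub hd1]
    ring]

theorem comp_scaleTau_mem_holInfty (d : ℕ) [NeZero d] (hF : F ∈ HolInfty 1) :
    (fun τ : ℍ => F (scaleTau d τ)) ∈ HolInfty 1 := by
  have hd : (1 : ℝ) ≤ d := by exact_mod_cast Nat.one_le_iff_ne_zero.mpr (NeZero.ne d)
  refine ⟨?_, fun w => ?_, ?_⟩
  · rw [FLTA.Bridge.mem_hol_iff_differentiableOn]
    refine DifferentiableOn.congr (f := (F ∘ ofComplex) ∘ fun z : ℂ => (d : ℂ) * z) ?_ ?_
    · exact (FLTA.Bridge.mem_hol_iff_differentiableOn.mp hF.1).comp (by fun_prop)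
        (fun z hz => by simpa using mul_pos (lt_of_lt_of_le one_pos hd) hz)
    · intro z hz
      simp only [comp_apply, ofComplex_apply_of_im_pos hz]
      rw [show (d : ℂ) * z = ((scaleTau d ⟨z, hz⟩ : ℍ) : ℂ) from rfl, ofComplex_apply]
  · by_cases hw : 0 < w.im
    · have hw' : 0 < (w + ((1 : ℕ) : ℂ)).im := by simpa using hw
      have hu : 0 < ((d : ℂ) * w).im := by
        simpa using mul_pos (lt_of_lt_of_le one_pos hd) hw
      have hu' : 0 < ((d : ℂ) * w + d • ((1 : ℕ) : ℂ)).im := by simpa using hu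
      have hp := hF.2.1.nsmul d ((d : ℂ) * w)
      simp only [comp_apply, ofComplex_apply_of_im_pos hw', ofComplex_apply_of_im_pos hw,
        ofComplex_apply_of_im_pos hu, ofComplex_apply_of_im_pos hu'] at hp ⊢
      refine Eq.trans (congrArg F (UpperHalfPlane.ext ?_)) (hp.trans (congrArg F
        (UpperHalfPlane.ext rfl)))
      simp [coe_scaleTau, mul_add]
    · have hw' : (w + ((1 : ℕ) : ℂ)).im ≤ 0 := by simpa using not_lt.mp hw
      simp only [comp_apply, ofComplex_apply_of_im_nonpos hw',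
        ofComplex_apply_of_im_nonpos (not_lt.mp hw)]
  · obtain ⟨n, hn⟩ := hF.2.2
    refine ⟨n * d, ?_⟩
    rw [isBoundedAtImInfty_iff] at hn ⊢
    obtain ⟨M, A, hMA⟩ := hn
    refine ⟨M, max A 0, fun τ hτ => ?_⟩
    have him : (scaleTau d τ).im = d * τ.im := by
      show (scaleTau d τ : ℂ).im = _
      simp [coe_scaleTau]
    have h := hMA (scaleTau d τ) (by rw [him]; nlinarith [le_max_left A 0, le_max_right A 0])
    rwa [mul_comm n, pow_mul, ← FLTA.Bridge.qParam_scaleTau]

/-- `exp (2 π i j / p)` as a unit. -/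
def rootUnit (p j : ℕ) : ℂˣ :=
  Units.mk0 (Complex.exp (2 * π * Complex.I * j / p)) (Complex.exp_ne_zero _)

/-- The expansion of `τ ↦ F ((τ + j) / p)`. -/
theorem comp_addDiv_spec (p j : ℕ) [NeZero p] (hF : F ∈ HolInfty 1) :
    (fun τ : ℍ => F (((j : ℝ) / p) +ᵥ divTau p τ)) ∈ HolInfty p ∧
      expansionFun p (fun τ : ℍ => F (((j : ℝ) / p) +ᵥ divTau p τ)) =
        twistHom (rootUnit p j) (expansionFun 1 F) := by
  set t : ℝ := (j : ℝ) / p
  have hFt : (fun τ : ℍ => F (t +ᵥ τ)) ∈ HolInfty 1 := by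
    refine ⟨?_, fun w => ?_, ?_⟩
    · rw [FLTA.Bridge.mem_hol_iff_differentiableOn]
      refine DifferentiableOn.congr (f := (F ∘ ofComplex) ∘ fun z : ℂ => (t : ℂ) + z) ?_ ?_
      · exact (FLTA.Bridge.mem_hol_iff_differentiableOn.mp hF.1).comp (by fun_prop)
          (fun z hz => by simpa using hz)
      · intro z hz
        have hz' : 0 < ((t : ℂ) + z).im := by simpa using hz
        simp only [comp_apply, ofComplex_apply_of_im_pos hz, ofComplex_apply_of_im_pos hz']
        congr 1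
    · by_cases hw : 0 < w.im
      · have hw' : 0 < (w + ((1 : ℕ) : ℂ)).im := by simpa using hw
        have hu : 0 < ((t : ℂ) + w).im := by simpa using hw
        have hu' : 0 < ((t : ℂ) + w + ((1 : ℕ) : ℂ)).im := by simpa using hw
        have hp := hF.2.1 ((t : ℂ) + w)
        simp only [comp_apply, ofComplex_apply_of_im_pos hw', ofComplex_apply_of_im_pos hw,
          ofComplex_apply_of_im_pos hu, ofComplex_apply_of_im_pos hu'] at hp ⊢
        refine Eq.trans (congrArg F (UpperHalfPlane.ext ?_)) (hp.trans (congrArg F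
          (UpperHalfPlane.ext rfl)))
        simp [add_assoc]
      · have hw' : (w + ((1 : ℕ) : ℂ)).im ≤ 0 := by simpa using not_lt.mp hw
        simp only [comp_apply, ofComplex_apply_of_im_nonpos hw',
          ofComplex_apply_of_im_nonpos (not_lt.mp hw)]
    · obtain ⟨n, hn⟩ := hF.2.2
      refine ⟨n, ?_⟩
      rw [isBoundedAtImInfty_iff] at hn ⊢
      obtain ⟨M, A, hMA⟩ := hn
      refine ⟨M, A, fun σ hσ => ?_⟩
      have := hMA (t +ᵥ σ) (by simpa using hσ)
      simpa [Periodic.norm_qParam] using this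
  obtain ⟨h1, h2⟩ := comp_divTau_spec p hFt
  refine ⟨h1, h2.trans (HahnSeries.ext (funext fun m => ?_))⟩
  rw [FLTA.Bridge.coeff_expansion_translate 1 hF t m, coeff_twistHom, Units.val_zpow_eq_zpow_val,
    rootUnit, Units.val_mk0, ← Complex.exp_int_mul]
  congr 2
  simp [t]
  ring

end FLTA.DeligneSerre
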