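import Fermat.Agent.DeligneSerre.Rep.Red
import Fermat.Agent.Congruence.FrobeniusField
import Fermat.Agent.Galois.PlacesFinite

/-!
# Inertia and Frobenius on parabolic characters
-/

set_option autoImplicit false

noncomputable section

open scoped MatrixGroups
open UpperHalfPlane CongruenceSubgroup ModularCurve

namespace FLTA.DeligneSerre

open FLTA.Bridge (expansionFun)

local notation "Qb" => AlgebraicClosure ℚ
local notation "Γℚ" => (Qb ≃ₐ[ℚ] Qb)

variable {N n : ℕ} [NeZero N] [NeZero n] {l : ℕ} {B : ValuationSubring Qb}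

/-- The expansion at infinity of period one, over `B`. -/
theorem IsRedRep.exists_series {χ : ParV N n} {F : ℍ → ℂ} (h : IsRedRep B χ F) :
    ∃ S : LaurentSeries B, coeffMap (iotaA B) S = expansionFun 1 F ∧
      redExp B N F 1 = qExpand _ N (coeffMap (IsLocalRing.residue B) S) := by
  have hcq := h.char.cexp_eq_qExpand (isPar1_coe χ)
  obtain ⟨S, hS⟩ := (mem_range_coeffMap_iff (iotaA_injective B)
    (x := expansionFun 1 F)).mpr fun m => by
      obtain ⟨a, ha⟩ := h.int_one ((N : ℤ) * m)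
      rw [hcq, qExpand_coeff_mul] at ha
      exact ⟨a, ha⟩
  refine ⟨S, hS, ?_⟩
  rw [← coeffMap_qExpand]
  exact redExp_eq_of_cexp (by rw [coeffMap_qExpand, hS, hcq])

/-- Coefficientwise action of an element of the decomposition group. -/
theorem exists_conj_redRep (hN : 5 ≤ N) {σ : Γℚ} (hσ : σ ∈ B.decompositionSubgroup ℚ)
    {χ : ParV N n} {F : ℍ → ℂ} (h : IsRedRep B χ F) :
    ∃ G, IsRedRep B (galRep hN σ χ) G ∧ ∀ (m : ℤ) (a : B),
      iota (a : Qb) = (cexp N F 1).coeff m → (redExp B N G 1).coeff m =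
        IsLocalRing.residue B ⟨σ a, Galois.apply_mem_of_mem_decompositionSubgroup hσ a.2⟩ := by
  obtain ⟨u, -, -, hc⟩ := exists_conj (n := n) hN (liftC σ)
  obtain ⟨χ', G, hG, hG0, he, -⟩ := hc χ F h.char h.fn_ne_zero
  have hχ' : galRep hN σ χ = χ' := conjRep_eq hN h.char h.fn_ne_zero hG he
  have hcoef : ∀ (m : ℤ) (a : B), iota (a : Qb) = (cexp N F 1).coeff m →
      (cexp N G 1).coeff m = iota (σ (a : Qb)) := fun m a ha => by
    rw [he, coeffMap_coeff, ← ha]
    exact liftC_iota σ _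
  have hred : ∀ (m : ℤ) (a : B), iota (a : Qb) = (cexp N F 1).coeff m →
      (redExp B N G 1).coeff m = IsLocalRing.residue B
        ⟨σ a, Galois.apply_mem_of_mem_decompositionSubgroup hσ a.2⟩ := fun m a ha => by
    rw [coeff_redExp, hcoef m a ha]
    exact redC_iota B ⟨σ a, Galois.apply_mem_of_mem_decompositionSubgroup hσ a.2⟩
  refine ⟨G, ⟨hχ' ▸ hG, fun m => ?_, ?_⟩, hred⟩
  · obtain ⟨a, ha⟩ := h.int_one m
    exact ⟨⟨σ a, Galois.apply_mem_of_mem_decompositionSubgroup hσ a.2⟩, (hcoef m a ha).symm⟩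
  · obtain ⟨m₀, hm₀⟩ : ∃ m, (redExp B N F 1).coeff m ≠ 0 := by
      by_contra hall
      push Not at hall
      exact h.ne_zero (HahnSeries.ext (funext hall))
    obtain ⟨a₀, ha₀⟩ := h.int_one m₀
    rw [coeff_redExp, ← ha₀, redC_iota, ne_eq, Galois.residue_eq_zero_iff_mem_nonunits] at hm₀
    intro hz
    have h1 := hred m₀ a₀ ha₀
    rw [hz, HahnSeries.coeff_zero, eq_comm, Galois.residue_eq_zero_iff_mem_nonunits,
      Galois.apply_mem_nonunits_iff hσ] at h1
    exact hm₀ h1

variable (hN : 5 ≤ N) (hl : l.Prime) (hlN : ¬ l ∣ N) (hln : ¬ l ∣ n) (hB : B.LiesOverPrime l)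
include hl hlN hln hB

/-- Inertia acts trivially. -/
theorem galRep_inertia {σ : Γℚ} (hσ : σ ∈ B.inertiaSubgroupIn ℚ) :
    galRep (n := n) hN σ = 1 := by
  obtain ⟨hD, hI⟩ := Galois.mem_inertiaSubgroupIn_iff.mp hσ
  refine LinearMap.ext fun χ => ?_
  obtain ⟨F, hF⟩ := exists_redRep hl hlN hln hB hN χ
  obtain ⟨G, hG, hred⟩ := exists_conj_redRep hN hD hF
  rw [Module.End.one_apply]
  refine eq_of_redRep hl hlN hln hB hG hF (HahnSeries.ext (funext fun m => ?_))
  obtain ⟨a, ha⟩ := hF.int_one m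
  rw [hred m a ha, coeff_redExp, ← ha, redC_iota, Galois.residue_eq_iff_sub_mem_nonunits]
  exact hI a a.2

omit hlN hln hB in
/-- The residue of a root of unity of order `l`. -/
theorem residue_root_eq_one [CharP (IsLocalRing.ResidueField B) l] {z : B} (hz : z ^ l = 1) :
    IsLocalRing.residue B z = 1 := by
  haveI := Fact.mk hl
  have h1 : (IsLocalRing.residue B z - 1) ^ l = 0 := by
    rw [sub_pow_char, ← map_pow, hz, map_one, one_pow, sub_self]
  exact sub_eq_zero.mp (pow_eq_zero_iff hl.ne_zero |>.mp h1)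

/-- The congruence relation. -/
theorem galRep_frobenius {σ : Γℚ} (hσ : B.IsFrobeniusAt σ l) (χ : ParV N n) :
    heckePar1 (ZMod n) l χ = galRep hN σ χ + l • galRep hN σ⁻¹
      (diamondPar1 (ZMod n) (primeUnit hl hlN) χ) := by
  haveI := Fact.mk hl
  haveI : NeZero l := ⟨hl.ne_zero⟩
  haveI : CharP (IsLocalRing.ResidueField B) l := Galois.charP_residueField hl hB
  obtain ⟨hD, hFr⟩ := Galois.isFrobeniusAt_iff.mp hσ
  obtain ⟨F, hF⟩ := exists_redRep hl hlN hln hB hN χ
  set k := IsLocalRing.ResidueField B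
  -- the translate by the representative at infinity
  set ψ := diamondPar1 (ZMod n) (primeUnit hl hlN) χ
  set Fg : ℍ → ℂ := fun τ => F ((heckeGam hlN : SL(2, ℤ)) • τ) with hFg
  have hFgc : IsCharFn ψ.1 Fg := hF.char.comp_gamma0 (heckeGam hlN)
  have hFgexp : cexp N Fg 1 = cexp N F (heckeGam hlN : SL(2, ℤ)) := by
    rw [hFg, cexp_comp, mul_one]
  have hFgR : IsRedRep B ψ Fg := by
    refine ⟨hFgc, fun m => ?_, ?_⟩
    · rw [hFgexp]; exact hF.isIntFn hl hlN hln hB _ m
    · rw [hFg, redExp_comp, mul_one]; exact hF.redExp_ne hl hlN hln hB _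
  obtain ⟨G₁, hG₁, hred₁⟩ := exists_conj_redRep hN hD hF
  obtain ⟨G₂, hG₂, hred₂⟩ := exists_conj_redRep hN (inv_mem hD) hFgR
  obtain ⟨S, hS, hSr⟩ := hF.exists_series
  obtain ⟨S', hS', hSr'⟩ := hFgR.exists_series
  set r := coeffMap (IsLocalRing.residue B) S
  set r' := coeffMap (IsLocalRing.residue B) S'
  -- reductions of the two conjugates
  have h₁ : redExp B N G₁ 1 = coeffMap (frobenius k l) (qExpand k N r) := by
    rw [← hSr]
    refine HahnSeries.ext (funext fun m => ?_)
    obtain ⟨a, ha⟩ := hF.int_one m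
    rw [hred₁ m a ha, coeffMap_coeff, coeff_redExp, ← ha, redC_iota, frobenius_def, ← map_pow,
      Galois.residue_eq_iff_sub_mem_nonunits]
    exact hFr a a.2
  have h₂ : coeffMap (frobenius k l) (redExp B N G₂ 1) = qExpand k N r' := by
    rw [← hSr']
    refine HahnSeries.ext (funext fun m => ?_)
    obtain ⟨a, ha⟩ := hFgR.int_one m
    rw [coeffMap_coeff, hred₂ m a ha, coeff_redExp, ← ha, redC_iota, frobenius_def, ← map_pow,
      Galois.residue_eq_iff_sub_mem_nonunits]
    have h := hFr _ (Galois.apply_mem_of_mem_decompositionSubgroup (inv_mem hD) a.2)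
    rw [show σ (σ⁻¹ (a : Qb)) = a from σ.apply_symm_apply _] at h
    rw [← neg_mem_iff, neg_sub]
    exact h
  -- the product over the representatives
  obtain ⟨z, hz⟩ := exists_iota_eq_zetaC l
  have hzl : z ^ l = 1 := iota.injective (by
    rw [map_pow, hz, (isPrimitiveRoot_zetaC l).pow_eq_one, map_one])
  have hzB : z ∈ B := Galois.mem_of_isIntegral
    (IsIntegral.of_pow (NeZero.pos l) (by rw [hzl]; exact isIntegral_one))
  have hzl' : (⟨z, hzB⟩ : B) ^ l = 1 := Subtype.ext (by rw [SubmonoidClass.coe_pow]; exact hzl)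
  let c : Bˣ := Units.ofPowEqOne _ l hzl' (NeZero.ne l)
  have hc : ∀ j : ZMod l, rootUnit l j.val = Units.map (iotaA B : B →* ℂ) (c ^ j.val) := fun j => by
    refine Units.ext ?_
    rw [val_rootUnit, Units.coe_map, Units.val_pow_eq_pow_val, MonoidHom.coe_coe, map_pow,
      ← hz]
    rfl
  have hH := isCharFn_heckeProd hlN hF.char
  have hHp : IsPar1 (heckeHom1 N (ZMod n) l χ.1) :=
    heckeHom1_isParabolicHom (ZMod n) l (isPar1_coe χ)
  set P : LaurentSeries B := (∏ j : ZMod l, twistHom (c ^ j.val) S) *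
    qExpand B l (qExpand B l S')
  have hP : coeffMap (iotaA B) P = qExpand ℂ l (expansionFun 1 (heckeProd hlN F)) := by
    rw [expansionFun_heckeProd hlN hF.char (isPar1_coe χ), ← hS, ← hS', map_mul, map_prod,
      coeffMap_qExpand, coeffMap_qExpand]
    congr 1
    exact Finset.prod_congr rfl fun j _ => by rw [coeffMap_twistHom, hc]
  obtain ⟨R, hR⟩ := (mem_range_coeffMap_iff (iotaA_injective B)
    (x := expansionFun 1 (heckeProd hlN F))).mpr fun m => ⟨P.coeff ((l : ℤ) * m), by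
      rw [← coeffMap_coeff, hP, qExpand_coeff_mul]⟩
  have hRP : qExpand B l R = P := coeffMap_injective (iotaA_injective B) (by
    rw [coeffMap_qExpand, hR, hP])
  have hHr : redExp B N (heckeProd hlN F) 1 = qExpand k N (coeffMap (IsLocalRing.residue B) R) := by
    rw [← coeffMap_qExpand]
    exact redExp_eq_of_cexp (by
      rw [coeffMap_qExpand, hR, hH.cexp_eq_qExpand hHp])
  have htw : ∀ j : ZMod l, coeffMap (IsLocalRing.residue B) (twistHom (c ^ j.val) S) = r := by
    intro j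
    rw [coeffMap_twistHom, map_pow]
    have h1 : Units.map ((IsLocalRing.residue B : B →+* k) : B →* k) c = 1 :=
      Units.ext (residue_root_eq_one hl hzl')
    rw [h1, one_pow]
    exact HahnSeries.ext (funext fun m => by simp [coeff_twistHom, r])
  have hRr : coeffMap (IsLocalRing.residue B) R =
      coeffMap (frobenius k l) r * qExpand k l r' := by
    apply qExpand_injective (R := k) l
    rw [← coeffMap_qExpand, hRP, map_mul, map_prod, Finset.prod_congr rfl fun j _ => htw j,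
      Finset.prod_const, Finset.card_univ, ZMod.card, map_mul, coeffMap_qExpand, coeffMap_qExpand,
      ← Congruence.qExpand_coeffMap_frobenius]
  have h₂l : redExp B N G₂ 1 ^ l = qExpand k l (qExpand k N r') := by
    rw [← Congruence.qExpand_coeffMap_frobenius, h₂]
  have heq : redExp B N (heckeProd hlN F) 1 = redExp B N (G₁ * G₂ ^ l) 1 := by
    rw [redExp_mul (hG₁.mem_intFn hl hlN hln hB) (pow_mem (hG₂.mem_intFn hl hlN hln hB) l),
      redExp_pow (hG₂.mem_intFn hl hlN hln hB), h₁, h₂l, hHr, hRr, map_mul, coeffMap_qExpand,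
      qExpand_qExpand, qExpand_qExpand, qExpand_congr (Nat.mul_comm N l)]
  have hR₂ : IsRedRep B (galRep hN σ χ + l • galRep hN σ⁻¹ ψ) (G₁ * G₂ ^ l) := by
    refine ⟨hG₁.char.mul (hG₂.char.pow l), fun m => (mul_mem (hG₁.mem_intFn hl hlN hln hB)
      (pow_mem (hG₂.mem_intFn hl hlN hln hB) l) : G₁ * G₂ ^ l ∈ IntFn B N).2 1 m, ?_⟩
    rw [redExp_mul (hG₁.mem_intFn hl hlN hln hB) (pow_mem (hG₂.mem_intFn hl hlN hln hB) l),
      redExp_pow (hG₂.mem_intFn hl hlN hln hB)]
    exact mul_ne_zero hG₁.ne_zero (pow_ne_zero l hG₂.ne_zero)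
  refine eq_of_redRep hl hlN hln hB (f := heckeProd hlN F) ⟨hH, fun m => ?_, ?_⟩ hR₂ heq
  · rw [hH.cexp_eq_qExpand hHp, ← hR, ← coeffMap_qExpand, coeffMap_coeff]
    exact ⟨_, rfl⟩
  · rw [heq]; exact hR₂.ne_zero

end FLTA.DeligneSerre
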