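import Fermat.Agent.DeligneSerre.Rep.Product
import Fermat.Prelude.Thm_ModularCurve_coeffMap_qExpand

/-!
# `Aut ℂ` commutes with the Hecke operators on parabolic characters
-/

set_option autoImplicit false

noncomputable section

open scoped MatrixGroups Real
open UpperHalfPlane CongruenceSubgroup ModularCurve

namespace FLTA.DeligneSerre

open FLTA.Bridge (expansionFun)

theorem coeffMap_twistHom {R S : Type*} [CommRing R] [CommRing S] (f : R →+* S) (c : Rˣ)
    (x : LaurentSeries R) :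
    coeffMap f (twistHom c x) = twistHom (Units.map (f : R →* S) c) (coeffMap f x) := by
  ext m
  rw [coeffMap_coeff, coeff_twistHom, coeff_twistHom, map_mul, coeffMap_coeff, ← map_zpow,
    Units.coe_map]
  rfl

theorem twistHom_injective {R : Type*} [CommRing R] (c : Rˣ) :
    Function.Injective (twistHom c) := fun x y h => by
  ext m
  have := congrArg (fun z : LaurentSeries R => z.coeff m) h
  simp only [coeff_twistHom] at this
  exact (Units.isUnit _).mul_left_cancel this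

theorem val_rootUnit (p j : ℕ) : ((rootUnit p j : ℂˣ) : ℂ) = zetaC p ^ j := by
  rw [rootUnit, Units.val_mk0, zetaC, ← Complex.exp_nat_mul]
  congr 1
  ring

theorem rootUnit_val_natCast (p m : ℕ) [NeZero p] :
    rootUnit p ((m : ZMod p)).val = rootUnit p m := by
  refine Units.ext ?_
  rw [val_rootUnit, val_rootUnit, ZMod.val_natCast]
  conv_rhs => rw [← Nat.mod_add_div m p]
  rw [pow_add, pow_mul, (isPrimitiveRoot_zetaC p).pow_eq_one, one_pow, mul_one]

/-- `σ` permutes the twists by the roots of unity of order `p`. -/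
theorem coeffMap_prod_twist (σ : ℂ ≃+* ℂ) (p : ℕ) [NeZero p] (x : LaurentSeries ℂ) :
    coeffMap (σ : ℂ →+* ℂ) (∏ j : ZMod p, twistHom (rootUnit p j.val) x) =
      ∏ j : ZMod p, twistHom (rootUnit p j.val) (coeffMap (σ : ℂ →+* ℂ) x) := by
  obtain ⟨v, hv, hσ⟩ := exists_cyclo σ p
  let w : (ZMod p)ˣ := ZMod.unitOfCoprime v hv
  rw [map_prod, ← Equiv.prod_comp (Units.mulLeft w)
    (fun j : ZMod p => twistHom (rootUnit p j.val) (coeffMap (σ : ℂ →+* ℂ) x))]
  refine Finset.prod_congr rfl fun j _ => ?_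
  rw [coeffMap_twistHom]
  congr 2
  rw [show Units.mulLeft w j = ((v * j.val : ℕ) : ZMod p) by
    simp [w, ZMod.natCast_zmod_val], rootUnit_val_natCast]
  refine Units.ext ?_
  rw [Units.coe_map, val_rootUnit, MonoidHom.coe_coe, RingHom.coe_coe, map_pow, val_rootUnit, hσ,
    ← pow_mul]

variable {N n : ℕ} [NeZero N] [NeZero n]

theorem expansionFun_ne_zero {χ : Additive (Gamma1 N) →+ ZMod n} {F : ℍ → ℂ}
    (hF : IsCharFn χ F) (hχ : IsPar1 χ) (h0 : F ≠ 0) : expansionFun 1 F ≠ 0 := fun h =>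
  cexp_one_one_of_ne_zero (hF.mem_perFn hχ) h0 1 (by rw [hF.cexp_eq_qExpand hχ, h, map_zero])

theorem expansionFun_smul {F : ℍ → ℂ} (hF : F ∈ FLTA.Bridge.HolInfty 1) (c : ℂ) :
    expansionFun 1 (c • F) = HahnSeries.single 0 c * expansionFun 1 F := by
  have h := congrArg (FLTA.Bridge.expansion 1)
    (show (⟨c • F, Subalgebra.smul_mem _ hF c⟩ : FLTA.Bridge.HolInfty 1) =
      algebraMap ℂ (FLTA.Bridge.HolInfty 1) c * ⟨F, hF⟩ from Subtype.ext (Algebra.smul_def c F))
  rw [map_mul, AlgHom.commutes, algebraMap_laurentSeries_eq_single] at h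
  exact h

/-- From period `N` to period one. -/
theorem expansionFun_of_cexp {χ χ' : Additive (Gamma1 N) →+ ZMod n} {F G : ℍ → ℂ} {c : ℂ}
    {σ : ℂ ≃+* ℂ} (hF : IsCharFn χ F) (hχ : IsPar1 χ) (hG : IsCharFn χ' G) (hχ' : IsPar1 χ')
    (h : cexp N G 1 = HahnSeries.single 0 c * coeffMap (σ : ℂ →+* ℂ) (cexp N F 1)) :
    expansionFun 1 G = HahnSeries.single 0 c * coeffMap (σ : ℂ →+* ℂ) (expansionFun 1 F) := by
  apply qExpand_injective (R := ℂ) N
  rw [← hG.cexp_eq_qExpand hχ', h, hF.cexp_eq_qExpand hχ, coeffMap_qExpand, map_mul,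
    qExpand_single, mul_zero]

theorem IsCharFn.cexp_eq_of_one {χ χ' : Additive (Gamma1 N) →+ ZMod n} {F G : ℍ → ℂ}
    {σ : ℂ ≃+* ℂ} (hF : IsCharFn χ F) (hχ : IsPar1 χ) (hG : IsCharFn χ' G) (hχ' : IsPar1 χ')
    (h : expansionFun 1 G = coeffMap (σ : ℂ →+* ℂ) (expansionFun 1 F)) :
    cexp N G 1 = coeffMap (σ : ℂ →+* ℂ) (cexp N F 1) := by
  rw [hG.cexp_eq_qExpand hχ', h, hF.cexp_eq_qExpand hχ, coeffMap_qExpand]

theorem heckeProd_ne_zero {p : ℕ} [Fact p.Prime] [NeZero p] (hpN : ¬ p ∣ N)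
    {χ : Additive (Gamma1 N) →+ ZMod n} {F : ℍ → ℂ} (hF : IsCharFn χ F) (hχ : IsPar1 χ)
    (h0 : F ≠ 0) : heckeProd hpN F ≠ 0 := by
  intro h
  have hg : IsPar1 (conjHom1 (ZMod n) (heckeGam hpN) χ) := conjHom1_isParabolicHom (ZMod n) _ hχ
  have hg0 : (fun τ : ℍ => F ((heckeGam hpN : SL(2, ℤ)) • τ)) ≠ 0 := fun h' => h0 (funext fun τ => by
    simpa using congrFun h' ((heckeGam hpN : SL(2, ℤ))⁻¹ • τ))
  have hexp := expansionFun_heckeProd hpN hF hχ
  have hz : expansionFun 1 (heckeProd hpN F) = 0 := by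
    rw [h]
    exact map_zero (FLTA.Bridge.expansion 1)
  rw [hz, map_zero] at hexp
  rcases mul_eq_zero.mp hexp.symm with h1 | h1
  · obtain ⟨j, -, hj⟩ := Finset.prod_eq_zero_iff.mp h1
    exact expansionFun_ne_zero hF hχ h0 (twistHom_injective _ (hj.trans (map_zero _).symm))
  · refine expansionFun_ne_zero (hF.comp_gamma0 _) hg hg0 ?_
    apply qExpand_injective (R := ℂ) p
    apply qExpand_injective (R := ℂ) p
    rw [map_zero, map_zero]
    exact h1

variable (hN : 5 ≤ N)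
include hN

/-- `conjRep` commutes with the Hecke operators. -/
theorem commute_conjRep_heckePar1 (σ : ℂ ≃+* ℂ) (p : ℕ) :
    Commute (conjRep (n := n) hN σ) (heckePar1 (ZMod n) p) := by
  by_cases hp : p.Prime ∧ ¬ p ∣ N
  swap
  · have h0 : (heckePar1 (ZMod n) p : Module.End (ZMod n) (ParV N n)) = 0 :=
      LinearMap.ext fun χ => Subtype.ext (by
        rw [coe_heckePar1, heckeHom1_of_not (ZMod n) hp]; rfl)
    rw [h0]
    exact Commute.zero_right _
  haveI := Fact.mk hp.1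
  haveI : NeZero p := ⟨hp.1.ne_zero⟩
  have hpN := hp.2
  refine LinearMap.ext fun χ => ?_
  obtain ⟨F, hF, hF0⟩ := exists_isCharFn (isPar1_coe χ) hN
  obtain ⟨u, hu, -, h⟩ := exists_conj (n := n) hN σ
  obtain ⟨χ', G, hG, hG0, he, hall⟩ := h χ F hF hF0
  obtain ⟨g', hgg, hd⟩ := GalConj.exists_gamma0 hu (heckeGam hpN)
  obtain ⟨ζ, hζ, hζe⟩ := hall _ _ hgg
  have hζ0 : ζ ≠ 0 := by rintro rfl; rw [zero_pow (NeZero.ne n)] at hζ; exact zero_ne_one hζ
  -- `g'` and the representative differ by an element of `Γ₁(N)`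
  set g := heckeGam hpN
  set δ := toGamma1 (g * g'⁻¹) (by simp [hd]) with hδ
  have hδg : (δ : SL(2, ℤ)) * (g' : SL(2, ℤ)) = (g : SL(2, ℤ)) := by
    show (g : SL(2, ℤ)) * (g' : SL(2, ℤ))⁻¹ * (g' : SL(2, ℤ)) = _
    rw [inv_mul_cancel_right]
  set c := psi χ'.1 δ * ζ
  have hc0 : c ≠ 0 := mul_ne_zero (psi_ne_zero _ _) hζ0
  have hGg : (fun τ : ℍ => G ((g : SL(2, ℤ)) • τ)) =
      psi χ'.1 δ • fun τ : ℍ => G ((g' : SL(2, ℤ)) • τ) := funext fun τ => by
    rw [← hδg, mul_smul]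
    exact hG.transform δ _
  have hpar := fun (φ : ParV N n) => conjHom1_isParabolicHom (ZMod n) g (isPar1_coe φ)
  have hg : expansionFun 1 (fun τ : ℍ => G ((g : SL(2, ℤ)) • τ)) = HahnSeries.single 0 c *
      coeffMap (σ : ℂ →+* ℂ) (expansionFun 1 (fun τ : ℍ => F ((g : SL(2, ℤ)) • τ))) := by
    refine expansionFun_of_cexp (hF.comp_gamma0 g) (hpar χ) (hG.comp_gamma0 g) (hpar χ') ?_
    rw [hGg, cexp_smul_single (PerFn.comp (hG.mem_perFn (isPar1_coe χ')) _), cexp_comp, cexp_comp,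
      mul_one, mul_one, hζe, ← mul_assoc, HahnSeries.single_mul_single, add_zero]
  have h1 : expansionFun 1 G = coeffMap (σ : ℂ →+* ℂ) (expansionFun 1 F) := by
    have := expansionFun_of_cexp (c := 1) hF (isPar1_coe χ) hG (isPar1_coe χ')
      (by rw [he, HahnSeries.single_zero_one, one_mul])
    rwa [HahnSeries.single_zero_one, one_mul] at this
  have hP := isCharFn_heckeProd hpN hF
  have hP' := isCharFn_heckeProd hpN hG
  have hPp := heckeHom1_isParabolicHom (ZMod n) p (isPar1_coe χ)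
  have hPp' := heckeHom1_isParabolicHom (ZMod n) p (isPar1_coe χ')
  rw [Module.End.mul_apply, Module.End.mul_apply, conjRep_eq hN hF hF0 hG he]
  refine conjRep_eq hN (F := heckeProd hpN F) (G := c⁻¹ • heckeProd hpN G)
    hP (heckeProd_ne_zero hpN hF (isPar1_coe χ) hF0) (hP'.smul _) ?_
  refine hP.cexp_eq_of_one hPp (hP'.smul _) hPp' ?_
  apply qExpand_injective (R := ℂ) p
  rw [expansionFun_smul (hP'.mem_holInfty_one hPp'), map_mul, ← coeffMap_qExpand,
    expansionFun_heckeProd hpN hG (isPar1_coe χ'), hg, h1,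
    expansionFun_heckeProd hpN hF (isPar1_coe χ)]
  simp only [map_mul, coeffMap_prod_twist, coeffMap_qExpand, qExpand_single, mul_zero]
  have hone : HahnSeries.single (0 : ℤ) c⁻¹ * HahnSeries.single (0 : ℤ) c = 1 := by
    rw [HahnSeries.single_mul_single, add_zero, inv_mul_cancel₀ hc0, HahnSeries.single_zero_one]
  linear_combination (∏ j : ZMod p, twistHom (rootUnit p j.val)
      (coeffMap (σ : ℂ →+* ℂ) (expansionFun 1 F))) * qExpand ℂ p (qExpand ℂ p
      (coeffMap (σ : ℂ →+* ℂ)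
        (expansionFun 1 (fun τ : ℍ => F ((g : SL(2, ℤ)) • τ))))) * hone

end FLTA.DeligneSerre
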