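import Fermat.Agent.DeligneSerre.Rep.Series

/-!
# From level `N` to level `N k`
-/

set_option autoImplicit false

noncomputable section

open scoped MatrixGroups
open UpperHalfPlane CongruenceSubgroup ModularCurve

namespace FLTA.DeligneSerre

local notation "Qb" => AlgebraicClosure ℚ

variable {N : ℕ} [NeZero N] {k : ℕ} [NeZero k] {F : ℍ → ℂ}

omit [NeZero N] [NeZero k] in
theorem gamma_mul_le {γ : SL(2, ℤ)} (h : γ ∈ Gamma (N * k)) : γ ∈ Gamma N := by
  obtain ⟨a, b, c, d⟩ := Gamma_mem.mp h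
  let πN := ZMod.castHom (dvd_mul_right N k) (ZMod N)
  exact Gamma_mem.mpr ⟨by simpa only [map_intCast, map_one] using congrArg πN a,
    by simpa only [map_intCast, map_zero] using congrArg πN b,
    by simpa only [map_intCast, map_zero] using congrArg πN c,
    by simpa only [map_intCast, map_one] using congrArg πN d⟩

omit [NeZero N] [NeZero k] in
theorem fn_mul_level (hF : F ∈ Fn N) : F ∈ Fn (N * k) :=
  ⟨hF.1, fun γ hγ τ => hF.2.1 γ (gamma_mul_le hγ) τ, hF.2.2⟩

theorem isAlgFn_mul_level (hF : F ∈ PerFn N) (h : IsAlgFn N F) : IsAlgFn (N * k) F := by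
  intro g i
  rw [cexp_level_mul hF]
  by_cases hi : (k : ℤ) ∣ i
  · obtain ⟨m, rfl⟩ := hi
    rw [qExpand_coeff_mul]
    exact h g m
  · exact ⟨0, by rw [qExpand_coeff_of_not_dvd k _ hi, map_zero]⟩

theorem isIntFn_mul_level_iff {A : ValuationSubring Qb} (hF : F ∈ PerFn N) :
    IsIntFn A (N * k) F ↔ IsIntFn A N F := by
  refine ⟨fun h g m => ?_, fun h g i => ?_⟩
  · obtain ⟨a, ha⟩ := h g ((k : ℤ) * m)
    rw [cexp_level_mul hF, qExpand_coeff_mul] at ha
    exact ⟨a, ha⟩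
  rw [cexp_level_mul hF]
  by_cases hi : (k : ℤ) ∣ i
  · obtain ⟨m, rfl⟩ := hi
    rw [qExpand_coeff_mul]
    exact h g m
  · exact ⟨0, by rw [qExpand_coeff_of_not_dvd k _ hi, ZeroMemClass.coe_zero, map_zero]⟩

theorem redExp_mul_level (A : ValuationSubring Qb) (hF : F ∈ PerFn N) (g : SL(2, ℤ)) :
    redExp A (N * k) F g = qExpand _ k (redExp A N F g) := by
  ext i
  show redC A ((cexp (N * k) F g).coeff i) = _
  rw [cexp_level_mul hF]
  by_cases hi : (k : ℤ) ∣ i
  · obtain ⟨m, rfl⟩ := hi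
    rw [qExpand_coeff_mul, qExpand_coeff_mul]
    rfl
  · rw [qExpand_coeff_of_not_dvd k _ hi, qExpand_coeff_of_not_dvd k _ hi, redC_zero]

end FLTA.DeligneSerre
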