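import Fermat.Agent.DeligneSerre.Rep.Algebraic
import Fermat.Agent.DeligneSerre.Rep.HeckeComm
import Fermat.Agent.DeligneSerre.Rep.LevelUp
import Fermat.Prelude.Def_GaloisRep_Residual

/-!
# The Galois group acts on parabolic characters through a finite quotient
-/

set_option autoImplicit false

noncomputable section

open scoped MatrixGroups
open UpperHalfPlane CongruenceSubgroup ModularCurve

namespace FLTA.DeligneSerre

local notation "Qb" => AlgebraicClosure ℚ
local notation "Γℚ" => (Qb ≃ₐ[ℚ] Qb)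

/-- Automorphisms of `Qb` extend to `ℂ`. -/
theorem exists_extend (σ : Γℚ) : ∃ τ : ℂ ≃+* ℂ, ∀ x, τ (iota x) = iota (σ x) := by
  letI : Algebra Qb ℂ := iota.toAlgebra
  obtain ⟨t, ht⟩ := exists_isTranscendenceBasis Qb ℂ
  have := IsAlgClosed.isAlgClosure_of_transcendence_basis _ ht
  set A := Algebra.adjoin Qb (Set.range ((↑) : t → ℂ))
  let e : A ≃+* A := (ht.1.aevalEquiv.symm.toRingEquiv.trans
    (MvPolynomial.mapEquiv t σ.toRingEquiv)).trans ht.1.aevalEquiv.toRingEquiv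
  refine ⟨IsAlgClosure.equivOfEquiv ℂ ℂ e, fun x => ?_⟩
  show IsAlgClosure.equivOfEquiv ℂ ℂ e (algebraMap A ℂ (algebraMap Qb A x)) = _
  rw [IsAlgClosure.equivOfEquiv_algebraMap]
  have he : e (algebraMap Qb A x) = algebraMap Qb A (σ x) := by
    simp [e]
    exact ht.1.aevalEquiv.commutes (σ x)
  rw [he]
  rfl

/-- A fixed extension. -/
def liftC (σ : Γℚ) : ℂ ≃+* ℂ := (exists_extend σ).choose

theorem liftC_iota (σ : Γℚ) (x : Qb) : liftC σ (iota x) = iota (σ x) :=
  (exists_extend σ).choose_spec x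

variable {N n : ℕ} [NeZero N] [NeZero n] (hN : 5 ≤ N)

/-- The algebraic representative of a character. -/
def repFn (χ : ParV N n) : ℍ → ℂ := (exists_alg_charFn hN χ).choose

theorem repFn_spec (χ : ParV N n) :
    IsCharFn χ.1 (repFn hN χ) ∧ repFn hN χ ≠ 0 ∧ IsAlgFn N (repFn hN χ) :=
  (exists_alg_charFn hN χ).choose_spec

/-- The action only depends on the restriction to `Qb`. -/
theorem conjRep_congr {τ τ' : ℂ ≃+* ℂ} (h : ∀ x, τ (iota x) = τ' (iota x)) :
    conjRep (n := n) hN τ = conjRep hN τ' := by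
  have key : conjRep (n := n) hN (τ'⁻¹ * τ) = 1 := by
    refine LinearMap.ext fun χ => ?_
    obtain ⟨hF, hF0, hFa⟩ := repFn_spec hN χ
    refine conjRep_eq hN hF hF0 hF (HahnSeries.ext (funext fun m => ?_))
    obtain ⟨a, ha⟩ := hFa 1 m
    rw [coeffMap_coeff, ← ha]
    show iota a = τ'.symm (τ (iota a))
    rw [h, RingEquiv.symm_apply_apply]
  rw [show τ = τ' * (τ'⁻¹ * τ) by rw [mul_inv_cancel_left], map_mul, key, mul_one]

/-- The Galois representation on parabolic characters. -/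
def galRep : Γℚ →* Module.End (ZMod n) (ParV N n) where
  toFun σ := conjRep hN (liftC σ)
  map_one' := by
    rw [← map_one (conjRep (n := n) hN)]
    exact conjRep_congr hN fun x => by rw [liftC_iota]; rfl
  map_mul' σ τ := by
    rw [← map_mul]
    refine conjRep_congr hN fun x => ?_
    show _ = liftC σ (liftC τ (iota x))
    rw [liftC_iota, liftC_iota, liftC_iota]
    rfl

theorem galRep_apply (σ : Γℚ) : galRep (n := n) hN σ = conjRep hN (liftC σ) := rfl

theorem galRep_eq_of_lift {σ : Γℚ} {τ : ℂ ≃+* ℂ} (h : ∀ x, τ (iota x) = iota (σ x)) :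
    galRep (n := n) hN σ = conjRep hN τ :=
  conjRep_congr hN fun x => by rw [liftC_iota, h]

/-- `galRep` factors through a finite level. -/
theorem galRep_finite : GaloisFactorsThroughFiniteLevel (galRep (n := n) hN) := by
  haveI : Finite (ParV N n) := finite_parHom1 N (ZMod n)
  have hex : ∀ χ : ParV N n, ∃ K : IntermediateField ℚ Qb, FiniteDimensional ℚ K ∧
      ∀ (k : ℤ), ∃ a ∈ K, iota a = (cexp N (repFn hN χ ^ n) 1).coeff k := by
    intro χ
    obtain ⟨hF, hF0, hFa⟩ := repFn_spec hN χ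
    have hP := hF.pow_mem_fn
    have hPa : IsAlgFn N (repFn hN χ ^ n) :=
      (pow_mem (show repFn hN χ ∈ AlgFn N from ⟨hF.mem_perFn (isPar1_coe χ), hFa⟩) n).2
    obtain ⟨K, hK, hKc⟩ := exists_finset_fix (N := N * 2) (M := 2) (Or.inl rfl)
      (dvd_mul_left 2 N) (fn_mul_level hP) (isAlgFn_mul_level (fn_le_perFn hP) hPa)
    refine ⟨K, hK, fun k => ?_⟩
    obtain ⟨a, ha, hae⟩ := hKc 1 ((2 : ℕ) * k)
    rw [cexp_level_mul (fn_le_perFn hP), qExpand_coeff_mul] at hae
    exact ⟨a, ha, hae⟩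
  choose K hK hKc using hex
  haveI : ∀ χ, FiniteDimensional ℚ (K χ) := hK
  refine ⟨⨆ χ, K χ, IntermediateField.finiteDimensional_iSup_of_finite, fun σ hσ => ?_⟩
  refine LinearMap.ext fun χ => ?_
  obtain ⟨hF, hF0, hFa⟩ := repFn_spec hN χ
  obtain ⟨u, -, -, h⟩ := exists_conj (n := n) hN (liftC σ)
  obtain ⟨χ', G, hG, hG0, he, -⟩ := h χ _ hF hF0
  rw [galRep_apply, conjRep_eq hN hF hF0 hG he, Module.End.one_apply]
  have hpow : G ^ n = repFn hN χ ^ n := by
    refine eq_of_cexp_eq (fn_le_perFn hG.pow_mem_fn) (fn_le_perFn hF.pow_mem_fn) (g := 1) ?_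
    rw [cexp_pow (hG.mem_perFn (isPar1_coe χ')), he, ← map_pow,
      ← cexp_pow (hF.mem_perFn (isPar1_coe χ))]
    refine HahnSeries.ext (funext fun k => ?_)
    obtain ⟨a, ha, hae⟩ := hKc χ k
    rw [coeffMap_coeff, ← hae]
    show liftC σ (iota a) = iota a
    rw [liftC_iota, hσ a (le_iSup K χ ha)]
  let a : FLTA.Bridge.Hol := ⟨G, hG.hol⟩
  let b : FLTA.Bridge.Hol := ⟨repFn hN χ, hF.hol⟩
  obtain ⟨ζ, -, hζ⟩ := exists_eq_mul_of_pow_eq (NeZero.ne n) (show a ^ n = b ^ n from Subtype.ext hpow)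
  have hGF : G = ζ • repFn hN χ := by
    rw [Algebra.smul_def]
    exact congrArg Subtype.val hζ
  exact Subtype.ext (hG.char_unique (hGF ▸ hF.smul ζ) hG0)

theorem commute_galRep_heckePar1 (σ : Γℚ) (p : ℕ) :
    Commute (galRep (n := n) hN σ) (heckePar1 (ZMod n) p) := commute_conjRep_heckePar1 hN _ p

theorem commute_galRep_diamondPar1 (σ : Γℚ) (d : (ZMod N)ˣ) :
    Commute (galRep (n := n) hN σ) (diamondPar1 (ZMod n) d) :=
  commute_conjRep_diamondPar1 hN _ d

end FLTA.DeligneSerre
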