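import Fermat.Agent.DeligneSerre.Hecke.Defs
import Fermat.Agent.DeligneSerre.Rep.Frob
import Fermat.Prelude.Def_GaloisRep_Residual

/-!
# The Galois representation on `Hom_par(Γ₁(N), ZMod n)`

`ρ` commutes with all Hecke and diamond operators, is unramified outside `N n` and satisfies the
congruence relation `F² - T_l F + l ⟨l⟩ = 0` for a Frobenius element `F` at `l`.
-/

set_option autoImplicit false

noncomputable section

open CongruenceSubgroup
open scoped MatrixGroups

namespace FLTA.DeligneSerre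

local notation "Qb" => AlgebraicClosure ℚ
local notation "Γℚ" => (Qb ≃ₐ[ℚ] Qb)

/-- The Galois representation on parabolic homomorphisms modulo `n`. -/
theorem exists_par_galois_rep (N n : ℕ) [NeZero N] [NeZero n] (hN : 5 ≤ N) :
    ∃ π : Γℚ →* Module.End (ZMod n) (parHom1 N (ZMod n) (ZMod n)),
      GaloisFactorsThroughFiniteLevel π ∧
      (∀ σ p, Commute (π σ) (heckePar1 (ZMod n) p)) ∧
      (∀ σ u, Commute (π σ) (diamondPar1 (ZMod n) u)) ∧
      ∀ (l : ℕ) (hl : l.Prime ∧ ¬ l ∣ N), ¬ l ∣ n → ∀ B : ValuationSubring Qb,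
        B.LiesOverPrime l → (∀ σ ∈ B.inertiaSubgroupIn ℚ, π σ = 1) ∧
          ∀ σ : Γℚ, B.IsFrobeniusAt σ l →
            π σ * π σ - heckePar1 (ZMod n) l * π σ +
              (l : ZMod n) • diamondPar1 (ZMod n)
                (ZMod.unitOfCoprime l (hl.1.coprime_iff_not_dvd.mpr hl.2)) = 0 := by
  refine ⟨galRep hN, galRep_finite hN, commute_galRep_heckePar1 hN, commute_galRep_diamondPar1 hN,
    fun l hl hln B hB => ⟨fun σ hσ => galRep_inertia hN hl.1 hl.2 hln hB hσ, fun σ hσ => ?_⟩⟩
  refine LinearMap.ext fun χ => ?_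
  have h := galRep_frobenius hN hl.1 hl.2 hln hB hσ (galRep hN σ χ)
  have hD := LinearMap.congr_fun
    (commute_galRep_diamondPar1 (n := n) hN σ (primeUnit hl.1 hl.2)).eq χ
  have hinv : galRep (n := n) hN σ⁻¹ * galRep hN σ = 1 := by
    rw [← map_mul, inv_mul_cancel, map_one]
  simp only [Module.End.mul_apply] at hD
  rw [← hD, ← Module.End.mul_apply (galRep hN σ⁻¹), hinv, Module.End.one_apply] at h
  simp only [LinearMap.add_apply, LinearMap.sub_apply, LinearMap.smul_apply, Module.End.mul_apply,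
    LinearMap.zero_apply]
  rw [h, Nat.cast_smul_eq_nsmul]
  show _ - (_ + l • diamondPar1 (ZMod n) (primeUnit hl.1 hl.2) χ) + _ = 0
  rw [sub_add_eq_sub_sub, sub_self, zero_sub]
  exact neg_add_cancel _

end FLTA.DeligneSerre
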