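import Fermat.Agent.DeligneSerre.Hecke.Defs
import Fermat.Agent.DeligneSerre.Rep.Conj

/-!
# The action of `Aut ℂ` on parabolic characters

`σ • χ` is the character of a function whose expansion at infinity is the `σ`-conjugate of the
expansion of a function with character `χ`.
-/

set_option autoImplicit false

noncomputable section

open scoped MatrixGroups
open UpperHalfPlane CongruenceSubgroup ModularCurve

namespace FLTA.DeligneSerre

/-- Parabolic characters of `Γ₁(N)` modulo `n`. -/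
abbrev ParV (N n : ℕ) := parHom1 N (ZMod n) (ZMod n)

variable {N n : ℕ} [NeZero N] [NeZero n]

omit [NeZero N] [NeZero n] in
theorem isPar1_coe (χ : ParV N n) : IsPar1 χ.1 := χ.2

omit [NeZero N] [NeZero n] in
theorem nsmul_char_eq_zero (χ : Additive (Gamma1 N) →+ ZMod n) : n • χ = 0 :=
  AddMonoidHom.ext fun γ => by
    rw [AddMonoidHom.nsmul_apply, nsmul_eq_mul, ZMod.natCast_self, zero_mul]; rfl

omit [NeZero N] [NeZero n] in
theorem add_pred_nsmul (hn : n ≠ 0) (χ : Additive (Gamma1 N) →+ ZMod n) :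
    χ + (n - 1) • χ = 0 := by
  rw [← succ_nsmul', Nat.sub_add_cancel (Nat.one_le_iff_ne_zero.mpr hn), nsmul_char_eq_zero]

theorem cexp_one_one_of_ne_zero {F : ℍ → ℂ} (hF : F ∈ PerFn N) (h : F ≠ 0) (g : SL(2, ℤ)) :
    cexp N F g ≠ 0 := fun h' => h ((cexp_eq_zero_iff hF g).mp h')

theorem coeffMap_ringEquiv_injective (σ : ℂ ≃+* ℂ) :
    Function.Injective (coeffMap (σ : ℂ →+* ℂ)) :=
  coeffMap_injective σ.injective

/-- Conjugation by `σ` of all functions with parabolic characters, with the compatible `u`. -/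
theorem exists_conj (hN : 5 ≤ N) (σ : ℂ ≃+* ℂ) :
    ∃ u : ℕ, u.Coprime N ∧ σ (zetaC N) = zetaC N ^ u ∧
      ∀ (χ : ParV N n) (F : ℍ → ℂ), IsCharFn χ.1 F → F ≠ 0 →
        ∃ (χ' : ParV N n) (G : ℍ → ℂ), IsCharFn χ'.1 G ∧ G ≠ 0 ∧
          cexp N G 1 = coeffMap (σ : ℂ →+* ℂ) (cexp N F 1) ∧
          ∀ g g', GalConj N u g g' → ∃ ζ : ℂ, ζ ^ n = 1 ∧
            cexp N G g' = HahnSeries.single 0 ζ * coeffMap (σ : ℂ →+* ℂ) (cexp N F g) := by
  obtain ⟨u, -, hu⟩ := exists_cyclo σ (N * 2)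
  have hu' := cyclo_of_dvd hu
  refine ⟨u, coprime_of_cyclo hu', hu', fun χ F hF hF0 => ?_⟩
  obtain ⟨χ', G, hpar, hG, hG0, h1, hall⟩ := exists_conj_charFn hN (M := 2) (Or.inl rfl)
    (dvd_mul_left 2 N) σ hu (isPar1_coe χ) hF hF0
  exact ⟨⟨χ', hpar⟩, G, hG, hG0, h1, hall⟩

/-- `χ'` is the `σ`-conjugate of `χ`. -/
def ConjRel (σ : ℂ ≃+* ℂ) (χ χ' : ParV N n) : Prop :=
  ∃ F G : ℍ → ℂ, IsCharFn χ.1 F ∧ F ≠ 0 ∧ IsCharFn χ'.1 G ∧
    cexp N G 1 = coeffMap (σ : ℂ →+* ℂ) (cexp N F 1)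

theorem exists_conjRel (hN : 5 ≤ N) (σ : ℂ ≃+* ℂ) (χ : ParV N n) : ∃ χ', ConjRel σ χ χ' := by
  obtain ⟨F, hF, hF0⟩ := exists_isCharFn (isPar1_coe χ) hN
  obtain ⟨u, -, -, h⟩ := exists_conj (n := n) hN σ
  obtain ⟨χ', G, hG, -, h1, -⟩ := h χ F hF hF0
  exact ⟨χ', F, G, hF, hF0, hG, h1⟩

theorem conjRel_unique {σ : ℂ ≃+* ℂ} {χ χ₁ χ₂ : ParV N n} (h₁ : ConjRel σ χ χ₁)
    (h₂ : ConjRel σ χ χ₂) : χ₁ = χ₂ := by
  obtain ⟨F, G, hF, hF0, hG, he⟩ := h₁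
  obtain ⟨F', G', hF', hF'0, hG', he'⟩ := h₂
  have hn := NeZero.ne n
  have hP : IsCharFn (0 : Additive (Gamma1 N) →+ ZMod n) (F' * F ^ (n - 1)) := by
    have h := hF'.mul (hF.pow (n - 1))
    rwa [add_pred_nsmul hn] at h
  obtain ⟨u, -, hu⟩ := exists_cyclo σ (N * 2)
  obtain ⟨H, hH, hexp, -⟩ := exists_conj_invariant (M := 2) (Or.inl rfl) (dvd_mul_left 2 N) σ hu hP
  have hFN := hF.mem_perFn (isPar1_coe χ)
  have hF'N := hF'.mem_perFn (isPar1_coe χ)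
  have hGN := hG.mem_perFn (isPar1_coe χ₁)
  have hG'N := hG'.mem_perFn (isPar1_coe χ₂)
  have hprod := hG'.mul (hG.pow (n - 1))
  have hGH : G' * G ^ (n - 1) = H := by
    refine eq_of_cexp_eq (mul_mem hG'N (pow_mem hGN _)) (hH.mem_perFn isPar1_zero) (g := 1) ?_
    rw [hexp 1 1 (GalConj.one N u), cexp_mul hG'N (pow_mem hGN _), cexp_pow hGN, he, he',
      cexp_mul hF'N (pow_mem hFN _), cexp_pow hFN, map_mul, map_pow]
  have hH0 : H ≠ 0 := by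
    rw [← hGH]
    intro h0
    have h := congrArg (fun f => cexp N f 1) h0
    rw [cexp_mul hG'N (pow_mem hGN _), cexp_pow hGN, cexp_zero, he, he', ← map_pow, ← map_mul,
      map_eq_zero_iff _ (coeffMap_ringEquiv_injective σ)] at h
    exact mul_ne_zero (cexp_one_one_of_ne_zero hF'N hF'0 1)
      (pow_ne_zero _ (cexp_one_one_of_ne_zero hFN hF0 1)) h
  rw [hGH] at hprod
  have h := hprod.char_unique hH hH0
  have h2 : χ₂.1 + (n - 1) • χ₁.1 = χ₁.1 + (n - 1) • χ₁.1 := by rw [h, add_pred_nsmul hn]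
  exact Subtype.ext (add_right_cancel h2).symm

variable (hN : 5 ≤ N)
include hN

/-- The conjugate of `χ` by `σ`. -/
def conjMap (σ : ℂ ≃+* ℂ) (χ : ParV N n) : ParV N n := (exists_conjRel hN σ χ).choose

theorem conjMap_eq {σ : ℂ ≃+* ℂ} {χ χ' : ParV N n} (h : ConjRel σ χ χ') :
    conjMap hN σ χ = χ' :=
  conjRel_unique (exists_conjRel hN σ χ).choose_spec h

theorem conjMap_spec (σ : ℂ ≃+* ℂ) (χ : ParV N n) : ConjRel σ χ (conjMap hN σ χ) :=
  (exists_conjRel hN σ χ).choose_spec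

theorem conjMap_add (σ : ℂ ≃+* ℂ) (χ ψ : ParV N n) :
    conjMap hN σ (χ + ψ) = conjMap hN σ χ + conjMap hN σ ψ := by
  obtain ⟨F, G, hF, hF0, hG, he⟩ := conjMap_spec hN σ χ
  obtain ⟨F', G', hF', hF'0, hG', he'⟩ := conjMap_spec hN σ ψ
  refine conjMap_eq hN ⟨F * F', G * G', ?_, ?_, ?_, ?_⟩
  · rw [Submodule.coe_add]; exact hF.mul hF'
  · intro h
    have h1 := congrArg (fun f => cexp N f 1) h
    rw [cexp_mul (hF.mem_perFn (isPar1_coe χ)) (hF'.mem_perFn (isPar1_coe ψ)), cexp_zero] at h1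
    exact mul_ne_zero (cexp_one_one_of_ne_zero (hF.mem_perFn (isPar1_coe χ)) hF0 1)
      (cexp_one_one_of_ne_zero (hF'.mem_perFn (isPar1_coe ψ)) hF'0 1) h1
  · rw [Submodule.coe_add]; exact hG.mul hG'
  · rw [cexp_mul (hG.mem_perFn (isPar1_coe _)) (hG'.mem_perFn (isPar1_coe _)),
      cexp_mul (hF.mem_perFn (isPar1_coe χ)) (hF'.mem_perFn (isPar1_coe ψ)), he, he', map_mul]

theorem conjMap_mul (σ τ : ℂ ≃+* ℂ) (χ : ParV N n) :
    conjMap hN (σ * τ) χ = conjMap hN σ (conjMap hN τ χ) := by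
  obtain ⟨F, hF, hF0⟩ := exists_isCharFn (isPar1_coe χ) hN
  obtain ⟨u, -, -, h⟩ := exists_conj (n := n) hN τ
  obtain ⟨χ₁, G, hG, hG0, he, -⟩ := h χ F hF hF0
  obtain ⟨u', -, -, h'⟩ := exists_conj (n := n) hN σ
  obtain ⟨χ₂, G₂, hG₂, -, he₂, -⟩ := h' χ₁ G hG hG0
  rw [conjMap_eq hN ⟨F, G, hF, hF0, hG, he⟩, conjMap_eq hN ⟨G, G₂, hG, hG0, hG₂, he₂⟩]
  refine conjMap_eq hN ⟨F, G₂, hF, hF0, hG₂, ?_⟩
  rw [he₂, he]
  exact HahnSeries.ext (funext fun _ => rfl)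

theorem conjMap_one (χ : ParV N n) : conjMap hN (1 : ℂ ≃+* ℂ) χ = χ := by
  obtain ⟨F, hF, hF0⟩ := exists_isCharFn (isPar1_coe χ) hN
  exact conjMap_eq hN ⟨F, F, hF, hF0, hF, HahnSeries.ext (funext fun _ => rfl)⟩

/-- The representation of `Aut ℂ` on parabolic characters. -/
def conjRep : (ℂ ≃+* ℂ) →* Module.End (ZMod n) (ParV N n) where
  toFun σ := (AddMonoidHom.mk' (conjMap hN σ) (conjMap_add hN σ)).toZModLinearMap n
  map_one' := LinearMap.ext fun χ => conjMap_one hN χ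
  map_mul' σ τ := LinearMap.ext fun χ => conjMap_mul hN σ τ χ

theorem conjRep_eq {σ : ℂ ≃+* ℂ} {χ χ' : ParV N n} {F G : ℍ → ℂ} (hF : IsCharFn χ.1 F)
    (hF0 : F ≠ 0) (hG : IsCharFn χ'.1 G)
    (he : cexp N G 1 = coeffMap (σ : ℂ →+* ℂ) (cexp N F 1)) : conjRep hN σ χ = χ' :=
  conjMap_eq hN ⟨F, G, hF, hF0, hG, he⟩

omit hN in
/-- Translating a function with character by an element of `Γ₀(N)`. -/
theorem IsCharFn.comp_gamma0 {χ : Additive (Gamma1 N) →+ ZMod n} {F : ℍ → ℂ} (hF : IsCharFn χ F)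
    (g : Gamma0 N) :
    IsCharFn (conjHom1 (ZMod n) g χ) (fun τ : ℍ => F ((g : SL(2, ℤ)) • τ)) where
  hol := comp_smul_mem_hol' hF.hol _
  transform γ τ := by
    have h := hF.transform (conj1 g γ) ((g : SL(2, ℤ)) • τ)
    have hcoe : ((conj1 g γ : Gamma1 N) : SL(2, ℤ)) =
        (g : SL(2, ℤ)) * (γ : SL(2, ℤ)) * (g : SL(2, ℤ))⁻¹ := rfl
    rw [hcoe, ← mul_smul, inv_mul_cancel_right, mul_smul] at h
    exact h
  growth g' := by simpa only [← mul_smul] using hF.growth ((g : SL(2, ℤ)) * g')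

omit hN in
theorem GalConj.exists_gamma0 {u : ℕ} (hu : u.Coprime N) (g : Gamma0 N) :
    ∃ g' : Gamma0 N, GalConj N u g g' ∧ lowerRight N g' = lowerRight N g := by
  obtain ⟨g', hg⟩ := GalConj.exists_right hu (g : SL(2, ℤ))
  have h0 : (g'.1 1 0 : ZMod N) = 0 := by
    have h := hg.2.2.1
    rw [Gamma0_mem.mp g.2] at h
    exact ((ZMod.isUnit_iff_coprime u N).mpr hu).mul_right_eq_zero.mp h
  exact ⟨⟨g', Gamma0_mem.mpr h0⟩, hg, Units.ext hg.2.2.2⟩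

/-- `conjRep` commutes with the diamond operators. -/
theorem commute_conjRep_diamondPar1 (σ : ℂ ≃+* ℂ) (d : (ZMod N)ˣ) :
    Commute (conjRep (n := n) hN σ) (diamondPar1 (ZMod n) d) := by
  refine LinearMap.ext fun χ => ?_
  obtain ⟨F, hF, hF0⟩ := exists_isCharFn (isPar1_coe χ) hN
  obtain ⟨u, hu, -, h⟩ := exists_conj (n := n) hN σ
  obtain ⟨χ', G, hG, hG0, he, hall⟩ := h χ F hF hF0
  obtain ⟨g', hgg, hd⟩ := GalConj.exists_gamma0 hu (diamondRep d)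
  obtain ⟨ζ, hζ, hζe⟩ := hall _ _ hgg
  have hζ0 : ζ ≠ 0 := by rintro rfl; rw [zero_pow (NeZero.ne n)] at hζ; exact zero_ne_one hζ
  rw [Module.End.mul_apply, Module.End.mul_apply, conjRep_eq hN hF hF0 hG he]
  refine conjRep_eq hN (F := fun τ : ℍ => F ((diamondRep d : SL(2, ℤ)) • τ))
    (G := ζ⁻¹ • fun τ : ℍ => G ((g' : SL(2, ℤ)) • τ)) (hF.comp_gamma0 _) ?_ ?_ ?_
  · intro h0
    exact hF0 (funext fun τ => by
      simpa using congrFun h0 ((diamondRep d : SL(2, ℤ))⁻¹ • τ))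
  · have hdia : conjHom1 (ZMod n) g' χ'.1 = (diamondPar1 (ZMod n) d χ').1 := by
      rw [coe_diamondPar1, ← diamond1_eq, hd, lowerRight_diamondRep]
    rw [← hdia]
    exact (hG.comp_gamma0 g').smul _
  · rw [cexp_smul_single (PerFn.comp (hG.mem_perFn (isPar1_coe χ')) _), cexp_comp, cexp_comp,
      mul_one, mul_one, hζe, ← mul_assoc, HahnSeries.single_mul_single, add_zero,
      inv_mul_cancel₀ hζ0, HahnSeries.single_zero_one, one_mul]

end FLTA.DeligneSerre
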