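import Fermat.Agent.DeligneSerre.Rep.Expand
import Fermat.Agent.DeligneSerre.Rep.Rel

/-!
# The function with character `T_p χ`

For `F` with character `χ` the product of the translates of `F` by the representatives of `T_p`
has character `T_p χ`.
-/

set_option autoImplicit false

noncomputable section

open scoped MatrixGroups Topology Real OnePoint
open UpperHalfPlane hiding I
open CongruenceSubgroup ModularCurve

namespace FLTA.DeligneSerre

open FLTA.Bridge (Hol GrowthInfty HolInfty expansion expansionFun scaleTau coe_scaleTau)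
open FLTA.Periods (gamma0GL)

/-- Holomorphic on `ℍ` and meromorphic at every cusp. -/
def IsMero (F : ℍ → ℂ) : Prop :=
  F ∈ Hol ∧ ∀ g : SL(2, ℤ), GrowthInfty (fun τ : ℍ => F (g • τ))

namespace IsMero

variable {F G : ℍ → ℂ}

theorem comp_sl (hF : IsMero F) (h : SL(2, ℤ)) : IsMero (fun τ : ℍ => F (h • τ)) :=
  ⟨comp_smul_mem_hol' hF.1 h, fun g => by simpa only [← mul_smul] using hF.2 (h * g)⟩

theorem comp_scaleTau (hF : IsMero F) (d : ℕ) [NeZero d] :
    IsMero (fun τ : ℍ => F (scaleTau d τ)) := by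
  refine ⟨?_, fun g => ?_⟩
  · rw [FLTA.Bridge.mem_hol_iff_differentiableOn]
    have hd : (0 : ℝ) < d := by exact_mod_cast Nat.pos_of_ne_zero (NeZero.ne d)
    refine DifferentiableOn.congr (f := (F ∘ ofComplex) ∘ fun z : ℂ => (d : ℂ) * z) ?_ ?_
    · exact (FLTA.Bridge.mem_hol_iff_differentiableOn.mp hF.1).comp (by fun_prop)
        (fun z hz => by simpa using mul_pos hd hz)
    · intro z hz
      simp only [Function.comp_apply, ofComplex_apply_of_im_pos hz]
      rw [show (d : ℂ) * z = ((scaleTau d ⟨z, hz⟩ : ℍ) : ℂ) from rfl, ofComplex_apply]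
  · obtain ⟨h, α, δ, β, hα, hδ, -, he⟩ := FLTA.Bridge.exists_smul_eq_scaleTau_smul d g
    obtain ⟨n, hn⟩ := hF.2 h
    rw [isBoundedAtImInfty_iff] at hn
    obtain ⟨M, A, hMA⟩ := hn
    refine ⟨n * α, ?_⟩
    rw [isBoundedAtImInfty_iff]
    refine ⟨M, max 0 (A * δ / α), fun τ hτ => ?_⟩
    have hδ' : (0 : ℝ) < δ := by exact_mod_cast hδ
    have hα' : (0 : ℝ) < α := by exact_mod_cast hα
    have him : (((α : ℂ) * τ + β) / δ).im = α * τ.im / δ := by
      simp [Complex.div_natCast_im]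
    let σ : ℍ := ⟨((α : ℂ) * τ + β) / δ, by rw [him]; have := τ.im_pos; positivity⟩
    have hσim : σ.im = α * τ.im / δ := him
    have hσA : A ≤ σ.im := by
      rw [hσim, le_div_iff₀ hδ']
      have := le_trans (le_max_right _ _) hτ
      rw [div_le_iff₀ hα'] at this
      linarith
    have := hMA σ hσA
    simp only [he τ σ rfl, norm_mul, norm_pow, FLTA.Bridge.norm_qParam_one] at this ⊢
    refine le_trans (mul_le_mul_of_nonneg_right ?_ (norm_nonneg _)) this
    rw [← Real.exp_nat_mul, ← Real.exp_nat_mul]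
    apply Real.exp_le_exp.mpr
    rw [hσim]
    have h1 : (α : ℝ) * τ.im / δ ≤ α * τ.im :=
      div_le_self (by have := τ.im_pos; positivity) (by exact_mod_cast hδ)
    have h2 : (0 : ℝ) ≤ n * (2 * π) := by positivity
    push_cast
    nlinarith [mul_le_mul_of_nonneg_left h1 h2]

theorem one : IsMero 1 := ⟨one_mem _, fun _ => GrowthInfty.const 1⟩

theorem mul (hF : IsMero F) (hG : IsMero G) : IsMero (F * G) :=
  ⟨mul_mem hF.1 hG.1, fun g => (hF.2 g).mul (hG.2 g)⟩

theorem prod {ι : Type*} (s : Finset ι) {f : ι → ℍ → ℂ} (h : ∀ i ∈ s, IsMero (f i)) :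
    IsMero (∏ i ∈ s, f i) :=
  Finset.prod_induction _ IsMero (fun _ _ => IsMero.mul) IsMero.one h

end IsMero

variable {N n : ℕ} [NeZero N] [NeZero n]

theorem IsCharFn.isMero {χ : Additive (Gamma1 N) →+ ZMod n} {F : ℍ → ℂ} (hF : IsCharFn χ F) :
    IsMero F := ⟨hF.hol, hF.growth⟩

omit [NeZero N] [NeZero n] in
theorem T_mem_gamma1 : ModularGroup.T ∈ Gamma1 N := by
  rw [Gamma1_mem]; simp [ModularGroup.T]

theorem IsCharFn.mem_holInfty_one {χ : Additive (Gamma1 N) →+ ZMod n} {F : ℍ → ℂ}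
    (hF : IsCharFn χ F) (hχ : IsPar1 χ) : F ∈ HolInfty 1 := by
  refine ⟨hF.hol, periodic_of_smul (N := 1) fun τ => ?_, by simpa using hF.growth 1⟩
  have h := hF.transform ⟨_, T_mem_gamma1⟩ τ
  rw [psi_apply, hχ ⟨_, T_mem_gamma1⟩
    (by simp [ModularGroup.T, Matrix.trace_fin_two])] at h
  simpa using h

theorem IsCharFn.cexp_eq_qExpand {χ : Additive (Gamma1 N) →+ ZMod n} {F : ℍ → ℂ}
    (hF : IsCharFn χ F) (hχ : IsPar1 χ) :
    cexp N F 1 = qExpand ℂ N (expansionFun 1 F) := by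
  rw [cexp_of_mem (hF.mem_perFn hχ 1)]
  show expansionFun N (fun τ : ℍ => F ((1 : SL(2, ℤ)) • τ)) = _
  rw [← FLTA.Bridge.expansionFun_mul_period 1 N (hF.mem_holInfty_one hχ)]
  simp only [one_mul, one_smul]

omit [NeZero N] in
theorem gamma1GL_smul (γ : Gamma1 N) (τ : ℍ) :
    gamma1GL N γ • τ = (γ : SL(2, ℤ)) • τ := rfl

omit [NeZero N] in
theorem gamma0GL_smul (g : Gamma0 N) (τ : ℍ) : gamma0GL N g • τ = (g : SL(2, ℤ)) • τ := rfl

variable {p : ℕ} [hp : Fact p.Prime] [NeZero p] (hpN : ¬ p ∣ N)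

/-- The product over the representatives of `T_p`. -/
def heckeProd (F : ℍ → ℂ) : ℍ → ℂ :=
  ∏ x : OnePoint (ZMod p), fun τ : ℍ => F (heckeRep1 hpN x • τ)

/-- The element of `Γ₀(N)` in the representative at infinity. -/
abbrev heckeGam : Gamma0 N := diamondRep (primeUnit hp.out hpN)

omit [NeZero N] in
theorem heckeMatrix_smul_eq (j : ℕ) (τ : ℍ) :
    ModularForm.heckeMatrix p j • τ = ((j : ℝ) / p) +ᵥ divTau p τ := by
  apply UpperHalfPlane.ext
  rw [ModularForm.coe_heckeMatrix_smul (NeZero.ne p), coe_vadd, coe_divTau]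
  push_cast
  ring

omit [NeZero N] in
theorem heckeMatrix_smul_eq' (j : ℕ) (τ : ℍ) :
    ModularForm.heckeMatrix p j • τ =
      ModularGroup.S • scaleTau p ((ModularGroup.S * ModularGroup.T ^ (j : ℤ)) • τ) := by
  apply UpperHalfPlane.ext
  rw [ModularForm.coe_heckeMatrix_smul (NeZero.ne p), mul_smul, UpperHalfPlane.modular_S_smul,
    UpperHalfPlane.modular_S_smul, UpperHalfPlane.modular_T_zpow_smul]
  simp only [coe_scaleTau, coe_mk, coe_vadd]
  have hp0 : (p : ℂ) ≠ 0 := NeZero.ne _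
  have hτ : (τ : ℂ) + j ≠ 0 := fun h => by
    have := congrArg Complex.im h
    simp at this
    exact τ.im_pos.ne' this
  push_cast
  rw [inv_neg, mul_inv, inv_inv]
  ring

omit [NeZero N] in
theorem heckeDiag_smul_eq (τ : ℍ) : ModularForm.heckeDiagMatrix p • τ = scaleTau p τ := by
  apply UpperHalfPlane.ext
  rw [ModularForm.coe_heckeDiagMatrix_smul (NeZero.ne p), coe_scaleTau]

theorem heckeProd_eq (F : ℍ → ℂ) :
    heckeProd hpN F = (∏ j : ZMod p, fun τ : ℍ => F (((j.val : ℝ) / p) +ᵥ divTau p τ)) *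
      fun τ : ℍ => F ((heckeGam hpN : SL(2, ℤ)) • scaleTau p τ) := by
  funext τ
  simp only [heckeProd, Finset.prod_apply, Pi.mul_apply]
  rw [mul_comm]
  refine (Fintype.prod_option (fun x : Option (ZMod p) => F (heckeRep1 hpN x • τ))).trans ?_
  congr 1
  · show F (heckeRep1 hpN (∞ : OnePoint (ZMod p)) • τ) = _
    rw [heckeRep1_infty, mul_smul, heckeDiag_smul_eq, gamma0GL_smul]
  · refine Finset.prod_congr rfl fun j _ => ?_
    show F (heckeRep1 hpN (j : OnePoint (ZMod p)) • τ) = _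
    rw [heckeRep1_coe, heckeMatrix_smul_eq]

theorem isMero_heckeFactor {F : ℍ → ℂ} (hF : IsMero F) (x : OnePoint (ZMod p)) :
    IsMero (fun τ : ℍ => F (heckeRep1 hpN x • τ)) := by
  induction x using OnePoint.rec with
  | infty =>
    have h := (hF.comp_sl (heckeGam hpN : SL(2, ℤ))).comp_scaleTau p
    refine (congrArg IsMero (funext fun τ => ?_)).mp h
    rw [heckeRep1_infty, mul_smul, heckeDiag_smul_eq, gamma0GL_smul]
  | coe j =>
    have h := ((hF.comp_sl ModularGroup.S).comp_scaleTau p).comp_sl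
      (ModularGroup.S * ModularGroup.T ^ (j.val : ℤ))
    refine (congrArg IsMero (funext fun τ => ?_)).mp h
    rw [heckeRep1_coe, heckeMatrix_smul_eq']

theorem psi_transfer (χ : Additive (Gamma1 N) →+ ZMod n) (γ : Gamma1 N) :
    psi (heckeHom1 N (ZMod n) p χ) γ =
      ∏ x : OnePoint (ZMod p), psi χ ((repsT1 hpN).cocyc γ x) := by
  rw [psi_apply, heckeHom1_eq (ZMod n) hpN, FLTA.Periods.HeckeReps.transfer_apply,
    FLTA.Periods.HeckeReps.transferHom_apply]
  have h := map_sum (ZMod.stdAddChar (N := n)).toAddMonoidHom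
    (fun x => χ (Additive.ofMul ((repsT1 hpN).cocyc γ x))) Finset.univ
  have h' := congrArg Additive.toMul h
  rw [toMul_sum] at h'
  exact h'

/-- The product has character `T_p χ`. -/
theorem isCharFn_heckeProd {χ : Additive (Gamma1 N) →+ ZMod n} {F : ℍ → ℂ} (hF : IsCharFn χ F) :
    IsCharFn (heckeHom1 N (ZMod n) p χ) (heckeProd hpN F) where
  hol := (IsMero.prod _ fun x _ => isMero_heckeFactor hpN hF.isMero x).1
  growth := (IsMero.prod _ fun x _ => isMero_heckeFactor hpN hF.isMero x).2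
  transform γ τ := by
    set R := repsT1 hpN
    simp only [heckeProd, Finset.prod_apply]
    rw [psi_transfer hpN χ γ, ← Equiv.prod_comp (R.permEquiv γ)
      (fun x => F (heckeRep1 hpN x • τ)), ← Finset.prod_mul_distrib]
    refine Finset.prod_congr rfl fun x _ => ?_
    rw [← hF.transform, ← gamma1GL_smul, ← gamma1GL_smul, ← mul_smul, ← mul_smul]
    exact congrArg (fun g => F (g • τ)) (R.rep_mul γ x)

theorem expansionFun_heckeProd {χ : Additive (Gamma1 N) →+ ZMod n} {F : ℍ → ℂ}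
    (hF : IsCharFn χ F) (hχ : IsPar1 χ) :
    qExpand ℂ p (expansionFun 1 (heckeProd hpN F)) =
      (∏ j : ZMod p, twistHom (rootUnit p j.val) (expansionFun 1 F)) *
        qExpand ℂ p (qExpand ℂ p
          (expansionFun 1 (fun τ : ℍ => F ((heckeGam hpN : SL(2, ℤ)) • τ)))) := by
  have hF1 := hF.mem_holInfty_one hχ
  have hg : IsPar1 (conjHom1 (ZMod n) (heckeGam hpN) χ) := conjHom1_isParabolicHom (ZMod n) _ hχ
  have hG1 := (hF.comp_gamma0 (heckeGam hpN)).mem_holInfty_one hg
  have hH1 := (isCharFn_heckeProd hpN hF).mem_holInfty_one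
    (heckeHom1_isParabolicHom (ZMod n) p hχ)
  have hA := fun j : ZMod p => comp_addDiv_spec p j.val hF1
  have hB1 := comp_scaleTau_mem_holInfty p hG1
  have hB : (fun τ : ℍ => F ((heckeGam hpN : SL(2, ℤ)) • scaleTau p τ)) ∈ HolInfty p :=
    ⟨hB1.1, by simpa using hB1.2.1.nat_mul p, hB1.2.2⟩
  have hE : expansionFun p (heckeProd hpN F) = qExpand ℂ p (expansionFun 1 (heckeProd hpN F)) := by
    have h := FLTA.Bridge.expansionFun_mul_period 1 p hH1
    rwa [one_mul] at h
  let a : ZMod p → HolInfty p := fun j => ⟨_, (hA j).1⟩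
  let b : HolInfty p := ⟨_, hB⟩
  have hprod : heckeProd hpN F = (((∏ j, a j) * b : HolInfty p) : ℍ → ℂ) := by
    rw [MulMemClass.coe_mul, SubmonoidClass.coe_finsetProd]
    exact heckeProd_eq hpN F
  rw [← hE, hprod]
  show expansion p ((∏ j, a j) * b) = _
  rw [map_mul, map_prod]
  congr 1
  · exact Finset.prod_congr rfl fun j _ => (hA j).2
  · show expansionFun p (b : ℍ → ℂ) = _
    rw [← FLTA.Bridge.expansionFun_comp_scaleTau p hG1 hB1]
    have h := FLTA.Bridge.expansionFun_mul_period 1 p hB1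
    rw [one_mul] at h
    exact h

end FLTA.DeligneSerre
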