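import Fermat.Agent.DeligneSerre.Rep.Galois
import Fermat.Agent.DeligneSerre.Rigidity.Statement
import Fermat.Agent.DeligneSerre.Rigidity.Descent
import Fermat.Agent.Galois.Places

/-!
# Characters are determined by reductions of expansions at infinity
-/

set_option autoImplicit false

noncomputable section

open scoped MatrixGroups
open UpperHalfPlane CongruenceSubgroup ModularCurve

namespace FLTA.DeligneSerre

local notation "Qb" => AlgebraicClosure ℚ

variable {N n : ℕ} [NeZero N] [NeZero n] {l : ℕ} {B : ValuationSubring Qb}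

theorem exists_aux_level (hl : l.Prime) (hlN : ¬ l ∣ N) :
    ∃ M : ℕ, (M = 2 ∨ M = 3) ∧ ¬ l ∣ N * M := by
  by_cases h : l = 2
  · exact ⟨3, Or.inr rfl, fun hd => by
      rcases hl.dvd_mul.mp hd with h1 | h1
      · exact hlN h1
      · subst h; norm_num at h1⟩
  · exact ⟨2, Or.inl rfl, fun hd => by
      rcases hl.dvd_mul.mp hd with h1 | h1
      · exact hlN h1
      · exact h ((Nat.prime_dvd_prime_iff_eq hl Nat.prime_two).mp h1)⟩

/-- The restriction of a character to `Γ(L)`, `N ∣ L`. -/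
def resChar (θ : Additive (Gamma1 N) →+ ZMod n) (k : ℕ) : Gamma (N * k) →* ℂ :=
  (psi θ).comp (Subgroup.inclusion fun _ hγ => gamma_le_gamma1 (gamma_mul_le hγ))

theorem resChar_apply (θ : Additive (Gamma1 N) →+ ZMod n) (k : ℕ) (γ : Gamma (N * k)) :
    resChar θ k γ = psi θ ⟨(γ : SL(2, ℤ)), gamma_le_gamma1 (gamma_mul_le γ.2)⟩ := by
  simp only [resChar, MonoidHom.comp_apply]
  congr 1

theorem resChar_pow (θ : Additive (Gamma1 N) →+ ZMod n) (k : ℕ) (γ : Gamma (N * k)) :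
    resChar θ k γ ^ n = 1 := by rw [resChar_apply]; exact psi_pow θ _

theorem parTriv_resChar {θ : Additive (Gamma1 N) →+ ZMod n} (h : IsPar1 θ) (k : ℕ) :
    ParTriv (N * k) (resChar θ k) := fun γ g m hγ => by
  rw [resChar_apply]
  refine (psi_eq_one_iff θ _).mpr (h _ ?_)
  show ((γ : SL(2, ℤ)) : Matrix (Fin 2) (Fin 2) ℤ).trace ^ 2 = 4
  rw [hγ, trace_conj_T_zpow]
  norm_num

theorem IsCharFn.mem_tw {θ : Additive (Gamma1 N) →+ ZMod n} {F : ℍ → ℂ} (hF : IsCharFn θ F)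
    (k : ℕ) : F ∈ Tw (N * k) (resChar θ k) :=
  ⟨hF.hol, fun γ τ => by
    rw [resChar_apply]
    exact hF.transform ⟨(γ : SL(2, ℤ)), gamma_le_gamma1 (gamma_mul_le γ.2)⟩ τ, hF.growth⟩

/-- The coefficients at infinity are integral, with nonzero reduction. -/
structure IsRedRep (B : ValuationSubring Qb) (χ : ParV N n) (F : ℍ → ℂ) : Prop where
  char : IsCharFn χ.1 F
  int_one : ∀ m : ℤ, ∃ a : B, iota (a : Qb) = (cexp N F 1).coeff m
  ne_zero : redExp B N F 1 ≠ 0

theorem IsRedRep.fn_ne_zero {χ : ParV N n} {F : ℍ → ℂ} (h : IsRedRep B χ F) : F ≠ 0 := by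
  rintro rfl
  refine h.ne_zero (HahnSeries.ext (funext fun m => ?_))
  show redC B ((cexp N (0 : ℍ → ℂ) 1).coeff m) = 0
  rw [cexp_zero]
  exact redC_zero B

theorem coeff_redExp (A : ValuationSubring Qb) (F : ℍ → ℂ) (g : SL(2, ℤ)) (m : ℤ) :
    (redExp A N F g).coeff m = redC A ((cexp N F g).coeff m) := rfl

/-- An invariant function with algebraic expansion at infinity has algebraic expansions. -/
theorem isAlgFn_of_one {P : ℍ → ℂ} (hP : IsCharFn (0 : Additive (Gamma1 N) →+ ZMod n) P)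
    (h : ∀ m : ℤ, ∃ a : Qb, iota a = (cexp N P 1).coeff m) : IsAlgFn N P := by
  intro g m
  letI : Algebra Qb ℂ := iota.toAlgebra
  refine FLTA.Kummer.mem_range_of_finite_orbit ?_
  refine (Set.finite_singleton ((cexp N P g).coeff m)).subset ?_
  rintro _ ⟨σ, rfl⟩
  obtain ⟨u, -, hu⟩ := exists_cyclo σ.toRingEquiv (N * 2)
  obtain ⟨H, hH, hexp, -⟩ := exists_conj_invariant (M := 2) (Or.inl rfl) (dvd_mul_left 2 N)
    σ.toRingEquiv hu hP
  have hHP : H = P := by
    refine eq_of_cexp_eq (hH.mem_perFn isPar1_zero) (hP.mem_perFn isPar1_zero) (g := 1) ?_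
    rw [hexp 1 1 (GalConj.one N u)]
    refine HahnSeries.ext (funext fun k => ?_)
    obtain ⟨a, ha⟩ := h k
    rw [coeffMap_coeff, ← ha]
    exact σ.commutes a
  obtain ⟨a, ha⟩ := exists_iota_eq_zetaC N
  have hfix : σ.toRingEquiv (zetaC N) = zetaC N := by rw [← ha]; exact σ.commutes a
  have hu1 : (u : ZMod N) = 1 := by
    rw [cyclo_of_dvd hu] at hfix
    have h0 := (isPrimitiveRoot_zetaC N).ne_zero (NeZero.ne N)
    have h1 : zetaC N ^ ((u : ℤ) - 1) = 1 := by
      rw [zpow_sub₀ h0, zpow_natCast, zpow_one, hfix, div_self h0]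
    rw [(isPrimitiveRoot_zetaC N).zpow_eq_one_iff_dvd, ← ZMod.intCast_zmod_eq_zero_iff_dvd] at h1
    push_cast at h1
    exact sub_eq_zero.mp h1
  have h2 := congrArg (fun x : LaurentSeries ℂ => x.coeff m) (hexp g g (galConj_self hu1 g))
  rw [hHP] at h2
  exact h2.symm

variable (hl : l.Prime) (hlN : ¬ l ∣ N) (hln : ¬ l ∣ n) (hB : B.LiesOverPrime l)
include hl hlN hln hB

/-- Scale a function with algebraic `n`-th power. -/
theorem exists_scale_char {χ : ParV N n} {F : ℍ → ℂ} (hF : IsCharFn χ.1 F) (h0 : F ≠ 0)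
    (ha : IsAlgFn N (F ^ n)) :
    ∃ d : Qb, d ≠ 0 ∧ IsIntFn B N (iota d • F) ∧ redExp B N (iota d • F) 1 ≠ 0 := by
  obtain ⟨M, hM, hlL⟩ := exists_aux_level (N := N) hl hlN
  haveI : NeZero M := ⟨by rcases hM with rfl | rfl <;> norm_num⟩
  have hP := hF.pow_mem_fn
  have hPper := fn_le_perFn hP
  obtain ⟨c, hc0, hci, hcr⟩ := exists_scale hM (dvd_mul_left M N) hl hlL hB (fn_mul_level hP)
    (isAlgFn_mul_level hPper ha) (hF.pow_ne_zero' (isPar1_coe χ) h0)
  obtain ⟨d, hd⟩ := IsAlgClosed.exists_pow_nat_eq c (NeZero.pos n)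
  have hd0 : d ≠ 0 := by rintro rfl; rw [zero_pow (NeZero.ne n)] at hd; exact hc0 hd.symm
  have hdF : IsCharFn χ.1 (iota d • F) := hF.smul _
  have hpow : (iota d • F) ^ n = iota c • F ^ n := by rw [smul_pow, ← map_pow, hd]
  have hint : IsIntFn B (N * M) (iota d • F) :=
    isIntFn_of_pow hM (dvd_mul_left M N) hl hlL hB hln (resChar_pow χ.1 M)
      (parTriv_resChar (isPar1_coe χ) M) (hdF.mem_tw M) (hpow ▸ hci)
  have hper := hdF.mem_perFn (isPar1_coe χ)
  have hintN := (isIntFn_mul_level_iff hper).mp hint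
  refine ⟨d, hd0, hintN, fun hz => ?_⟩
  refine redExp_ne_zero hM (dvd_mul_left M N) hl hlL hB
    (Subalgebra.smul_mem _ (fn_mul_level hP) (iota c)) hci hcr 1 ?_
  rw [← hpow, redExp_pow (⟨perFn_mul hper M, hint⟩ : iota d • F ∈ IntFn B (N * M)),
    redExp_mul_level B hper, hz, map_zero, zero_pow (NeZero.ne n)]

theorem exists_redRep (hN : 5 ≤ N) (χ : ParV N n) : ∃ F, IsRedRep B χ F := by
  obtain ⟨hF, h0, ha⟩ := repFn_spec hN χ
  obtain ⟨d, -, hi, hr⟩ := exists_scale_char hl hlN hln hB hF h0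
    (pow_mem (show repFn hN χ ∈ AlgFn N from ⟨hF.mem_perFn (isPar1_coe χ), ha⟩) n).2
  exact ⟨_, hF.smul _, fun m => hi 1 m, hr⟩

theorem IsRedRep.isIntFn {χ : ParV N n} {F : ℍ → ℂ} (h : IsRedRep B χ F) : IsIntFn B N F := by
  have hper := h.char.mem_perFn (isPar1_coe χ)
  have hP : IsCharFn (0 : Additive (Gamma1 N) →+ ZMod n) (F ^ n) := by
    have := h.char.pow n
    rwa [nsmul_char_eq_zero] at this
  have hs : cexp N F 1 ∈ intSeries B := mem_intSeries_iff.mpr h.int_one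
  have halg : IsAlgFn N (F ^ n) := isAlgFn_of_one hP fun m => by
    rw [cexp_pow hper]
    obtain ⟨a, ha⟩ := mem_intSeries_iff.mp (pow_mem hs n) m
    exact ⟨a, ha⟩
  obtain ⟨d, hd0, hdi, hdr⟩ := exists_scale_char hl hlN hln hB h.char h.fn_ne_zero halg
  have hcoef : ∀ (g : SL(2, ℤ)) m, (cexp N (iota d • F) g).coeff m =
      iota d * (cexp N F g).coeff m := fun g m => by
    rw [cexp_smul hper]; rfl
  -- `d` is a unit of `B`
  obtain ⟨m₀, hm₀⟩ : ∃ m, (redExp B N F 1).coeff m ≠ 0 := by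
    by_contra hall
    push Not at hall
    exact h.ne_zero (HahnSeries.ext (funext hall))
  obtain ⟨a₀, ha₀⟩ := h.int_one m₀
  rw [coeff_redExp, ← ha₀, redC_iota, ne_eq, Galois.residue_eq_zero_iff_mem_nonunits] at hm₀
  obtain ⟨b₀, hb₀⟩ := hdi 1 m₀
  rw [hcoef, ← ha₀, ← map_mul] at hb₀
  have hdB : d ∈ B := by
    have ha0 : (a₀ : Qb) ≠ 0 := fun h' => hm₀ (h' ▸ B.nonunits.zero_mem)
    rw [show d = (b₀ : Qb) * (a₀ : Qb)⁻¹ by
      rw [iota.injective hb₀, mul_assoc, mul_inv_cancel₀ ha0, mul_one]]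
    exact mul_mem b₀.2 (Galois.inv_mem_of_not_mem_nonunits hm₀)
  obtain ⟨m₁, hm₁⟩ : ∃ m, (redExp B N (iota d • F) 1).coeff m ≠ 0 := by
    by_contra hall
    push Not at hall
    exact hdr (HahnSeries.ext (funext hall))
  have hdu : d ∉ B.nonunits := by
    intro hdn
    obtain ⟨a₁, ha₁⟩ := h.int_one m₁
    refine hm₁ ?_
    rw [coeff_redExp, hcoef, ← ha₁, ← map_mul]
    rw [show (d * (a₁ : Qb)) = ((⟨d, hdB⟩ * a₁ : B) : Qb) from rfl, redC_iota,
      Galois.residue_eq_zero_iff_mem_nonunits]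
    exact Galois.mul_mem_nonunits_of_mem hdn a₁.2
  have hinv : d⁻¹ ∈ B := Galois.inv_mem_of_not_mem_nonunits hdu
  have hF' := smul_mem_intFn (⟨d⁻¹, hinv⟩ : B)
    (show iota d • F ∈ IntFn B N from ⟨Subalgebra.smul_mem _ hper _, hdi⟩)
  rw [smul_smul, ← map_mul] at hF'
  simp only [inv_mul_cancel₀ hd0, map_one, one_smul] at hF'
  exact hF'.2

theorem IsRedRep.mem_intFn {χ : ParV N n} {F : ℍ → ℂ} (h : IsRedRep B χ F) : F ∈ IntFn B N :=
  ⟨h.char.mem_perFn (isPar1_coe χ), h.isIntFn hl hlN hln hB⟩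

/-- Reductions at all cusps are nonzero. -/
theorem IsRedRep.redExp_ne {χ : ParV N n} {F : ℍ → ℂ} (h : IsRedRep B χ F) (g : SL(2, ℤ)) :
    redExp B N F g ≠ 0 := by
  obtain ⟨M, hM, hlL⟩ := exists_aux_level (N := N) hl hlN
  haveI : NeZero M := ⟨by rcases hM with rfl | rfl <;> norm_num⟩
  have hper := h.char.mem_perFn (isPar1_coe χ)
  have hi := (isIntFn_mul_level_iff (k := M) hper).mpr (h.isIntFn hl hlN hln hB)
  have hmem : F ∈ IntFn B (N * M) := ⟨perFn_mul hper M, hi⟩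
  have hred : ∀ g', redExp B (N * M) (F ^ n) g' = qExpand _ M (redExp B N F g') ^ n := fun g' => by
    rw [redExp_pow hmem, redExp_mul_level B hper]
  intro hz
  refine redExp_ne_zero hM (dvd_mul_left M N) hl hlL hB (fn_mul_level h.char.pow_mem_fn)
    (pow_mem hmem n).2 ⟨1, ?_⟩ g ?_
  · rw [hred]
    exact pow_ne_zero n fun h' => h.ne_zero (qExpand_injective (N := M) (by rw [h', map_zero]))
  · rw [hred, hz, map_zero, zero_pow (NeZero.ne n)]

/-- Characters with equal reductions at infinity are equal. -/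
theorem eq_of_redRep {χ χ' : ParV N n} {f f' : ℍ → ℂ} (h : IsRedRep B χ f)
    (h' : IsRedRep B χ' f') (heq : redExp B N f 1 = redExp B N f' 1) : χ = χ' := by
  obtain ⟨M, hM, hlL⟩ := exists_aux_level (N := N) hl hlN
  haveI : NeZero M := ⟨by rcases hM with rfl | rfl <;> norm_num⟩
  have hf := h.mem_intFn hl hlN hln hB
  have hf' := h'.mem_intFn hl hlN hln hB
  set θ := χ.1 + (n - 1) • χ'.1
  have hθ : IsPar1 θ := (χ + (n - 1) • χ' : ParV N n).2
  have hF : IsCharFn θ (f * f' ^ (n - 1)) := h.char.mul (h'.char.pow (n - 1))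
  have hFi : f * f' ^ (n - 1) ∈ IntFn B N := mul_mem hf (pow_mem hf' _)
  have hbi : f' ^ n ∈ IntFn B N := pow_mem hf' n
  have hred : redExp B N (f * f' ^ (n - 1)) 1 = redExp B N f' 1 ^ n := by
    rw [redExp_mul hf (pow_mem hf' _), redExp_pow hf', heq, ← pow_succ',
      Nat.sub_add_cancel (NeZero.pos n : 1 ≤ n)]
  have h1 : resChar θ M = 1 := by
    refine eq_one_of_redExp_eq (f := f * f' ^ (n - 1)) (b := f' ^ n) hM (dvd_mul_left M N) hl hlL hB
      hln (resChar_pow θ M) (parTriv_resChar hθ M) (hF.mem_tw M)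
      ((isIntFn_mul_level_iff hFi.1).mpr hFi.2) (fn_mul_level h'.char.pow_mem_fn)
      ((isIntFn_mul_level_iff hbi.1).mpr hbi.2) ?_ ?_
    · rw [redExp_mul_level B hFi.1, redExp_mul_level B hbi.1, hred, redExp_pow hf']
    · rw [redExp_mul_level B hFi.1, hred]
      exact fun hz => pow_ne_zero n h'.ne_zero (qExpand_injective (N := M) (by rw [hz, map_zero]))
  have h2 := eq_one_of_trivial_on_gamma (N := N) (N' := N * M)
    (AddMonoidHom.toMultiplicativeRight θ)
    (fun γ hγ => congrArg Multiplicative.ofAdd (hθ γ hγ))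
    (fun γ hγ => by
      have h3 : psi θ γ = 1 := by
        have h3' := DFunLike.congr_fun h1 ⟨(γ : SL(2, ℤ)), hγ⟩
        rw [resChar_apply, MonoidHom.one_apply] at h3'
        exact h3'
      exact congrArg Multiplicative.ofAdd ((psi_eq_one_iff θ γ).mp h3))
  have h4 : θ = 0 := AddMonoidHom.ext fun γ =>
    congrArg Multiplicative.toAdd (DFunLike.congr_fun h2 (Additive.toMul γ))
  refine Subtype.ext (add_right_cancel (b := (n - 1) • χ'.1) ?_)
  rw [add_pred_nsmul (NeZero.ne n)]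
  exact h4

end FLTA.DeligneSerre
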